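import Mathlib.LinearAlgebra.Matrix.Determinant.Basic
import Mathlib.LinearAlgebra.Matrix.Trace
import Mathlib.RingTheory.Valuation.ValuationRing
import Fermat.Agent.LevelLowering.StPoint

/-!
# The monodromy line at a special point

Over a valuation ring, a Frobenius matrix `Φ` with trace `ε (r + 1)` and determinant `r` and a
square zero `N` with `Φ N = r N Φ` kill a common unimodular vector after shifting.
-/

namespace Fermat.Agent.LevelLowering.Scalar

open Matrix

variable {F : Type} [CommRing F]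

/-- The six coordinates at a scalar prime. -/
def coords (ε r : F) (Φ N : Matrix (Fin 2) (Fin 2) F) : Fin 6 → F :=
  ![ε * Φ 0 0 - r, ε * Φ 0 1, ε * Φ 1 0, N 0 0, N 0 1, N 1 0]

theorem map_coords {G : Type} [CommRing G] (f : F →+* G) (ε r : F)
    (Φ N : Matrix (Fin 2) (Fin 2) F) (c : Fin 6) :
    f (coords ε r Φ N c) = coords (f ε) (f r) (Φ.map f) (N.map f) c := by
  fin_cases c <;> simp [coords]

/-- Cayley–Hamilton for the shifted Frobenius. -/
theorem shifted_mul_self {ε r : F} (hε : ε * ε = 1) (Φ : Matrix (Fin 2) (Fin 2) F)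
    (htr : Φ.trace = ε * (r + 1)) (hdet : Φ.det = r) :
    (ε • Φ - r • 1) * (ε • Φ - r • 1) = (1 - r) • (ε • Φ - r • 1) := by
  rw [trace_fin_two] at htr
  rw [det_fin_two] at hdet
  ext i j
  fin_cases i <;> fin_cases j <;> simp [Matrix.mul_apply, Fin.sum_univ_two]
  · linear_combination (Φ 0 0 * ε * ε) * htr - (ε * ε) * hdet + (ε * (r + 1) * Φ 0 0 - r) * hε
  · linear_combination (Φ 0 1 * ε * ε) * htr + (ε * (r + 1) * Φ 0 1) * hε
  · linear_combination (Φ 1 0 * ε * ε) * htr + (ε * (r + 1) * Φ 1 0) * hε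
  · linear_combination (Φ 1 1 * ε * ε) * htr - (ε * ε) * hdet + (ε * (r + 1) * Φ 1 1 - r) * hε

theorem shifted_mul_eq_zero [IsDomain F] {ε r : F} (hε : ε * ε = 1) (hr : r * r ≠ 1)
    (Φ N : Matrix (Fin 2) (Fin 2) F) (htr : Φ.trace = ε * (r + 1)) (hdet : Φ.det = r)
    (hΦN : Φ * N = r • (N * Φ)) : (ε • Φ - r • 1) * N = 0 := by
  set X := ε • Φ - r • (1 : Matrix (Fin 2) (Fin 2) F) with hX
  have hXX : X * X = (1 - r) • X := shifted_mul_self hε Φ htr hdet
  have hXN : X * N = r • (N * X) + (r * (r - 1)) • N := by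
    rw [hX, sub_mul, smul_mul_assoc, hΦN, smul_mul_assoc, one_mul, mul_sub, mul_smul_comm,
      mul_smul_comm, mul_one]
    ext i j
    simp
    ring
  have hXNX : X * N * X = 0 := by
    rw [hXN, add_mul, smul_mul_assoc, smul_mul_assoc, mul_assoc, hXX, mul_smul_comm, smul_smul,
      ← add_smul]
    rw [show r * (1 - r) + r * (r - 1) = 0 by ring, zero_smul]
  have h := congrArg (X * ·) hXN
  simp only [← mul_assoc, hXX, smul_mul_assoc, mul_add, mul_smul_comm, hXNX, smul_zero,
    zero_add] at h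
  rw [← sub_eq_zero, ← sub_smul, show (1 - r) - r * (r - 1) = 1 - r * r by ring] at h
  exact (smul_eq_zero.mp h).resolve_left (sub_ne_zero.mpr fun e => hr e.symm)

/-- With nonzero monodromy the Frobenius trace is `± (r + 1)`. -/
theorem trace_eq_of_monodromy [IsDomain F] {r : F} (hr : r ≠ 0) (hr1 : r ≠ 1)
    (Φ N : Matrix (Fin 2) (Fin 2) F) (hdet : Φ.det = r) (hN : N ≠ 0)
    (hΦN : Φ * N = r • (N * Φ)) : Φ.trace = r + 1 ∨ Φ.trace = -(r + 1) := by
  set t := Φ.trace with ht
  rw [trace_fin_two] at ht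
  rw [det_fin_two] at hdet
  have hCH : Φ * Φ = t • Φ - r • 1 := by
    ext i j
    fin_cases i <;> fin_cases j <;> simp [Matrix.mul_apply, Fin.sum_univ_two, ht] <;>
      first | ring1 | linear_combination -hdet
  have h1 : Φ * Φ * N = r ^ 2 • (N * (Φ * Φ)) := by
    rw [mul_assoc, hΦN, mul_smul_comm, ← mul_assoc, hΦN, smul_mul_assoc, smul_smul, ← pow_two,
      mul_assoc]
  rw [hCH, sub_mul, smul_mul_assoc, smul_mul_assoc, one_mul, mul_sub, mul_smul_comm,
    mul_smul_comm, mul_one] at h1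
  have h2 : (1 - r) • (t • (Φ * N)) = (1 - r) • ((r * (1 + r)) • N) := by
    have e : r ^ 2 • (t • (N * Φ) - r • N) = (r * t) • (Φ * N) - r ^ 3 • N := by
      rw [hΦN]
      module
    rw [e] at h1
    linear_combination (norm := module) h1
  have h3 : t • (Φ * N) = (r * (1 + r)) • N := smul_right_injective _ (sub_ne_zero.mpr hr1.symm) h2
  have h4 : (r ^ 2 * (t ^ 2 - (1 + r) ^ 2)) • N = 0 := by
    have e1 : t • (Φ * (t • (Φ * N))) = (r * (1 + r)) • (t • (Φ * N)) := by
      rw [h3, mul_smul_comm, smul_comm, h3]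
    rw [mul_smul_comm, smul_smul, ← mul_assoc, hCH, sub_mul, smul_mul_assoc, smul_mul_assoc,
      one_mul, h3, smul_sub, smul_smul, smul_smul, smul_smul] at e1
    linear_combination (norm := module) e1
  have h5 : (t - (r + 1)) * (t + (r + 1)) = 0 := by
    have h6 := (smul_eq_zero.mp h4).resolve_right hN
    rcases mul_eq_zero.mp h6 with h7 | h7
    · exact absurd (pow_eq_zero_iff two_ne_zero |>.mp h7) hr
    · linear_combination h7
  rcases mul_eq_zero.mp h5 with h | h
  · exact Or.inl (sub_eq_zero.mp h)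
  · exact Or.inr (eq_neg_of_add_eq_zero_left h)

/-- A nonzero vector killed by two matrices can be made unimodular. -/
theorem exists_unimodular [IsDomain F] [ValuationRing F] (X N : Matrix (Fin 2) (Fin 2) F)
    {v : Fin 2 → F} (hv : v ≠ 0) (hXv : X.mulVec v = 0) (hNv : N.mulVec v = 0) :
    ∃ e : Fin 2 → F, (IsUnit (e 0) ∨ IsUnit (e 1)) ∧ X.mulVec e = 0 ∧ N.mulVec e = 0 := by
  have key : ∀ (e : Fin 2 → F) (c : F), v = c • e → X.mulVec e = 0 ∧ N.mulVec e = 0 := by
    intro e c hc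
    have hc0 : c ≠ 0 := fun h => hv (by rw [hc, h, zero_smul])
    rw [hc, Matrix.mulVec_smul] at hXv hNv
    exact ⟨(smul_eq_zero.mp hXv).resolve_left hc0, (smul_eq_zero.mp hNv).resolve_left hc0⟩
  rcases ValuationRing.dvd_total (v 0) (v 1) with ⟨w, hw⟩ | ⟨w, hw⟩
  · exact ⟨![1, w], Or.inl (by simp), key _ (v 0) (by ext i; fin_cases i <;> simp [hw])⟩
  · exact ⟨![w, 1], Or.inr (by simp), key _ (v 1) (by ext i; fin_cases i <;> simp [hw])⟩

/-- **The line at a special point.** -/
theorem exists_onLine [IsDomain F] [ValuationRing F] {ε r h : F} (hε : ε * ε = 1)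
    (hh : 2 * h = r - 1) (hr : r * r ≠ 1) (Φ N : Matrix (Fin 2) (Fin 2) F)
    (htr : Φ.trace = ε * (r + 1)) (hdet : Φ.det = r) (hNtr : N.trace = 0) (hN : N * N = 0)
    (hΦN : Φ * N = r • (N * Φ)) :
    ∃ e : Fin 2 → F, (IsUnit (e 0) ∨ IsUnit (e 1)) ∧ OnLine h e (coords ε r Φ N) := by
  set X := ε • Φ - r • (1 : Matrix (Fin 2) (Fin 2) F) with hX
  obtain ⟨v, hv, hXv, hNv⟩ : ∃ v : Fin 2 → F, v ≠ 0 ∧ X.mulVec v = 0 ∧ N.mulVec v = 0 := by
    have col : ∀ Y : Matrix (Fin 2) (Fin 2) F, Y ≠ 0 → X * Y = 0 → N * Y = 0 →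
        ∃ v : Fin 2 → F, v ≠ 0 ∧ X.mulVec v = 0 ∧ N.mulVec v = 0 := by
      intro Y hY h1 h2
      obtain ⟨j, hj⟩ : ∃ j, (fun i => Y i j) ≠ 0 := by
        by_contra hne
        push Not at hne
        exact hY (by ext i j; exact congrFun (hne j) i)
      exact ⟨_, hj, funext fun i => congrFun (congrFun h1 i) j,
        funext fun i => congrFun (congrFun h2 i) j⟩
    by_cases hN0 : N = 0
    · refine col (X - (1 - r) • 1) (fun h0 => hr ?_) ?_ (by rw [hN0, zero_mul])
      · have h1 := congrArg Matrix.trace h0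
        rw [Matrix.trace_sub, Matrix.trace_zero, hX, Matrix.trace_sub, Matrix.trace_smul,
          Matrix.trace_smul, Matrix.trace_smul, Matrix.trace_one, htr] at h1
        simp at h1
        have h2 : r = 1 := by linear_combination h1 - (r + 1) * hε
        rw [h2, mul_one]
      · rw [mul_sub, shifted_mul_self hε Φ htr hdet, mul_smul_comm, mul_one, sub_self]
    · exact col N hN0 (shifted_mul_eq_zero hε hr Φ N htr hdet hΦN) hN
  obtain ⟨e, he, hXe, hNe⟩ := exists_unimodular X N hv hXv hNv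
  refine ⟨e, he, ?_⟩
  rw [trace_fin_two] at htr hNtr
  have h0 := congrFun hXe 0
  have h1 := congrFun hXe 1
  have h2 := congrFun hNe 0
  have h3 := congrFun hNe 1
  simp [hX, Matrix.mulVec, dotProduct, Fin.sum_univ_two] at h0 h1 h2 h3
  simp only [OnLine, coords, Matrix.cons_val, Matrix.cons_val_zero, Matrix.cons_val_one]
  refine ⟨?_, ?_, ?_, ?_⟩
  · linear_combination h0
  · linear_combination h1 - e 1 * ε * htr - e 1 * hh - e 1 * (r + 1) * hε
  · linear_combination h2
  · linear_combination h3 - e 1 * hNtr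

end Fermat.Agent.LevelLowering.Scalar
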