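import Fermat.Agent.LevelLowering.Lift
import Fermat.Agent.LevelLowering.MazurPrinciple.TameGen
import Fermat.Agent.LevelLowering.Scalar.Line
import Fermat.Agent.TW.GW.Places
import Fermat.Agent.TW.Local.Generate
import Fermat.Agent.TW.Local.TameCocycle
import Fermat.Agent.TW.Tangent

/-!
# Generators modulo the coordinates at scalar primes

A tangent vector killing the coordinates at a scalar prime gives a class that is trivial on the
decomposition group there; if the ring is generated by traces such classes detect it.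
-/

noncomputable section

namespace Fermat.Agent.LevelLowering.Scalar

open Module IsLocalRing Matrix Fermat.Agent.Gal Fermat.Agent.PT Fermat.Agent.PT.Lv Fermat.Agent.TW

section Local

variable {k : Type} [Field k] {M : Type} [AddCommGroup M] [Module k M]
  (ρ : Representation k AG M)

/-- A cocycle killing Frobenius and a tame generator is trivial on the decomposition group. -/
theorem eq_zero_on_decomposition {p : ℕ} [CharP k p] {r : ℕ} (hr : r.Prime)
    {U : Subgroup AG} (hU : U ∈ lvQ) (hρU : ∀ s ∈ U, ρ s = 1) {c : AG → M} (hc : c ∈ Z1 lvQ ρ)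
    {A : ValuationSubring (AlgebraicClosure ℚ)} (hA : A.LiesOverPrime r)
    (hI : ∀ s ∈ A.inertiaSubgroupIn ℚ, ρ s = 1) {φ σ : AG} (hφ : A.IsFrobeniusAt φ r)
    (hσ : MazurPrinciple.IsTameGenerator p A σ) (hcσ : c σ = 0) (hcφ : c φ = 0) :
    ∀ g ∈ A.decompositionSubgroup ℚ, c g = 0 := by
  obtain ⟨⟨V, hV, hVc⟩, hcm⟩ := mem_Z1.1 hc
  obtain ⟨L, hL, hLUV⟩ := exists_field_fixing (lvQ.inf_mem hU hV)
  let π : AG →* (Module.End k (M × k))ˣ := (affHom ρ hcm).toHomUnits
  have hπ1 : ∀ g, π g = 1 ↔ ρ g = 1 ∧ c g = 0 := fun g => by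
    constructor
    · intro h
      have h' : affHom ρ hcm g = 1 := congrArg Units.val h
      have h2 := LinearMap.congr_fun h' ((0 : M), (1 : k))
      simp [affHom_apply] at h2
      refine ⟨LinearMap.ext fun m => ?_, h2⟩
      have h3 := LinearMap.congr_fun h' (m, (0 : k))
      simpa [affHom_apply] using h3
    · rintro ⟨h1, h2⟩
      exact Units.ext (LinearMap.ext fun x => by simp [π, affHom_apply, h1, h2])
  have hpow : ∀ g, ρ g = 1 → ∀ j : ℕ, c (g ^ j) = j • c g := by
    intro g hg j
    induction j with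
    | zero => rw [pow_zero, zero_smul]; exact Z1_apply_one hc
    | succ j ih => rw [pow_succ', hcm, ih, hg, Module.End.one_apply, add_smul, one_smul]
  -- inertia
  have hin : ∀ τ ∈ A.inertiaSubgroupIn ℚ, c τ = 0 := fun τ hτ => by
    have h := hσ.2 _ π L hL
      (fun s hs => by
        obtain ⟨h1, h2⟩ := hLUV s hs
        refine (hπ1 s).2 ⟨hρU s h1, ?_⟩
        have := hVc 1 s h2
        rwa [one_mul, Z1_apply_one hc] at this)
      (fun τ hτ => ⟨1, by
        rw [pow_one, ← map_pow]
        refine (hπ1 _).2 ⟨by rw [map_pow, hI τ hτ, one_pow], ?_⟩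
        rw [hpow τ (hI τ hτ), ← Nat.cast_smul_eq_nsmul k, CharP.cast_eq_zero, zero_smul]⟩) τ hτ
    rw [(hπ1 σ).2 ⟨hI σ hσ.1, hcσ⟩, Subgroup.zpowers_one_eq_bot, Subgroup.mem_bot] at h
    exact ((hπ1 τ).1 h).2
  intro g hg
  obtain ⟨i, ι, hι, hu⟩ := exists_frob_pow_mul hr hA hφ (lvQ.inf_mem hU hV) hg
  have hφi : c (φ ^ i) = 0 := by
    clear hu
    induction i with
    | zero => rw [pow_zero]; exact Z1_apply_one hc
    | succ j ih => rw [pow_succ', hcm, ih, map_zero, hcφ, add_zero]
  have h := hVc (φ ^ i * ι) _ hu.2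
  rwa [mul_inv_cancel_left, hcm, hin ι hι, map_zero, hφi, add_zero] at h

/-- Triviality on one decomposition group propagates to the standard one. -/
theorem mem_locB1_decQ_of_eq_zero {r : ℕ} [Fact r.Prime] {c : AG → M} (hc : c ∈ Z1 lvQ ρ)
    {A : ValuationSubring (AlgebraicClosure ℚ)} (hA : A.LiesOverPrime r)
    (h : ∀ g ∈ A.decompositionSubgroup ℚ, c g = 0) : c ∈ locB1 ρ (decQ r) := by
  obtain ⟨g, hg⟩ := Gal.exists_smul_eq (Fact.out : r.Prime) (padicPlace_liesOverPrime (q := r)) hA
  refine locB1_conj hc g⁻¹ (fun s hs => ?_)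
    ⟨0, fun s hs => by rw [h s hs, map_zero, sub_zero]⟩
  have h1 := Gal.conj_mem_decomposition hs g
  rw [hg] at h1
  rwa [inv_inv]

end Local

section Tangent

variable {O : Type} [CommRing O] [IsLocalRing O] {T : Type} [CommRing T] [IsLocalRing T]
  [Algebra O T] [IsLocalHom (algebraMap O T)]
variable {ρbar : ResidualGaloisRep (ResidueField O)} {bbar : Basis (Fin 2) (ResidueField O) ρbar.V}
  {hres : Function.Surjective (residue T ∘ algebraMap O T)}
  {ρ : GaloisRepAdic T} {b : Basis (Fin 2) T ρ.V} (hb : Adapted bbar hres ρ b)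
  {p : ℕ} [Fact p.Prime] (hdet : ρ.DetIsCyclotomic p)

/-- A tangent vector killing three entries of a matrix with scalar residual image has zero
cocycle value there. -/
theorem tanCocycle_eq_zero (δ : tangent hres) (g : AG) {s : ResidueField O}
    (hg : rbar bbar g⁻¹ = s • 1) (hs : s ≠ 0)
    (h00 : (δ : T → ResidueField O) (matrixRep b ρ.ρ g 0 0) = 0)
    (h01 : (δ : T → ResidueField O) (matrixRep b ρ.ρ g 0 1) = 0)
    (h10 : (δ : T → ResidueField O) (matrixRep b ρ.ρ g 1 0) = 0) :
    tanCocycle hb hdet δ g = 0 := by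
  have htr := trace_tanMat_mul_eq_zero hb δ.2 (det_eq_zero_of_isCyclotomic (b := b) δ.2 hdet g)
  rw [hg, Matrix.mul_smul, mul_one, trace_smul, smul_eq_mul, mul_eq_zero, trace_fin_two] at htr
  have h11 := htr.resolve_left hs
  simp only [tanMat, map_apply, h00, zero_add] at h11
  refine Subtype.ext ?_
  rw [coe_tanCocycle, ZeroMemClass.coe_zero]
  have h0 : tanMat ρ b (δ : T → ResidueField O) g = 0 := by
    ext i j
    fin_cases i <;> fin_cases j
    exacts [h00, h01, h10, h11]
  rw [h0, zero_mul]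

include hb in
/-- Tangent vectors killing the six coordinates give classes trivial on the decomposition group. -/
theorem tanCocycle_eq_zero_on_decomposition [CharP (ResidueField O) p] {r : ℕ} (hr : r.Prime)
    {A : ValuationSubring (AlgebraicClosure ℚ)} (hA : A.LiesOverPrime r)
    {φ σ : AG} (hφ : A.IsFrobeniusAt φ r) (hσ : MazurPrinciple.IsTameGenerator p A σ)
    (hI : ∀ τ ∈ A.inertiaSubgroupIn ℚ, rbar bbar τ = 1) {ε : O} (hε : ε * ε = 1)
    (hφε : rbar bbar φ = residue O ε • 1)
    (δ : tangent hres) (hδ : ∀ c, (δ : T → ResidueField O)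
      (coords (algebraMap O T ε) (r : T) (matrixRep b ρ.ρ φ) (matrixRep b ρ.ρ σ - 1) c) = 0) :
    ∀ g ∈ A.decompositionSubgroup ℚ, tanCocycle hb hdet δ g = 0 := by
  have hεr : residue O ε * residue O ε = 1 := by rw [← map_mul, hε, map_one]
  have hε0 : residue O ε ≠ 0 := fun h => by simp [h] at hεr
  obtain ⟨hadd, hO, hmul⟩ := δ.2
  have hsub : ∀ x y, (δ : T → ResidueField O) (x - y) =
      (δ : T → ResidueField O) x - (δ : T → ResidueField O) y := fun x y => by
    have := hadd (x - y) y
    rw [sub_add_cancel] at this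
    rw [this, add_sub_cancel_right]
  have hnat : ∀ n : ℕ, (δ : T → ResidueField O) (n : T) = 0 := fun n => by
    rw [← map_natCast (algebraMap O T) n]; exact hO _
  have hεx : ∀ x, (δ : T → ResidueField O) (algebraMap O T ε * x) =
      residue O ε * (δ : T → ResidueField O) x := fun x => by
    rw [hmul, hO, toRes_algebraMap, mul_zero, add_zero]
  obtain ⟨L, hL, hL1⟩ := ρbar.factorsThroughFiniteLevel
  have hU : ∀ s ∈ L.fixingSubgroup, adRep (rbar bbar) s = 1 := fun s hs => by
    have h1 : rbar bbar s = 1 := by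
      show LinearMap.toMatrixAlgEquiv bbar (ρbar.ρ s) = 1
      rw [hL1 s fun x hx => (IntermediateField.mem_fixingSubgroup_iff _ _).1 hs x hx, map_one]
    have h2 : rbar bbar s⁻¹ = 1 := by rw [← rbar_mul_inv (bbar := bbar) s, h1, one_mul]
    exact LinearMap.ext fun X => Subtype.ext (by
      rw [coe_adRep, h1, h2, one_mul, mul_one, Module.End.one_apply])
  refine eq_zero_on_decomposition (adRep (rbar bbar)) hr (fixingSubgroup_mem_krull L) hU
    (tanCocycle_mem_Z1 hb hdet δ) hA (fun τ hτ => ?_) hφ hσ ?_ ?_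
  · exact LinearMap.ext fun X => Subtype.ext (by
      rw [coe_adRep, hI τ hτ, hI τ⁻¹ (inv_mem hτ), one_mul, mul_one, Module.End.one_apply])
  · refine tanCocycle_eq_zero hb hdet δ σ (s := 1) (by rw [hI _ (inv_mem hσ.1), one_smul])
      one_ne_zero ?_ ?_ ?_
    · have h := hδ 3
      simp [coords, hsub] at h
      rw [sub_eq_zero.1 h]
      simpa using hnat 1
    · simpa [coords] using hδ 4
    · simpa [coords] using hδ 5
  · refine tanCocycle_eq_zero hb hdet δ φ (s := residue O ε) ?_ hε0 ?_ ?_ ?_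
    · have h := rbar_inv_mul (bbar := bbar) φ
      rw [hφε, Matrix.mul_smul, mul_one] at h
      rw [← h, smul_smul, hεr, one_smul]
    · have h := hδ 0
      simpa [coords, hsub, hnat, hεx, hε0] using h
    · simpa [coords, hεx, hε0] using hδ 1
    · simpa [coords, hεx, hε0] using hδ 2

include hb hdet in
/-- If the ring is generated by traces, tangent vectors with coboundary classes vanish. -/
theorem eq_zero_of_mem_B1_of_traces (δ : tangent hres) {S : Set T}
    (hS : ∀ s ∈ S, ∃ g, s = trace (matrixRep b ρ.ρ g)) (hgen : Algebra.adjoin O S = ⊤)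
    (h : tanCocycle hb hdet δ ∈ B1 (adRep (rbar bbar))) : δ = 0 := by
  obtain ⟨X, hX⟩ := h
  obtain ⟨hadd, hO, hmul⟩ := δ.2
  have htr : ∀ g, (δ : T → ResidueField O) (trace (matrixRep b ρ.ρ g)) = 0 := by
    intro g
    have h1 := congrArg Subtype.val (congrFun hX g)
    rw [coe_tanCocycle, d0_apply, AddSubgroupClass.coe_sub, coe_adRep] at h1
    have h2 : tanMat ρ b (δ : T → ResidueField O) g =
        rbar bbar g * (X : M2 (ResidueField O)) - (X : M2 (ResidueField O)) * rbar bbar g := by
      calc tanMat ρ b (δ : T → ResidueField O) g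
          = tanMat ρ b (δ : T → ResidueField O) g * rbar bbar g⁻¹ * rbar bbar g := by
            rw [mul_assoc, rbar_inv_mul, mul_one]
        _ = _ := by
            rw [← h1, sub_mul, mul_assoc (rbar bbar g * (X : M2 (ResidueField O))) (rbar bbar g⁻¹),
              rbar_inv_mul, mul_one]
    have h3 := congrArg trace h2
    rw [trace_sub, trace_mul_comm, sub_self] at h3
    rw [trace_fin_two, hadd]
    simpa [tanMat, trace_fin_two] using h3
  refine Subtype.ext (funext fun x => ?_)
  show (δ : T → ResidueField O) x = 0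
  have hx : x ∈ Algebra.adjoin O S := hgen ▸ Algebra.mem_top
  induction hx using Algebra.adjoin_induction with
  | mem s hs => obtain ⟨g, rfl⟩ := hS s hs; exact htr g
  | algebraMap c => exact hO c
  | add x y _ _ hx hy => rw [hadd, hx, hy, add_zero]
  | mul x y _ _ hx hy => rw [hmul, hx, hy, mul_zero, mul_zero, add_zero]

include hb hdet in
/-- **Generators modulo coordinates.** -/
theorem exists_gens {a : ℕ} (c : Fin a → T) (hc : ∀ i, c i ∈ maximalIdeal T) {S : Set T}
    (hS : ∀ s ∈ S, ∃ g, s = trace (matrixRep b ρ.ρ g)) (hgen : Algebra.adjoin O S = ⊤)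
    (Z : Submodule (ResidueField O) (AG → sl2 (ResidueField O)))
    (hZ : ∀ δ : tangent hres, (∀ i, (δ : T → ResidueField O) (c i) = 0) →
      tanCocycle hb hdet δ ∈ Z)
    [FiniteDimensional (ResidueField O) (classes (adRep (rbar bbar)) Z)] {g : ℕ}
    (hg : finrank (ResidueField O) (classes (adRep (rbar bbar)) Z) ≤ g) :
    ∃ y : Fin g → T, (∀ j, y j ∈ maximalIdeal T) ∧
      maximalIdeal T ≤ relIdeal (𝒪 := O) c ⊔ Ideal.span (Set.range y) := by
  classical
  let W : Submodule (ResidueField O) (T → ResidueField O) :=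
    tangent hres ⊓ ⨅ i, LinearMap.ker (LinearMap.proj (c i))
  have hWc : ∀ δ ∈ W, ∀ i, δ (c i) = 0 := fun δ hδ i =>
    LinearMap.mem_ker.1 ((Submodule.mem_iInf _).1 hδ.2 i)
  let ι : W →ₗ[ResidueField O] tangent hres := Submodule.inclusion inf_le_left
  let f : W →ₗ[ResidueField O] classes (adRep (rbar bbar)) Z :=
    LinearMap.codRestrict _
      ((B1 (adRep (rbar bbar))).mkQ.comp ((tanCocycle hb hdet).comp ι))
      fun δ => ⟨_, hZ (ι δ) (hWc δ δ.2), rfl⟩
  have hf : Function.Injective f := by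
    refine LinearMap.ker_eq_bot.1 ((Submodule.eq_bot_iff _).2 fun δ hδ => ?_)
    have h1 := congrArg Subtype.val (LinearMap.mem_ker.1 hδ)
    have h2 := eq_zero_of_mem_B1_of_traces hb hdet (ι δ) hS hgen
      ((Submodule.Quotient.mk_eq_zero _).1 h1)
    exact Subtype.ext (congrArg (fun z : tangent hres => (z : T → ResidueField O)) h2)
  have := FiniteDimensional.of_injective f hf
  have hWg : finrank (ResidueField O) W ≤ g :=
    (LinearMap.finrank_le_finrank_of_injective hf).trans hg
  obtain ⟨u, hu⟩ := exists_points_injective W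
  choose o ho using exists_sub_algebraMap_mem hres
  let y : Fin g → T := fun i =>
    if h : (i : ℕ) < finrank (ResidueField O) W then u ⟨i, h⟩ - algebraMap O T (o (u ⟨i, h⟩)) else 0
  have hy : ∀ i, y i ∈ maximalIdeal T := fun i => by
    simp only [y]; split_ifs
    · exact ho _
    · exact zero_mem _
  refine ⟨y, hy, le_of_tangent_eq_zero hres
    (sup_le (relIdeal_le c hc) (Ideal.span_le.2 (Set.range_subset_iff.2 hy)))
    (le_sup_right.trans (le_sup_left.trans le_sup_left)) (le_sup_right.trans le_sup_left)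
    fun δ hδ hδI => ?_⟩
  have hδW : δ ∈ W := ⟨hδ, (Submodule.mem_iInf _).2 fun i => LinearMap.mem_ker.2
    (hδI _ (Ideal.mem_sup_left (Ideal.mem_sup_left (Ideal.mem_sup_left
      (Ideal.subset_span ⟨i, rfl⟩)))))⟩
  refine hu δ hδW fun j => ?_
  have h1 := hδI _ (Ideal.mem_sup_right (Ideal.subset_span ⟨⟨j, j.2.trans_le hWg⟩, rfl⟩))
  simp only [y, dif_pos j.2] at h1
  have h2 : δ (u j - algebraMap O T (o (u j))) + δ (algebraMap O T (o (u j))) = δ (u j) := by
    rw [← hδ.1, sub_add_cancel]
  rwa [h1, hδ.2.1, add_zero, eq_comm] at h2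

end Tangent

end Fermat.Agent.LevelLowering.Scalar
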