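import Mathlib.LinearAlgebra.Matrix.Charpoly.Coeff
import Mathlib.RingTheory.Filtration
import Fermat.Agent.Attach.TwoDim
import Fermat.Agent.LevelLowering.Scalar.Line
import Fermat.Agent.LevelLowering.TWInertia
import Fermat.Agent.TW.Tame

/-!
# Points with unipotent inertia at a scalar prime have a monodromy line

The tame relation between a Frobenius element and inertia, and the line it gives for a
representation over a valuation domain.
-/

noncomputable section

namespace Fermat.Agent.LevelLowering.Scalar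

open IsLocalRing Polynomial Matrix

local notation "Qbar" => AlgebraicClosure ℚ
local notation "GQ" => (AlgebraicClosure ℚ ≃ₐ[ℚ] AlgebraicClosure ℚ)

variable {T : Type} [CommRing T] [IsLocalRing T]

variable [IsNoetherianRing T]

/-- **The tame relation.** -/
theorem frobenius_mul_inertia {p r : ℕ} (hp : p.Prime) (hr : r.Prime) (hpr : p ≠ r)
    (hpT : (p : T) ∈ maximalIdeal T) (M : GQ →* Matrix (Fin 2) (Fin 2) T)
    (hM : ∀ n, ∃ L : IntermediateField ℚ Qbar, FiniteDimensional ℚ L ∧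
      ∀ σ : GQ, (∀ x ∈ L, σ x = x) → Attach.NearOne (maximalIdeal T ^ n) (M σ))
    {A : ValuationSubring Qbar} (hA : A.LiesOverPrime r) {Φ : GQ} (hΦ : A.IsFrobeniusAt Φ r)
    (hres : ∀ σ ∈ A.inertiaSubgroupIn ℚ, (M σ).map (residue T) = 1)
    {σ : GQ} (hσ : σ ∈ A.inertiaSubgroupIn ℚ) : M Φ * M σ = M σ ^ r * M Φ := by
  ext i j
  refine sub_eq_zero.mp ?_
  rw [← Ideal.mem_bot, ← Ideal.iInf_pow_eq_bot_of_isLocalRing (maximalIdeal T)
    (maximalIdeal.isMaximal T).ne_top, Submodule.mem_iInf]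
  intro n
  obtain ⟨L, hL, hLn⟩ := hM n
  let Q : Matrix (Fin 2) (Fin 2) T →+* Matrix (Fin 2) (Fin 2) (T ⧸ maximalIdeal T ^ n) :=
    (Ideal.Quotient.mk (maximalIdeal T ^ n)).mapMatrix
  have hQ1 : ∀ g : Matrix (Fin 2) (Fin 2) T, (∀ a b, (g - 1) a b ∈ maximalIdeal T ^ n) → Q g = 1 :=
    fun g hg => sub_eq_zero.mp (by
      rw [← map_one Q, ← map_sub]
      ext a b
      exact Ideal.Quotient.eq_zero_iff_mem.mpr (hg a b))
  let π : GQ →* (Matrix (Fin 2) (Fin 2) (T ⧸ maximalIdeal T ^ n))ˣ :=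
    (Q.toMonoidHom.comp M).toHomUnits
  have h := (TW.exists_inertia_generator_frobenius hr hp hpr hA π L
    (fun g hg => Units.ext (hQ1 _ fun a b => by rw [Matrix.sub_apply]; exact hLn g hg a b))
    (fun τ hτ => ⟨n, Units.ext (by
      rw [Units.val_pow_eq_pow_val, Units.val_one]
      show Q (M τ) ^ p ^ n = 1
      rw [← map_pow]
      exact hQ1 _ fun a b =>
        Ideal.pow_le_pow_right n.le_succ (pow_prime_pow_sub_one_mem hpT (hres τ hτ) n a b))⟩)).1
    Φ hΦ σ hσ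
  rw [map_mul, map_mul, map_inv, mul_inv_eq_iff_eq_mul] at h
  have h' : Q (M Φ) * Q (M σ) = Q (M σ) ^ r * Q (M Φ) := congrArg Units.val h
  rw [← map_pow Q, ← map_mul Q, ← map_mul Q] at h'
  exact Ideal.Quotient.eq.mp (congrFun (congrFun h' i) j)

/-- The monodromy relation `Φ (σ - 1) = r (σ - 1) Φ`. -/
theorem frobenius_mul_inertia_sub {p r : ℕ} (hp : p.Prime) (hr : r.Prime) (hpr : p ≠ r)
    (hpT : (p : T) ∈ maximalIdeal T) (M : GQ →* Matrix (Fin 2) (Fin 2) T)
    (hM : ∀ n, ∃ L : IntermediateField ℚ Qbar, FiniteDimensional ℚ L ∧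
      ∀ σ : GQ, (∀ x ∈ L, σ x = x) → Attach.NearOne (maximalIdeal T ^ n) (M σ))
    {A : ValuationSubring Qbar} (hA : A.LiesOverPrime r) {Φ : GQ} (hΦ : A.IsFrobeniusAt Φ r)
    (hres : ∀ σ ∈ A.inertiaSubgroupIn ℚ, (M σ).map (residue T) = 1)
    {σ : GQ} (hσ : σ ∈ A.inertiaSubgroupIn ℚ) (huni : (M σ).charpoly = (X - 1) ^ 2) :
    M Φ * (M σ - 1) = (r : T) • ((M σ - 1) * M Φ) := by
  have hCH := Matrix.aeval_self_charpoly (M σ)
  rw [huni, map_pow, map_sub, map_one, aeval_X, sq] at hCH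
  have key : ∀ m : ℕ, (1 + (M σ - 1)) ^ m = 1 + (m : T) • (M σ - 1) := fun m => by
    induction m with
    | zero => simp
    | succ m ih =>
      rw [pow_succ, ih, add_mul, one_mul, smul_mul_assoc, mul_add, mul_one, hCH, add_zero,
        Nat.cast_succ, add_smul, one_smul]
      abel
  have hpow : M σ ^ r = 1 + (r : T) • (M σ - 1) := by rw [← key, add_sub_cancel]
  rw [mul_sub, frobenius_mul_inertia hp hr hpr hpT M hM hA hΦ hres hσ, hpow, add_mul, one_mul,
    mul_one, smul_mul_assoc, add_sub_cancel_left]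

/-- **The line at a point.** -/
theorem exists_onLine_of_rep {T : Type} [CommRing T] [IsDomain T] [ValuationRing T]
    [IsNoetherianRing T] [CharZero T] {p r : ℕ}
    (hp : p.Prime) (hr : r.Prime) (hpr : p ≠ r) (hpT : (p : T) ∈ maximalIdeal T)
    (M : GQ →* Matrix (Fin 2) (Fin 2) T)
    (hM : ∀ n, ∃ L : IntermediateField ℚ Qbar, FiniteDimensional ℚ L ∧
      ∀ σ : GQ, (∀ x ∈ L, σ x = x) → Attach.NearOne (maximalIdeal T ^ n) (M σ))
    {A : ValuationSubring Qbar} (hA : A.LiesOverPrime r) {Φ : GQ} (hΦ : A.IsFrobeniusAt Φ r)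
    (hres : ∀ σ ∈ A.inertiaSubgroupIn ℚ, (M σ).map (residue T) = 1)
    {σ : GQ} (hσ : σ ∈ A.inertiaSubgroupIn ℚ) (huni : (M σ).charpoly = (X - 1) ^ 2)
    {ε h : T} (hε : ε * ε = 1) (hh : 2 * h = (r : T) - 1)
    (htr : (M Φ).trace = ε * ((r : T) + 1)) (hdet : (M Φ).det = (r : T)) :
    ∃ e : Fin 2 → T, (IsUnit (e 0) ∨ IsUnit (e 1)) ∧
      OnLine h e (coords ε (r : T) (M Φ) (M σ - 1)) := by
  have hCH := Matrix.aeval_self_charpoly (M σ)
  rw [huni, map_pow, map_sub, map_one, aeval_X, sq] at hCH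
  have hNtr : (M σ - 1).trace = 0 := by
    have h1 := congrArg (fun P : T[X] => P.coeff 1) huni
    simp [Matrix.charpoly_fin_two, sub_sq, coeff_X_pow, coeff_one] at h1
    rw [Matrix.trace_sub, Matrix.trace_one, h1]
    simp
  refine exists_onLine hε hh ?_ _ _ htr hdet hNtr hCH ?_
  · rw [← Nat.cast_mul, Ne, Nat.cast_eq_one]
    exact fun h => hr.ne_one (Nat.eq_one_of_mul_eq_one_left h)
  · exact frobenius_mul_inertia_sub hp hr hpr hpT M hM hA hΦ hres hσ huni

end Fermat.Agent.LevelLowering.Scalar
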