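import Fermat.Agent.LevelLowering.Patched
import Fermat.Agent.LevelLowering.Scalar.Gens
import Fermat.Agent.LevelLowering.Scalar.Points

/-!
# Taylor–Wiles levels with scalar primes give patching levels

A local algebra with an adapted representation, enough points at which inertia at the scalar
primes is unipotent, and a bound for the strict classes gives a `PatchLevel`.
-/

noncomputable section

namespace Fermat.Agent.LevelLowering.Scalar

open Module IsLocalRing Matrix Polynomial Fermat.Agent.Gal Fermat.Agent.TW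

local notation "Qbar" => AlgebraicClosure ℚ

section Basics

variable {T : Type} [CommRing T] [IsLocalRing T]

/-- Matrices of an adic representation are continuous. -/
theorem exists_nearOne (ρ : GaloisRepAdic T) (b : Basis (Fin 2) T ρ.V) (n : ℕ) :
    ∃ L : IntermediateField ℚ Qbar, FiniteDimensional ℚ L ∧
      ∀ g : AG, (∀ x ∈ L, g x = x) →
        Attach.NearOne (maximalIdeal T ^ n) (matrixRep b ρ.ρ g) := by
  obtain ⟨L, hL, h⟩ := ρ.isAdicContinuous n
  refine ⟨L, hL, fun g hg i j => ?_⟩
  have h1 := repr_mem_of_mem_smul_top b (h g hg (b j)) i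
  rw [map_sub, Finsupp.sub_apply, b.repr_self] at h1
  simpa [matrixRep, LinearMap.toMatrixAlgEquiv_apply, Matrix.one_apply, Finsupp.single_apply,
    eq_comm] using h1

/-- With cyclotomic determinant, Frobenius at `r ≠ p` has determinant `r`. -/
theorem det_frobenius_eq [IsNoetherianRing T] (ρ : GaloisRepAdic T) (b : Basis (Fin 2) T ρ.V)
    {p r : ℕ} (hp : p.Prime) (hdet : ρ.DetIsCyclotomic p) (hr : r.Prime) (hpr : r ≠ p)
    {A : ValuationSubring Qbar} (hA : A.LiesOverPrime r) {φ : AG} (hφ : A.IsFrobeniusAt φ r) :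
    (matrixRep b ρ.ρ φ).det = (r : T) := by
  rw [show (matrixRep b ρ.ρ φ).det = LinearMap.det (ρ.ρ φ) from LinearMap.det_toMatrix b _]
  refine sub_eq_zero.mp ?_
  rw [← Ideal.mem_bot, ← Ideal.iInf_pow_eq_bot_of_isLocalRing (maximalIdeal T)
    (maximalIdeal.isMaximal T).ne_top, Submodule.mem_iInf]
  intro n
  have h := hdet.2 n φ r fun μ hμ => Gal.isFrobeniusAt_rootOfUnity hr hA hφ
    (fun hd => hpr ((Nat.prime_dvd_prime_iff_eq hr hp).mp (hr.dvd_of_dvd_pow hd))) hμ
  refine (Ideal.span_le.mpr ?_) h
  rw [Set.singleton_subset_iff, SetLike.mem_coe, Nat.cast_pow]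
  exact Ideal.pow_mem_pow hdet.1 n

/-- Next to a monodromy operator, a Frobenius matrix has trace `ε (r + 1)`. -/
theorem trace_eq_sign_mul {O F : Type} [CommRing O] [CommRing F] [IsDomain F] [IsLocalRing F]
    [Algebra O F] (h2 : IsUnit (2 : O)) {r : F} (hr1 : r ≠ 1) (hr : r ≠ 0)
    {Φ N : Matrix (Fin 2) (Fin 2) F} (hdet : Φ.det = r) (hN : N ≠ 0)
    (hrel : Φ * N = r • (N * Φ) ∧ residue F r = 1) {ε : F} (hε : ε * ε = 1)
    (hres : residue F Φ.trace = residue F (2 * ε)) : Φ.trace = ε * (r + 1) := by
  have hεs : ε = 1 ∨ ε = -1 := mul_self_eq_one_iff.mp hε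
  have h2' : residue F 2 ≠ 0 := by
    rw [← map_ofNat (algebraMap O F) 2]
    exact ((h2.map (algebraMap O F)).map (residue F)).ne_zero
  have key : Φ.trace = ε * (r + 1) ∨ Φ.trace = -(ε * (r + 1)) := by
    rcases trace_eq_of_monodromy hr hr1 Φ N hdet hN hrel.1 with h | h <;>
      rcases hεs with rfl | rfl <;> simp [h]
  refine key.resolve_right fun h => h2' (mul_self_eq_zero.mp ?_)
  rw [h, map_neg, map_mul, map_add, hrel.2, map_one, map_mul] at hres
  have hεr : residue F ε * residue F ε = 1 := by rw [← map_mul, hε, map_one]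
  simp only [map_ofNat] at hres ⊢
  linear_combination (-residue F ε) * hres - 4 * hεr

end Basics

variable {O : Type} [CommRing O] [IsLocalRing O]

/-- Scalar primes of a residual representation: `r ≡ 1`, inertia trivial, Frobenius `± 1`. -/
structure ScalarPrimes (p : ℕ) (ρbar : ResidualGaloisRep (ResidueField O))
    (bbar : Basis (Fin 2) (ResidueField O) ρbar.V) (m : ℕ) where
  /-- The primes. -/
  r : Fin m → ℕ
  /-- Places over the primes. -/
  A : Fin m → ValuationSubring Qbar
  /-- Frobenius elements -/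
  φ : Fin m → AG
  /-- Tame generators. -/
  σ : Fin m → AG
  /-- The signs of the Frobenius elements. -/
  ε : Fin m → O
  prime : ∀ i, (r i).Prime
  two : ∀ i, r i ≠ 2
  ne_p : ∀ i, r i ≠ p
  one_mod : ∀ i, ((r i : ℕ) : O) - 1 ∈ maximalIdeal O
  lies : ∀ i, (A i).LiesOverPrime (r i)
  frob : ∀ i, (A i).IsFrobeniusAt (φ i) (r i)
  tame : ∀ i, MazurPrinciple.IsTameGenerator p (A i) (σ i)
  inertia : ∀ i, ∀ τ ∈ (A i).inertiaSubgroupIn ℚ, rbar bbar τ = 1
  sign : ∀ i, ε i * ε i = 1
  scalar : ∀ i, rbar bbar (φ i) = residue O (ε i) • 1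

variable {p : ℕ} [Fact p.Prime] {ρbar : ResidualGaloisRep (ResidueField O)}
  {bbar : Basis (Fin 2) (ResidueField O) ρbar.V} {m : ℕ}

/-- Half of `r - 1`. -/
def ScalarPrimes.half (P : ScalarPrimes p ρbar bbar m) (i : Fin m) : O := ((P.r i / 2 : ℕ) : O)

omit [Fact (Nat.Prime p)] in
theorem ScalarPrimes.two_half (P : ScalarPrimes p ρbar bbar m) (i : Fin m) :
    2 * P.half i = (P.r i : O) - 1 := by
  obtain ⟨k, hk⟩ := (P.prime i).odd_of_ne_two (P.two i)
  rw [ScalarPrimes.half, hk, show (2 * k + 1) / 2 = k by omega]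
  push_cast
  ring

omit [Fact (Nat.Prime p)] in
theorem ScalarPrimes.half_mem (P : ScalarPrimes p ρbar bbar m) (h2 : IsUnit (2 : O)) (i : Fin m) :
    P.half i ∈ maximalIdeal O :=
  (Ideal.unit_mul_mem_iff_mem _ h2).mp (P.two_half i ▸ P.one_mod i)

/-- The coordinates of a matrix representation at the scalar primes. -/
def ScalarPrimes.coordsOf (P : ScalarPrimes p ρbar bbar m) {T : Type} [CommRing T] [Algebra O T]
    (M : AG →* Matrix (Fin 2) (Fin 2) T) (i : Fin m) : Fin 6 → T :=
  coords (algebraMap O T (P.ε i)) (P.r i : T) (M (P.φ i)) (M (P.σ i) - 1)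

/-- One level in representation terms. -/
structure RepLevel (P : ScalarPrimes p ρbar bbar m) (g D d : ℕ) {T₀ : Type} [CommRing T₀]
    [Algebra O T₀] (M₀ : AG →* Matrix (Fin 2) (Fin 2) T₀)
    (A₀ : T₀ →+* Matrix (Fin d) (Fin d) O) : Type 1 where
  /-- The local ring of the level. -/
  T : Type
  [instCommRing : CommRing T]
  [instLocal : IsLocalRing T]
  [instNoetherian : IsNoetherianRing T]
  [instComplete : IsAdicComplete (maximalIdeal T) T]
  [instAlgebra : Algebra O T]
  [instLocalHom : IsLocalHom (algebraMap O T)]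
  residue_surjective : Function.Surjective (residue T ∘ algebraMap O T)
  /-- The map onto the ring of the minimal level. -/
  proj : T →ₐ[O] T₀
  proj_surjective : Function.Surjective proj
  /-- The representation over `T`. -/
  ρ : GaloisRepAdic T
  /-- An adapted basis of the representation. -/
  b : Basis (Fin 2) T ρ.V
  adapted : Adapted bbar residue_surjective ρ b
  det : ρ.DetIsCyclotomic p
  proj_rep : ∀ g, (matrixRep b ρ.ρ g).map proj = M₀ g
  gen : Algebra.adjoin O (Set.range fun g => trace (matrixRep b ρ.ρ g)) = ⊤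
  /-- The index type of the points. -/
  ι : Type
  /-- The valuation ring of each point. -/
  F : ι → Type
  [instCommRingF : ∀ a, CommRing (F a)]
  [instDomainF : ∀ a, IsDomain (F a)]
  [instValuationF : ∀ a, ValuationRing (F a)]
  [instNoetherianF : ∀ a, IsNoetherianRing (F a)]
  [instCharF : ∀ a, CharZero (F a)]
  [instAlgebraF : ∀ a, Algebra O (F a)]
  /-- The points, unipotent at the scalar primes and detecting `T`. -/
  pt : ∀ a, T →ₐ[O] F a
  pt_mem : ∀ a, ∀ x ∈ maximalIdeal T, pt a x ∈ maximalIdeal (F a)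
  pts_injective : ∀ x, (∀ a, pt a x = 0) → x = 0
  pt_unipotent : ∀ a i, ((matrixRep b ρ.ρ (P.σ i)).map (pt a)).charpoly = (X - 1) ^ 2
  /-- Cocycles with classes of dimension at most `g`, containing the strict tangent ones. -/
  Z : Submodule (ResidueField O) (AG → sl2 (ResidueField O))
  Z_fin : FiniteDimensional (ResidueField O) (classes (adRep (rbar bbar)) Z)
  Z_le : finrank (ResidueField O) (classes (adRep (rbar bbar)) Z) ≤ g
  Z_mem : ∀ δ : tangent residue_surjective,
    (∀ i, ∀ h ∈ (P.A i).decompositionSubgroup ℚ, tanCocycle adapted det δ h = 0) →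
      tanCocycle adapted det δ ∈ Z
  /-- The ideal of the power series ring cutting out the diamond ring of the level. -/
  J : Ideal (MvPowerSeries (Fin D) O)
  J_aug : ∀ s ∈ J, MvPowerSeries.constantCoeff s = 0
  /-- The action on `d` copies of the diamond ring. -/
  act : T →+* Matrix (Fin d) (Fin d) (MvPowerSeries (Fin D) O ⧸ J)
  act_algebraMap : ∀ c, act (algebraMap O T c) =
    Matrix.scalar (Fin d) (Ideal.Quotient.mk J (MvPowerSeries.C c))
  act_aug : ∀ x, (act x).map (Ideal.Quotient.lift J MvPowerSeries.constantCoeff J_aug) = A₀ (proj x)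
  sq_mem : ∀ i j, (Pi.single j (Ideal.Quotient.mk J (MvPowerSeries.X i ^ 2)) :
      Fin d → MvPowerSeries (Fin D) O ⧸ J) ∈ Submodule.span (MvPowerSeries (Fin D) O ⧸ J)
    {v | ∃ t ∈ maximalIdeal T, ∃ w, (act t).mulVec w = v}

attribute [instance] RepLevel.instCommRing RepLevel.instLocal RepLevel.instNoetherian
  RepLevel.instComplete RepLevel.instAlgebra RepLevel.instLocalHom RepLevel.instCommRingF
  RepLevel.instDomainF RepLevel.instValuationF RepLevel.instNoetherianF RepLevel.instCharF
  RepLevel.instAlgebraF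

namespace RepLevel

variable [CharP (ResidueField O) p] {P : ScalarPrimes p ρbar bbar m} {g D d : ℕ} {T₀ : Type}
  [CommRing T₀] [Algebra O T₀] {M₀ : AG →* Matrix (Fin 2) (Fin 2) T₀}
  {A₀ : T₀ →+* Matrix (Fin d) (Fin d) O} (L : RepLevel P g D d M₀ A₀)

omit [CharP (ResidueField O) p] in
theorem residue_entry (τ : AG) (i j : Fin 2) {c : ResidueField O}
    (hc : rbar bbar τ i j = c) {a : O} (ha : residue O a = c) :
    matrixRep L.b L.ρ.ρ τ i j - algebraMap O L.T a ∈ maximalIdeal L.T := by
  rw [← toRes_eq_zero_iff L.residue_surjective, map_sub, toRes_entry L.adapted, hc,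
    toRes_algebraMap, ha, sub_self]

omit [CharP (ResidueField O) p] in
theorem coord_mem (i : Fin m) (c : Fin 6) :
    P.coordsOf (matrixRep L.b L.ρ.ρ) i c ∈ maximalIdeal L.T := by
  rw [← toRes_eq_zero_iff L.residue_surjective, ScalarPrimes.coordsOf, map_coords]
  have hr : residue O ((P.r i : ℕ) : O) = 1 := by
    rw [← sub_eq_zero, ← map_one (residue O), ← map_sub, residue_eq_zero_iff]; exact P.one_mod i
  have hεε : residue O (P.ε i) * residue O (P.ε i) = 1 := by
    rw [← map_mul, P.sign, map_one]
  have hφ : (matrixRep L.b L.ρ.ρ (P.φ i)).map (toRes L.residue_surjective) =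
      residue O (P.ε i) • 1 := by rw [L.adapted, P.scalar]
  have hσ : (matrixRep L.b L.ρ.ρ (P.σ i) - 1).map (toRes L.residue_surjective) = 0 := by
    show (toRes L.residue_surjective).mapMatrix (matrixRep L.b L.ρ.ρ (P.σ i) - 1) = 0
    rw [map_sub, map_one, RingHom.mapMatrix_apply, L.adapted, P.inertia i _ (P.tame i).1, sub_self]
  rw [hφ, hσ, toRes_algebraMap, map_natCast,
    show ((P.r i : ℕ) : ResidueField O) = 1 by rw [← hr, map_natCast]]
  fin_cases c <;> simp [coords, hεε]

omit [CharP (ResidueField O) p] in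
/-- The tame generators at the scalar primes have trace `2`. -/
theorem trace_inertia (i : Fin m) : trace (matrixRep L.b L.ρ.ρ (P.σ i)) = 2 := by
  refine sub_eq_zero.mp (L.pts_injective _ fun a => ?_)
  have h1 := congrArg (fun q : (L.F a)[X] => q.coeff 1) (L.pt_unipotent a i)
  simp [Matrix.charpoly_fin_two, sub_sq, coeff_X_pow, coeff_one] at h1
  rw [map_sub, show L.pt a (trace (matrixRep L.b L.ρ.ρ (P.σ i))) =
    ((matrixRep L.b L.ρ.ρ (P.σ i)).map (L.pt a)).trace from
      AddMonoidHom.map_trace (L.pt a).toRingHom.toAddMonoidHom _, h1, map_ofNat, sub_self]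

/-- The maximal ideal is generated by the coordinates at the scalar primes and `g` more elements. -/
theorem exists_level_gens : ∃ y : Fin g → L.T, (∀ j, y j ∈ maximalIdeal L.T) ∧
    maximalIdeal L.T ≤ relIdeal (𝒪 := O) (fun k : Fin (m * 6) =>
      P.coordsOf (matrixRep L.b L.ρ.ρ) (finProdFinEquiv.symm k).1 (finProdFinEquiv.symm k).2) ⊔
      Ideal.span (Set.range y) := by
  have := L.Z_fin
  refine exists_gens L.adapted L.det _ (fun _ => L.coord_mem _ _)
    (S := Set.range fun h => trace (matrixRep L.b L.ρ.ρ h)) (fun s hs => hs.imp fun _ e => e.symm)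
    L.gen L.Z (fun δ hδ => L.Z_mem δ fun i => ?_) L.Z_le
  refine tanCocycle_eq_zero_on_decomposition L.adapted L.det (P.prime i) (P.lies i) (P.frob i)
    (P.tame i) (P.inertia i) (P.sign i) (P.scalar i) δ fun c => ?_
  have h := hδ (finProdFinEquiv (i, c))
  rw [Equiv.symm_apply_apply] at h
  exact h

omit [CharP (ResidueField O) p] in
theorem residue_r (a : L.ι) (i : Fin m) : residue (L.F a) (P.r i : L.F a) = 1 := by
  rw [← sub_eq_zero, ← map_one (residue (L.F a)), ← map_sub, residue_eq_zero_iff]
  have h1 : (P.r i : L.T) - 1 ∈ maximalIdeal L.T := by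
    have := map_nonunit (algebraMap O L.T) _ (P.one_mod i)
    simpa using this
  simpa using L.pt_mem a _ h1

omit [CharP (ResidueField O) p] in
theorem residue_trace (a : L.ι) (i : Fin m) :
    residue (L.F a) (L.pt a (trace (matrixRep L.b L.ρ.ρ (P.φ i)))) =
      residue (L.F a) (2 * algebraMap O (L.F a) (P.ε i)) := by
  have h1 : trace (matrixRep L.b L.ρ.ρ (P.φ i)) - algebraMap O L.T (2 * P.ε i) ∈
      maximalIdeal L.T := by
    rw [trace_fin_two, two_mul, map_add, add_sub_add_comm]
    exact add_mem (L.residue_entry _ 0 0 (by rw [P.scalar]) (by simp))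
      (L.residue_entry _ 1 1 (by rw [P.scalar]) (by simp))
  rw [← sub_eq_zero, ← map_sub, residue_eq_zero_iff]
  have h2 := L.pt_mem a _ h1
  rwa [map_sub, AlgHom.commutes, map_mul, map_ofNat] at h2

/-- The patching level. -/
def toPatchLevel (h2 : IsUnit (2 : O)) :
    PatchLevel P.half g D d (fun i => P.coordsOf M₀ i) A₀ where
  T := L.T
  residue_surjective := L.residue_surjective
  proj := L.proj
  proj_surjective := L.proj_surjective
  coord := fun i => P.coordsOf (matrixRep L.b L.ρ.ρ) i
  coord_mem := L.coord_mem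
  proj_coord := fun i c => by
    show (L.proj : L.T →+* T₀) _ = _
    rw [ScalarPrimes.coordsOf, map_coords, ScalarPrimes.coordsOf]
    congr 1
    · exact L.proj.commutes _
    · exact map_natCast _ _
    · exact L.proj_rep _
    · show (L.proj : L.T →+* T₀).mapMatrix (matrixRep L.b L.ρ.ρ (P.σ i) - 1) = _
      rw [map_sub, map_one, RingHom.mapMatrix_apply]
      exact congrArg (· - 1) (L.proj_rep _)
  ι := L.ι
  pts := fun a =>
    { F := L.F a
      map_maximal := fun c hc => by
        rw [← (L.pt a).commutes]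
        exact L.pt_mem a _ (map_nonunit (algebraMap O L.T) c hc)
      pt := L.pt a
      pt_mem := L.pt_mem a
      line := fun i => by
        have hp : p.Prime := Fact.out
        have : IsLocalHom (L.pt a).toRingHom := ⟨fun x hx => by
          by_contra hxu
          exact L.pt_mem a x ((mem_maximalIdeal x).mpr hxu) hx⟩
        let Mp : AG →* Matrix (Fin 2) (Fin 2) (L.F a) :=
          (L.pt a).toRingHom.mapMatrix.toMonoidHom.comp (matrixRep L.b L.ρ.ρ)
        have hcc : (fun c => L.pt a (P.coordsOf (matrixRep L.b L.ρ.ρ) i c)) =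
            coords (algebraMap O (L.F a) (P.ε i)) (P.r i : L.F a) (Mp (P.φ i))
              (Mp (P.σ i) - 1) := by
          funext c
          show (L.pt a).toRingHom _ = _
          rw [ScalarPrimes.coordsOf, map_coords]
          congr 1
          · exact (L.pt a).commutes _
          · exact map_natCast _ _
          · show (L.pt a).toRingHom.mapMatrix (_ - 1) = _
            rw [map_sub, map_one]
            rfl
        by_cases hN : Mp (P.σ i) - 1 = 0
        · refine Or.inl fun c hc => ?_
          rw [show L.pt a (P.coordsOf (matrixRep L.b L.ρ.ρ) i c) =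
            coords (algebraMap O (L.F a) (P.ε i)) (P.r i : L.F a) (Mp (P.φ i))
              (Mp (P.σ i) - 1) c from congrFun hcc c, hN]
          fin_cases c <;> simp_all [coords]
        refine Or.inr ?_
        have hres : ∀ τ ∈ (P.A i).inertiaSubgroupIn ℚ, (Mp τ).map (residue (L.F a)) = 1 :=
          fun τ hτ => by
            ext u v
            rw [Matrix.map_apply]
            show residue (L.F a) (L.pt a (matrixRep L.b L.ρ.ρ τ u v)) = _
            have h1 := L.residue_entry τ u v (by rw [P.inertia i τ hτ])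
              (a := if u = v then 1 else 0) (by split_ifs <;> simp [Matrix.one_apply, *])
            have h2 := (residue_eq_zero_iff _).mpr (L.pt_mem a _ h1)
            rw [map_sub, map_sub, sub_eq_zero, AlgHom.commutes] at h2
            rw [h2]
            split_ifs with huv <;> simp [Matrix.one_apply, huv]
        have hcont : ∀ n, ∃ K : IntermediateField ℚ Qbar, FiniteDimensional ℚ K ∧
            ∀ σ : AG, (∀ x ∈ K, σ x = x) → Attach.NearOne (maximalIdeal (L.F a) ^ n) (Mp σ) :=
          fun n => by
            obtain ⟨K, hK, hKn⟩ := exists_nearOne L.ρ L.b n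
            refine ⟨K, hK, fun σ hσ u v => ?_⟩
            have h1 := Ideal.mem_map_of_mem (L.pt a) (hKn σ hσ u v)
            rw [Ideal.map_pow] at h1
            refine Ideal.pow_right_mono (Ideal.map_le_iff_le_comap.mpr (L.pt_mem a)) n ?_
            by_cases huv : u = v <;> simpa [Mp, Matrix.one_apply, huv] using h1
        have hdet : (Mp (P.φ i)).det = (P.r i : L.F a) :=
          (RingHom.map_det (L.pt a).toRingHom _).symm.trans (by
            rw [det_frobenius_eq L.ρ L.b hp L.det (P.prime i) (P.ne_p i) (P.lies i) (P.frob i),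
              map_natCast])
        have hr1 : (P.r i : L.F a) ≠ 1 := by
          rw [Ne, Nat.cast_eq_one]; exact (P.prime i).ne_one
        have hpF : (p : L.F a) ∈ maximalIdeal (L.F a) := by
          simpa using L.pt_mem a _ L.det.1
        have htr : (Mp (P.φ i)).trace = algebraMap O (L.F a) (P.ε i) * ((P.r i : L.F a) + 1) :=
          trace_eq_sign_mul h2 hr1 (Nat.cast_ne_zero.mpr (P.prime i).ne_zero) hdet hN
            ⟨frobenius_mul_inertia_sub hp (P.prime i) (P.ne_p i).symm hpF Mp hcont (P.lies i)
              (P.frob i) hres (P.tame i).1 (L.pt_unipotent a i), L.residue_r a i⟩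
            (by rw [← map_mul, P.sign, map_one])
            ((congrArg (residue (L.F a))
              (AddMonoidHom.map_trace (L.pt a).toRingHom.toAddMonoidHom _).symm).trans
                (L.residue_trace a i))
        obtain ⟨e, he, hline⟩ := exists_onLine_of_rep hp (P.prime i) (P.ne_p i).symm hpF Mp
          hcont (P.lies i) (P.frob i) hres (P.tame i).1 (L.pt_unipotent a i)
          (ε := algebraMap O (L.F a) (P.ε i)) (h := algebraMap O (L.F a) (P.half i))
          (by rw [← map_mul, P.sign, map_one])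
          (by rw [← map_ofNat (algebraMap O (L.F a)), ← map_mul, P.two_half, map_sub, map_one,
            map_natCast]) htr hdet
        refine ⟨e, he, ?_⟩
        rw [hcc]
        exact hline }
  pts_injective := L.pts_injective
  gens := L.exists_level_gens.choose
  gens_mem := L.exists_level_gens.choose_spec.1
  gens_le := L.exists_level_gens.choose_spec.2
  J := L.J
  J_aug := L.J_aug
  act := L.act
  act_algebraMap := L.act_algebraMap
  act_aug := L.act_aug
  sq_mem := L.sq_mem

end RepLevel

/-- **Level lowering at scalar primes, representation form.** -/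
theorem false_of_repLevels {O : Type} [CommRing O] [IsDomain O] [IsDiscreteValuationRing O]
    [IsAdicComplete (maximalIdeal O) O] [Finite (ResidueField O)]
    {ρbar : ResidualGaloisRep (ResidueField O)} {bbar : Basis (Fin 2) (ResidueField O) ρbar.V}
    [CharP (ResidueField O) p] (h2 : IsUnit (2 : O)) (P : ScalarPrimes p ρbar bbar m) {g D d : ℕ}
    (hD : m * 3 + g ≤ D) (hd : 0 < d)
    {T₀ : Type} [CommRing T₀] [IsLocalRing T₀]
    [IsAdicComplete (maximalIdeal T₀) T₀] [Algebra O T₀] [IsLocalHom (algebraMap O T₀)]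
    {M₀ : AG →* Matrix (Fin 2) (Fin 2) T₀} {A₀ : T₀ →+* Matrix (Fin d) (Fin d) O}
    (L : ℕ → RepLevel P g D d M₀ A₀)
    (hJ : ∀ k, ∀ᶠ n in Filter.atTop, (L n).J ≤ trunc O D k) (i₀ : Fin m)
    (hexact : ∀ w, resBlock A₀ (M₀ (P.σ i₀) - 1) w = 0 →
      ∃ y, resBlock A₀ (M₀ (P.σ i₀) - 1) y = w) : False := by
  have hmono : monoMatrix (fun i => P.coordsOf M₀ i) i₀ = M₀ (P.σ i₀) - 1 := by
    have htr : (M₀ (P.σ i₀)).trace = 2 := by
      rw [← (L 0).proj_rep, show ((matrixRep (L 0).b (L 0).ρ.ρ (P.σ i₀)).map (L 0).proj).trace =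
        (L 0).proj (matrixRep (L 0).b (L 0).ρ.ρ (P.σ i₀)).trace from
          (AddMonoidHom.map_trace (L 0).proj.toRingHom.toAddMonoidHom _).symm,
        (L 0).trace_inertia, map_ofNat]
    rw [trace_fin_two] at htr
    ext a b
    fin_cases a <;> fin_cases b <;>
      simp [monoMatrix, ScalarPrimes.coordsOf, coords]
    linear_combination -htr
  refine false_of_patchLevels (fun i => P.half_mem h2 i) hD hd (fun i c => ?_)
    (fun n => (L n).toPatchLevel h2) hJ i₀ (hmono.symm ▸ hexact)
  have h := ((L 0).toPatchLevel h2).proj_coord i c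
  rw [← h]
  exact map_maximalIdeal_of_surjective ((L 0).proj : (L 0).T →+* T₀) (L 0).proj_surjective ▸
    Ideal.mem_map_of_mem _ ((L 0).coord_mem i c)

end Fermat.Agent.LevelLowering.Scalar
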