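import Mathlib.RingTheory.LocalRing.RingHom.Basic
import Fermat.Agent.Gal.RepTwo

/-!
# A basis lifting given matrices

If the traces of a representation map to those of a residually absolutely irreducible matrix
representation over the image, a basis can be chosen whose matrices map to the given ones.
-/

noncomputable section

namespace Fermat.Agent.LevelLowering.Scalar

open Module Matrix Fermat.Agent.Gal

/-- **A basis with prescribed image matrices.** -/
theorem exists_basis_map_eq {T T₀ V G : Type*} [CommRing T] [IsLocalRing T] [CommRing T₀]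
    [IsLocalRing T₀] [AddCommGroup V] [Module T V] [Monoid G] (ρ : G →* Module.End T V)
    (b : Basis (Fin 2) T V) (π : T →+* T₀) (hπ : Function.Surjective π)
    (M₀ : G →* Matrix (Fin 2) (Fin 2) T₀) (g : Fin 4 → G)
    (hg : IsUnit (Matrix.of fun i j => Matrix.trace (M₀ (g i) * M₀ (g j))).det)
    (htr : ∀ x, π (LinearMap.trace T V (ρ x)) = (M₀ x).trace) :
    ∃ b' : Basis (Fin 2) T V, ∀ x, (matrixRep b' ρ x).map π = M₀ x := by
  have : IsLocalHom π := IsLocalHom.of_surjective π hπ
  let m : G →* Matrix (Fin 2) (Fin 2) T₀ := π.mapMatrix.toMonoidHom.comp (matrixRep b ρ)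
  obtain ⟨P, hP, hconj⟩ := exists_conj_matrix M₀ m g hg fun x => by
    show _ = (π.mapMatrix (matrixRep b ρ x)).trace
    rw [← htr, ← trace_matrixRep b]
    exact AddMonoidHom.map_trace π.toAddMonoidHom _
  choose P' hP' using fun i j => hπ (P i j)
  let Q : Matrix (Fin 2) (Fin 2) T := Matrix.of P'
  have hQP : Q.map π = P := Matrix.ext hP'
  have hQ : IsUnit Q.det := IsUnit.of_map π _ (by
    rw [RingHom.map_det, RingHom.mapMatrix_apply, hQP]; exact hP)
  let e : V ≃ₗ[T] V := LinearEquiv.ofLinearMap (Matrix.toLin b b Q) (Matrix.toLin b b Q⁻¹)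
    (by rw [← Matrix.toLin_mul, Matrix.mul_nonsing_inv Q hQ, Matrix.toLin_one])
    (by rw [← Matrix.toLin_mul, Matrix.nonsing_inv_mul Q hQ, Matrix.toLin_one])
  refine ⟨b.map e, fun x => ?_⟩
  have hkey : Q * matrixRep (b.map e) ρ x = matrixRep b ρ x * Q := by
    have h1 : b.toMatrix (b.map e) = Q := by
      ext i j
      fin_cases i <;> simp [Basis.toMatrix_apply, e, Matrix.toLin_self, eq_comm]
    have h2 := linearMap_toMatrix_mul_basis_toMatrix (b.map e) b b (ρ x)
    have h3 := basis_toMatrix_mul_linearMap_toMatrix (b.map e) b (b.map e) (ρ x)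
    rw [h1] at h2 h3
    exact h3.trans h2.symm
  have h4 : P * (matrixRep (b.map e) ρ x).map π = m x * P := by
    rw [← hQP]
    show π.mapMatrix Q * π.mapMatrix _ = π.mapMatrix _ * π.mapMatrix Q
    rw [← map_mul, hkey, map_mul]
  rw [hconj x] at h4
  calc (matrixRep (b.map e) ρ x).map π = P⁻¹ * (P * (matrixRep (b.map e) ρ x).map π) := by
        rw [← mul_assoc, Matrix.nonsing_inv_mul P hP, one_mul]
    _ = M₀ x := by rw [h4, ← mul_assoc, Matrix.nonsing_inv_mul P hP, one_mul]

end Fermat.Agent.LevelLowering.Scalar
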