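import Fermat.Agent.Attach.PowTrace
import Fermat.Agent.Attach.TwoDim
import Fermat.Agent.Gal.Density

/-!
# Traces are determined by Frobenius elements outside a finite set

For matrix representations continuous for the adic topology (`AdicCont`), equal traces and
determinants at the Frobenius elements outside a finite set give equal traces everywhere.
-/

noncomputable section

namespace Fermat.Agent.LevelLowering.Scalar

open IsLocalRing Matrix Fermat.Agent.Attach

local notation "Qbar" => AlgebraicClosure ℚ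
local notation "GQ" => (AlgebraicClosure ℚ ≃ₐ[ℚ] AlgebraicClosure ℚ)

/-- Continuity for the adic topology in matrix form. -/
def AdicCont {T : Type} [CommRing T] [IsLocalRing T] (M : GQ →* Matrix (Fin 2) (Fin 2) T) : Prop :=
  ∀ n, ∃ L : IntermediateField ℚ Qbar, FiniteDimensional ℚ L ∧
    ∀ g : GQ, (∀ x ∈ L, g x = x) → NearOne (maximalIdeal T ^ n) (M g)

theorem AdicCont.map {T T₀ : Type} [CommRing T] [IsLocalRing T] [CommRing T₀] [IsLocalRing T₀]
    {M : GQ →* Matrix (Fin 2) (Fin 2) T} (h : AdicCont M) (π : T →+* T₀)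
    (hπ : ∀ x ∈ maximalIdeal T, π x ∈ maximalIdeal T₀) :
    AdicCont (π.mapMatrix.toMonoidHom.comp M) := fun n => by
  obtain ⟨L, hL, hLn⟩ := h n
  refine ⟨L, hL, fun g hg i j => ?_⟩
  have h1 := Ideal.mem_map_of_mem π (hLn g hg i j)
  rw [Ideal.map_pow, map_sub] at h1
  have hle : (maximalIdeal T).map π ≤ maximalIdeal T₀ :=
    Ideal.map_le_iff_le_comap.mpr fun x hx => Ideal.mem_comap.mpr (hπ x hx)
  have h2 := Ideal.pow_right_mono hle n h1
  by_cases hij : i = j <;> simpa [Matrix.one_apply, hij] using h2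

variable {T₀ : Type} [CommRing T₀] [IsLocalRing T₀]

/-- Elements agreeing on a level field have congruent traces. -/
theorem AdicCont.trace_congr {M : GQ →* Matrix (Fin 2) (Fin 2) T₀} {n : ℕ}
    {L : IntermediateField ℚ Qbar}
    (hL : ∀ g : GQ, (∀ x ∈ L, g x = x) → NearOne (maximalIdeal T₀ ^ n) (M g))
    {g g' : GQ} (h : ∀ x ∈ L, g x = g' x) :
    (M g).trace - (M g').trace ∈ maximalIdeal T₀ ^ n := by
  have h1 := hL (g'⁻¹ * g) fun x hx => by
    rw [AlgEquiv.mul_apply, h x hx]; exact g'.symm_apply_apply x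
  have e : M g = M g' * M (g'⁻¹ * g) := by rw [← map_mul, mul_inv_cancel_left]
  have e2 : M g - M g' = M g' * (M (g'⁻¹ * g) - 1) := by rw [e, mul_sub, mul_one]
  rw [← trace_sub, e2, trace_fin_two, mul_apply, mul_apply, Fin.sum_univ_two, Fin.sum_univ_two]
  refine add_mem (add_mem ?_ ?_) (add_mem ?_ ?_) <;>
    exact Ideal.mul_mem_left _ _ (h1 _ _)

/-- **Traces are determined by Frobenius elements.** -/
theorem trace_eq_of_frobenius_outside [IsNoetherianRing T₀]
    {M M' : GQ →* Matrix (Fin 2) (Fin 2) T₀} (hM : AdicCont M) (hM' : AdicCont M') (S : Finset ℕ)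
    (h : ∀ ℓ : ℕ, ℓ.Prime → ℓ ∉ S → ∀ A : ValuationSubring Qbar, A.LiesOverPrime ℓ →
      ∀ σ : GQ, A.IsFrobeniusAt σ ℓ → (M σ).trace = (M' σ).trace ∧ (M σ).det = (M' σ).det)
    (g : GQ) : (M g).trace = (M' g).trace := by
  rw [← sub_eq_zero, ← Ideal.mem_bot, ← Ideal.iInf_pow_eq_bot_of_isLocalRing (maximalIdeal T₀)
    (maximalIdeal.isMaximal T₀).ne_top, Submodule.mem_iInf]
  intro n
  obtain ⟨L, hL, hLn⟩ := hM n
  obtain ⟨L', hL', hLn'⟩ := hM' n
  obtain ⟨ℓ, hℓ, hℓS, A, hA, σ, hσ, a, b, ha, -⟩ := Gal.exists_frobenius_generates (L ⊔ L') g S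
  have h1 := AdicCont.trace_congr hLn (g := g) (g' := σ ^ a)
    fun x hx => ha x (le_sup_left (b := L') hx)
  have h2 := AdicCont.trace_congr hLn' (g := g) (g' := σ ^ a)
    fun x hx => ha x (le_sup_right (a := L) hx)
  have hu : ∀ {N : GQ →* Matrix (Fin 2) (Fin 2) T₀}, IsUnit (N σ).det := fun {N} =>
    (Group.isUnit σ).map (Matrix.detMonoidHom.comp N)
  obtain ⟨ht, hd⟩ := h ℓ hℓ hℓS A hA σ hσ
  have e : (M (σ ^ a)).trace = (M' (σ ^ a)).trace := by
    rw [map_pow, map_pow, trace_pow_eq_powTrace _ hu, trace_pow_eq_powTrace _ hu, ht, hd]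
  have := sub_mem h1 h2
  rwa [e, sub_sub_sub_cancel_right] at this

end Fermat.Agent.LevelLowering.Scalar
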