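import Fermat.Agent.Gal.Compare
import Fermat.Agent.LevelLowering.Scalar.Level
import Fermat.Agent.LevelLowering.Scalar.Rebase
import Fermat.Agent.LevelLowering.Scalar.Traces

/-!
# Level lowering from the Hecke algebras of Taylor–Wiles levels

The ring at the minimal level is the image of the level without auxiliary primes; every other
level maps onto it compatibly with the representations.
-/

noncomputable section

namespace Fermat.Agent.LevelLowering.Scalar

open Module IsLocalRing Matrix Polynomial Fermat.Agent.Gal Fermat.Agent.TW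

local notation "Qbar" => AlgebraicClosure ℚ

variable {O : Type} [CommRing O] [IsDomain O] [IsDiscreteValuationRing O]

/-- The Galois part of a level. -/
structure LevelCore (p : ℕ) (ρbar : ResidualGaloisRep (ResidueField O)) (D d : ℕ)
    (Tm : ℕ → Matrix (Fin d) (Fin d) O) (S : Finset ℕ) : Type 1 where
  /-- The local ring of the level. -/
  T : Type
  [instCommRing : CommRing T]
  [instLocal : IsLocalRing T]
  [instNoetherian : IsNoetherianRing T]
  [instComplete : IsAdicComplete (maximalIdeal T) T]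
  [instAlgebra : Algebra O T]
  [instLocalHom : IsLocalHom (algebraMap O T)]
  residue_surjective : Function.Surjective (residue T ∘ algebraMap O T)
  /-- The representation over `T`, lifting `ρbar`. -/
  ρ : GaloisRepAdic T
  residual : ρ.residual.IsEquiv (ρbar.baseChangeAlong (ResidueField.map (algebraMap O T)))
  det : ρ.DetIsCyclotomic p
  /-- The traces of Frobenius at the good primes, which generate `T`. -/
  τ : ℕ → T
  trace_frob : ∀ ℓ : ℕ, ℓ.Prime → ℓ ∉ S → ∀ A : ValuationSubring Qbar, A.LiesOverPrime ℓ →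
    ∀ σ : AG, A.IsFrobeniusAt σ ℓ → LinearMap.trace T ρ.V (ρ.ρ σ) = τ ℓ
  gen : Algebra.adjoin O (τ '' {ℓ | ℓ.Prime ∧ ℓ ∉ S}) = ⊤
  /-- The ideal of the power series ring cutting out the diamond ring of the level. -/
  J : Ideal (MvPowerSeries (Fin D) O)
  J_aug : ∀ s ∈ J, MvPowerSeries.constantCoeff s = 0
  /-- The action on `d` copies of the diamond ring. -/
  act : T →+* Matrix (Fin d) (Fin d) (MvPowerSeries (Fin D) O ⧸ J)
  act_algebraMap : ∀ c, act (algebraMap O T c) =
    Matrix.scalar (Fin d) (Ideal.Quotient.mk J (MvPowerSeries.C c))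
  act_aug : ∀ ℓ : ℕ, ℓ.Prime → ℓ ∉ S →
    (act (τ ℓ)).map (Ideal.Quotient.lift J MvPowerSeries.constantCoeff J_aug) = Tm ℓ

attribute [instance] LevelCore.instCommRing LevelCore.instLocal LevelCore.instNoetherian
  LevelCore.instComplete LevelCore.instAlgebra LevelCore.instLocalHom

/-- A level with its points, strict classes and diamond action. -/
structure LevelData {p : ℕ} [Fact p.Prime] {ρbar : ResidualGaloisRep (ResidueField O)}
    {bbar : Basis (Fin 2) (ResidueField O) ρbar.V} {m : ℕ} (P : ScalarPrimes p ρbar bbar m)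
    (g D d : ℕ) (Tm : ℕ → Matrix (Fin d) (Fin d) O) (S : Finset ℕ) : Type 1 where
  /-- The ring, representation and action of the level. -/
  core : LevelCore p ρbar D d Tm S
  /-- The index type of the points. -/
  ι : Type
  /-- The valuation ring of each point. -/
  F : ι → Type
  [instCommRingF : ∀ a, CommRing (F a)]
  [instDomainF : ∀ a, IsDomain (F a)]
  [instValuationF : ∀ a, ValuationRing (F a)]
  [instNoetherianF : ∀ a, IsNoetherianRing (F a)]
  [instCharF : ∀ a, CharZero (F a)]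
  [instAlgebraF : ∀ a, Algebra O (F a)]
  /-- The points, which detect the ring. -/
  pt : ∀ a, core.T →ₐ[O] F a
  pt_mem : ∀ a, ∀ x ∈ maximalIdeal core.T, pt a x ∈ maximalIdeal (F a)
  pts_injective : ∀ x, (∀ a, pt a x = 0) → x = 0
  pt_unipotent : ∀ a i,
    (LinearMap.charpoly (core.ρ.ρ (P.σ i))).map (pt a).toRingHom = (X - 1) ^ 2
  /-- Cocycles with classes of dimension at most `g`, containing the strict tangent ones. -/
  Z : Submodule (ResidueField O) (AG → sl2 (ResidueField O))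
  Z_fin : FiniteDimensional (ResidueField O) (classes (adRep (rbar bbar)) Z)
  Z_le : finrank (ResidueField O) (classes (adRep (rbar bbar)) Z) ≤ g
  Z_mem : ∀ (b : Basis (Fin 2) core.T core.ρ.V) (hb : Adapted bbar core.residue_surjective core.ρ b)
    (δ : tangent core.residue_surjective),
    (∀ i, ∀ h ∈ (P.A i).decompositionSubgroup ℚ, tanCocycle hb core.det δ h = 0) →
      tanCocycle hb core.det δ ∈ Z
  sq_mem : ∀ i j, (Pi.single j (Ideal.Quotient.mk core.J (MvPowerSeries.X i ^ 2)) :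
      Fin d → MvPowerSeries (Fin D) O ⧸ core.J) ∈
        Submodule.span (MvPowerSeries (Fin D) O ⧸ core.J)
          {v | ∃ t ∈ maximalIdeal core.T, ∃ w, (core.act t).mulVec w = v}

attribute [instance] LevelData.instCommRingF LevelData.instDomainF LevelData.instValuationF
  LevelData.instNoetherianF LevelData.instCharF LevelData.instAlgebraF

namespace LevelCore

variable {p : ℕ} {ρbar : ResidualGaloisRep (ResidueField O)} {D d : ℕ}
  {Tm : ℕ → Matrix (Fin d) (Fin d) O} {S : Finset ℕ} (L : LevelCore p ρbar D d Tm S)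

/-- The action at the minimal level. -/
def augHom : L.T →ₐ[O] Matrix (Fin d) (Fin d) O :=
  { (Ideal.Quotient.lift L.J MvPowerSeries.constantCoeff L.J_aug).mapMatrix.comp L.act with
    commutes' := fun c => by
      show (L.act (algebraMap O L.T c)).map _ = _
      rw [L.act_algebraMap]
      ext i j
      rcases eq_or_ne i j with rfl | h <;>
        simp [Matrix.algebraMap_matrix_apply, MvPowerSeries.constantCoeff_C, *] }

theorem augHom_τ {ℓ : ℕ} (hℓ : ℓ.Prime) (hℓS : ℓ ∉ S) : L.augHom (L.τ ℓ) = Tm ℓ :=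
  L.act_aug ℓ hℓ hℓS

theorem det_frob [Fact p.Prime] (b : Basis (Fin 2) L.T L.ρ.V) (hpS : p ∈ S) {ℓ : ℕ} (hℓ : ℓ.Prime)
    (hℓS : ℓ ∉ S) {A : ValuationSubring Qbar} (hA : A.LiesOverPrime ℓ) {σ : AG}
    (hσ : A.IsFrobeniusAt σ ℓ) : (matrixRep b L.ρ.ρ σ).det = (ℓ : L.T) :=
  det_frobenius_eq L.ρ b (Fact.out : p.Prime) L.det hℓ (fun h => hℓS (h ▸ hpS)) hA hσ

/-- The algebra of a level is generated by the traces of its representation. -/
theorem adjoin_traces :
    Algebra.adjoin O (Set.range fun g : AG => LinearMap.trace L.T L.ρ.V (L.ρ.ρ g)) = ⊤ := by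
  refine top_le_iff.mp (L.gen ▸ Algebra.adjoin_le ?_)
  rintro _ ⟨ℓ, ⟨hℓ, hℓS⟩, rfl⟩
  have : Fact ℓ.Prime := ⟨hℓ⟩
  obtain ⟨σ, hσ⟩ := Gal.exists_isFrobeniusAt hℓ (PT.padicPlace_liesOverPrime (q := ℓ))
  exact Algebra.subset_adjoin ⟨σ, L.trace_frob ℓ hℓ hℓS _ PT.padicPlace_liesOverPrime σ hσ⟩

/-- The action at the minimal level takes values in the algebra of the operators at good
primes. -/
theorem augHom_mem_adjoin (x : L.T) :
    L.augHom x ∈ Algebra.adjoin O (Tm '' {ℓ | ℓ.Prime ∧ ℓ ∉ S}) := by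
  have hle : Algebra.adjoin O (L.τ '' {ℓ | ℓ.Prime ∧ ℓ ∉ S}) ≤
      (Algebra.adjoin O (Tm '' {ℓ | ℓ.Prime ∧ ℓ ∉ S})).comap L.augHom := Algebra.adjoin_le <| by
    rintro _ ⟨ℓ, hℓ, rfl⟩
    exact Algebra.subset_adjoin ⟨ℓ, hℓ, (L.augHom_τ hℓ.1 hℓ.2).symm⟩
  exact hle (L.gen ▸ Algebra.mem_top)

end LevelCore

/-- Residues are carried by maps respecting the maximal ideals. -/
theorem toRes_map {T T' : Type} [CommRing T] [IsLocalRing T] [Algebra O T]
    [IsLocalHom (algebraMap O T)] [CommRing T'] [IsLocalRing T'] [Algebra O T']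
    [IsLocalHom (algebraMap O T')] (hres : Function.Surjective (residue T ∘ algebraMap O T))
    (hres' : Function.Surjective (residue T' ∘ algebraMap O T')) (π : T →ₐ[O] T')
    (hπ : ∀ x ∈ maximalIdeal T, π x ∈ maximalIdeal T') (x : T) :
    toRes hres' (π x) = toRes hres x := by
  obtain ⟨a, ha⟩ := hres (residue T x)
  have h1 : x - algebraMap O T a ∈ maximalIdeal T := by
    rw [← residue_eq_zero_iff, map_sub,
      ← Function.comp_apply (f := residue T) (g := algebraMap O T), ha, sub_self]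
  have h2 := (toRes_eq_zero_iff hres _).mpr h1
  have h3 := (toRes_eq_zero_iff hres' _).mpr (hπ _ h1)
  rw [map_sub, toRes_algebraMap, sub_eq_zero] at h2
  rw [map_sub, AlgHom.commutes, map_sub, toRes_algebraMap, sub_eq_zero] at h3
  rw [h2, h3]

omit [IsDomain O] [IsDiscreteValuationRing O] in
/-- Maps between local algebras with residue field that of `O` respect the maximal ideals. -/
theorem map_mem_maximalIdeal {T T' : Type} [CommRing T] [IsLocalRing T] [Algebra O T]
    [CommRing T'] [IsLocalRing T'] [Algebra O T']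
    (hres : Function.Surjective (residue T' ∘ algebraMap O T')) (π : T →ₐ[O] T')
    {x : T} (hx : x ∈ maximalIdeal T) : π x ∈ maximalIdeal T' := by
  set f : T →+* ResidueField T' := (residue T').comp π.toRingHom
  have hf : Function.Surjective f := fun y => by
    obtain ⟨a, rfl⟩ := hres y
    exact ⟨algebraMap O T a, congrArg (residue T') (π.commutes a)⟩
  have := RingHom.ker_isMaximal_of_surjective f hf
  rw [← IsLocalRing.eq_maximalIdeal this, RingHom.mem_ker] at hx
  exact (residue_eq_zero_iff _).mp hx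

variable [IsAdicComplete (maximalIdeal O) O] [Finite (ResidueField O)] {p : ℕ} [Fact p.Prime]
  [CharP (ResidueField O) p] {ρbar : ResidualGaloisRep (ResidueField O)}
  {bbar : Basis (Fin 2) (ResidueField O) ρbar.V} {m : ℕ}

omit [IsAdicComplete (maximalIdeal O) O] [Finite (ResidueField O)] [Fact p.Prime]
  [CharP (ResidueField O) p] in
/-- A trace basis of the residual representation is one of a lift. -/
theorem isUnit_gram_of_residual {T : Type} [CommRing T] [IsLocalRing T] [Algebra O T]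
    [IsLocalHom (algebraMap O T)] (hres : Function.Surjective (residue T ∘ algebraMap O T))
    (M : AG →* Matrix (Fin 2) (Fin 2) T) (hM : ∀ σ, (M σ).map (toRes hres) = rbar bbar σ)
    (gb : Fin 4 → AG) (hgb : IsUnit (Matrix.of fun i j =>
      LinearMap.trace (ResidueField O) ρbar.V (ρbar.ρ (gb i) * ρbar.ρ (gb j))).det) :
    IsUnit (Matrix.of fun i j => Matrix.trace (M (gb i) * M (gb j))).det := by
  have : IsLocalHom (toRes hres) := ⟨fun x hx => by
    by_contra hxu
    rw [(toRes_eq_zero_iff hres x).mpr hxu] at hx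
    exact not_isUnit_zero hx⟩
  refine IsUnit.of_map (toRes hres) _ ?_
  rw [RingHom.map_det]
  refine (congrArg (fun X => IsUnit (Matrix.det X)) ?_).mpr hgb
  ext i j
  rw [RingHom.mapMatrix_apply, Matrix.map_apply, Matrix.of_apply, Matrix.of_apply,
    ← map_mul M, ← map_mul, ← trace_matrixRep bbar ρbar.ρ]
  exact (AddMonoidHom.map_trace (toRes hres).toAddMonoidHom _).trans
    (congrArg Matrix.trace (hM _))

omit [IsAdicComplete (maximalIdeal O) O] [Finite (ResidueField O)] [IsDomain O]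
  [IsDiscreteValuationRing O] in
/-- A quotient keeps the residue field of `O`. -/
theorem residue_surjective_quotient {T : Type} [CommRing T] [IsLocalRing T] [Algebra O T]
    (h : Function.Surjective (residue T ∘ algebraMap O T)) (K : Ideal T) [IsLocalRing (T ⧸ K)]
    [IsLocalHom (Ideal.Quotient.mk K)] :
    Function.Surjective (residue (T ⧸ K) ∘ algebraMap O (T ⧸ K)) := fun y => by
  obtain ⟨z, rfl⟩ := residue_surjective y
  obtain ⟨x, rfl⟩ := Ideal.Quotient.mk_surjective z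
  obtain ⟨a, ha⟩ := h (residue T x)
  refine ⟨a, ?_⟩
  rw [Function.comp_apply, ← sub_eq_zero, ← map_sub, residue_eq_zero_iff]
  have h1 : algebraMap O T a - x ∈ maximalIdeal T := by
    rw [← residue_eq_zero_iff, map_sub,
      ← Function.comp_apply (f := residue T) (g := algebraMap O T), ha, sub_self]
  exact map_nonunit (Ideal.Quotient.mk K) _ h1

omit [IsAdicComplete (maximalIdeal O) O] [Finite (ResidueField O)] [CharP (ResidueField O) p] in
/-- A map to a ring with a representation having the same Frobenius data carries all traces. -/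
theorem LevelCore.map_trace_eq {D d : ℕ} {Tm : ℕ → Matrix (Fin d) (Fin d) O} {S : Finset ℕ}
    (L : LevelCore p ρbar D d Tm S) (bb : Basis (Fin 2) (ResidueField O) ρbar.V) {T' : Type}
    [CommRing T'] [IsLocalRing T'] [IsNoetherianRing T'] [Algebra O T'] (π : L.T →ₐ[O] T')
    (hπ : ∀ x ∈ maximalIdeal L.T, π x ∈ maximalIdeal T') (hpS : p ∈ S)
    (M₀ : AG →* Matrix (Fin 2) (Fin 2) T') (hM₀ : AdicCont M₀)
    (hfrob : ∀ ℓ : ℕ, ℓ.Prime → ℓ ∉ S → ∀ A : ValuationSubring Qbar, A.LiesOverPrime ℓ →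
      ∀ σ : AG, A.IsFrobeniusAt σ ℓ → (M₀ σ).trace = π (L.τ ℓ) ∧ (M₀ σ).det = (ℓ : T'))
    (g : AG) : π (LinearMap.trace L.T L.ρ.V (L.ρ.ρ g)) = (M₀ g).trace := by
  obtain ⟨b, -⟩ := exists_adapted (bbar := bb) L.residue_surjective L.ρ L.residual
  let M : AG →* Matrix (Fin 2) (Fin 2) T' :=
    π.toRingHom.mapMatrix.toMonoidHom.comp (matrixRep b L.ρ.ρ)
  have e : ∀ σ, (M σ).trace = π (LinearMap.trace L.T L.ρ.V (L.ρ.ρ σ)) := fun σ => by
    rw [← trace_matrixRep b]
    exact (AddMonoidHom.map_trace π.toRingHom.toAddMonoidHom _).symm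
  rw [← e]
  refine trace_eq_of_frobenius_outside
    (AdicCont.map (fun k => exists_nearOne L.ρ b k) _ hπ) hM₀ S
    (fun ℓ hℓ hℓS A hA σ hσ => ?_) g
  obtain ⟨h1, h3⟩ := hfrob ℓ hℓ hℓS A hA σ hσ
  refine ⟨?_, ?_⟩
  · rw [e, h1, L.trace_frob ℓ hℓ hℓS A hA σ hσ]
  · rw [h3, ← map_natCast π.toRingHom, ← L.det_frob b hpS hℓ hℓS hA hσ]
    exact (RingHom.map_det π.toRingHom _).symm

/-- **Level lowering from Taylor–Wiles levels.** -/
theorem false_of_levelData (h2 : IsUnit (2 : O)) (habs : ρbar.IsAbsolutelyIrreducible)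
    (P : ScalarPrimes p ρbar bbar m) {g D d D₀ : ℕ} (hD : m * 3 + g ≤ D) (hd : 0 < d)
    (Tm : ℕ → Matrix (Fin d) (Fin d) O) {S₀ : Finset ℕ} (hpS : p ∈ S₀)
    (L₀ : LevelCore p ρbar D₀ d Tm S₀) (S : ℕ → Finset ℕ) (hS : ∀ n, S₀ ⊆ S n)
    (L : ∀ n, LevelData P g D d Tm (S n))
    (hJ : ∀ k, ∀ᶠ n in Filter.atTop, (L n).core.J ≤ trunc O D k) (i₀ : Fin m)
    (hexact : ∀ (T₀ : Type) [CommRing T₀] [IsLocalRing T₀] [IsNoetherianRing T₀] [Algebra O T₀]
      (A₀ : T₀ →ₐ[O] Matrix (Fin d) (Fin d) O) (M₀ : AG →* Matrix (Fin 2) (Fin 2) T₀),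
      AdicCont M₀ →
      (∀ x, A₀ x ∈ Algebra.adjoin O (Tm '' {ℓ | ℓ.Prime ∧ ℓ ∉ S₀})) →
      (∃ g : Fin 4 → AG, IsUnit (Matrix.of fun i j => Matrix.trace (M₀ (g i) * M₀ (g j))).det) →
      (∀ ℓ : ℕ, ℓ.Prime → ℓ ∉ S₀ → ∀ A : ValuationSubring Qbar, A.LiesOverPrime ℓ →
        ∀ σ : AG, A.IsFrobeniusAt σ ℓ → A₀ (M₀ σ).trace = Tm ℓ ∧ (M₀ σ).det = (ℓ : T₀)) →
      ∀ w, resBlock (A₀ : T₀ →+* Matrix (Fin d) (Fin d) O) (M₀ (P.σ i₀) - 1) w = 0 →
        ∃ y, resBlock (A₀ : T₀ →+* Matrix (Fin d) (Fin d) O) (M₀ (P.σ i₀) - 1) y = w) :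
    False := by
  classical
  have : NeZero d := ⟨hd.ne'⟩
  -- the ring at the minimal level
  let K : Ideal L₀.T := RingHom.ker L₀.augHom
  have : Nontrivial (L₀.T ⧸ K) := Ideal.Quotient.nontrivial_iff.mpr fun h => by
    have h1 : L₀.augHom 1 = 0 := RingHom.mem_ker.1 (show (1 : L₀.T) ∈ K from h ▸ Submodule.mem_top)
    rw [map_one] at h1
    exact one_ne_zero h1
  have hmk : IsLocalHom (Ideal.Quotient.mk K) :=
    IsLocalHom.of_surjective _ Ideal.Quotient.mk_surjective
  have : IsLocalRing (L₀.T ⧸ K) := .of_surjective' _ Ideal.Quotient.mk_surjective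
  have : IsLocalHom (algebraMap O (L₀.T ⧸ K)) :=
    ⟨fun a ha => (isUnit_map_iff (algebraMap O L₀.T) a).mp
      ((isUnit_map_iff (Ideal.Quotient.mk K) _).mp ha)⟩
  have : IsAdicComplete (maximalIdeal (L₀.T ⧸ K)) (L₀.T ⧸ K) := by
    have h1 := IsAdicComplete.of_module_finite (maximalIdeal L₀.T) (L₀.T ⧸ K)
    rw [← IsAdicComplete.map_algebraMap_iff (S := L₀.T ⧸ K), Ideal.Quotient.algebraMap_eq,
      map_maximalIdeal_of_surjective _ Ideal.Quotient.mk_surjective] at h1
    exact h1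
  let A₀ : (L₀.T ⧸ K) →ₐ[O] Matrix (Fin d) (Fin d) O := Ideal.kerLiftAlg L₀.augHom
  have hA₀inj : Function.Injective A₀ := Ideal.kerLiftAlg_injective L₀.augHom
  have hA₀ : ∀ x, A₀ (Ideal.Quotient.mk K x) = L₀.augHom x := Ideal.kerLiftAlg_mk L₀.augHom
  have hres₀ : Function.Surjective (residue (L₀.T ⧸ K) ∘ algebraMap O (L₀.T ⧸ K)) :=
    residue_surjective_quotient L₀.residue_surjective K
  -- the representation at the minimal level
  obtain ⟨b₀, hb₀⟩ := exists_adapted (bbar := bbar) L₀.residue_surjective L₀.ρ L₀.residual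
  let M₀ : AG →* Matrix (Fin 2) (Fin 2) (L₀.T ⧸ K) :=
    (Ideal.Quotient.mk K).mapMatrix.toMonoidHom.comp (matrixRep b₀ L₀.ρ.ρ)
  have hM₀res : ∀ σ, (M₀ σ).map (toRes hres₀) = rbar bbar σ := fun σ => by
    ext i j
    show toRes hres₀ (Ideal.Quotient.mkₐ O K (matrixRep b₀ L₀.ρ.ρ σ i j)) = _
    rw [toRes_map L₀.residue_surjective hres₀ _ fun x hx => map_nonunit (Ideal.Quotient.mk K) x hx]
    exact toRes_entry hb₀ σ i j
  have hcont₀ : AdicCont M₀ :=
    AdicCont.map (fun n => exists_nearOne L₀.ρ b₀ n) _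
      fun x hx => map_nonunit (Ideal.Quotient.mk K) x hx
  have hfrob₀ : ∀ ℓ : ℕ, ℓ.Prime → ℓ ∉ S₀ → ∀ A : ValuationSubring Qbar, A.LiesOverPrime ℓ →
      ∀ σ : AG, A.IsFrobeniusAt σ ℓ →
        (M₀ σ).trace = Ideal.Quotient.mk K (L₀.τ ℓ) ∧ (M₀ σ).det = (ℓ : L₀.T ⧸ K) := by
    intro ℓ hℓ hℓS A hA σ hσ
    constructor
    · rw [← L₀.trace_frob ℓ hℓ hℓS A hA σ hσ, ← trace_matrixRep b₀]
      exact (AddMonoidHom.map_trace (Ideal.Quotient.mk K).toAddMonoidHom _).symm
    · rw [← map_natCast (Ideal.Quotient.mk K), ← L₀.det_frob b₀ hpS hℓ hℓS hA hσ]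
      exact (RingHom.map_det (Ideal.Quotient.mk K) _).symm
  obtain ⟨gb, hgb⟩ := hasTraceBasis_of_isAbsolutelyIrreducible ρbar habs
  have hgram : IsUnit (Matrix.of fun i j => Matrix.trace (M₀ (gb i) * M₀ (gb j))).det :=
    isUnit_gram_of_residual hres₀ M₀ hM₀res gb hgb
  -- the other levels map onto it
  have hrange : ∀ n x, (L n).core.augHom x ∈ A₀.range := fun n x =>
    Algebra.adjoin_le (S := A₀.range) (by
      rintro _ ⟨ℓ, ⟨hℓ, hℓS⟩, rfl⟩
      exact ⟨Ideal.Quotient.mk K (L₀.τ ℓ), (hA₀ _).trans (L₀.augHom_τ hℓ fun h => hℓS (hS n h))⟩)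
      ((L n).core.augHom_mem_adjoin x)
  let π : ∀ n, (L n).core.T →ₐ[O] L₀.T ⧸ K := fun n =>
    (AlgEquiv.ofInjective A₀ hA₀inj).symm.toAlgHom.comp ((L n).core.augHom.codRestrict _ (hrange n))
  have hπA : ∀ n x, A₀ (π n x) = (L n).core.augHom x := fun n x =>
    congrArg Subtype.val ((AlgEquiv.ofInjective A₀ hA₀inj).apply_symm_apply ⟨_, hrange n x⟩)
  have hπm : ∀ n, ∀ x ∈ maximalIdeal (L n).core.T, π n x ∈ maximalIdeal (L₀.T ⧸ K) :=
    fun n x hx => map_mem_maximalIdeal hres₀ (π n) hx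
  have htr : ∀ n g, π n (LinearMap.trace (L n).core.T (L n).core.ρ.V ((L n).core.ρ.ρ g)) =
      (M₀ g).trace := fun n =>
    (L n).core.map_trace_eq bbar (π n) (hπm n) (hS n hpS) M₀ hcont₀
      fun ℓ hℓ hℓS A hA σ hσ => by
        have hℓS₀ : ℓ ∉ S₀ := fun h => hℓS (hS n h)
        obtain ⟨h1, h3⟩ := hfrob₀ ℓ hℓ hℓS₀ A hA σ hσ
        refine ⟨hA₀inj ?_, h3⟩
        rw [h1, hπA, hA₀, L₀.augHom_τ hℓ hℓS₀, (L n).core.augHom_τ hℓ hℓS]
  have hπsurj : ∀ n, Function.Surjective (π n) := fun n => by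
    rw [← AlgHom.range_eq_top, ← top_le_iff]
    intro y _
    obtain ⟨x, rfl⟩ := Ideal.Quotient.mk_surjective y
    have hle : Algebra.adjoin O (L₀.τ '' {ℓ | ℓ.Prime ∧ ℓ ∉ S₀}) ≤
        (π n).range.comap (Ideal.Quotient.mkₐ O K) := Algebra.adjoin_le <| by
      rintro _ ⟨ℓ, ⟨hℓ, hℓS⟩, rfl⟩
      have : Fact ℓ.Prime := ⟨hℓ⟩
      obtain ⟨σ, hσ⟩ := Gal.exists_isFrobeniusAt hℓ (PT.padicPlace_liesOverPrime (q := ℓ))
      refine ⟨LinearMap.trace (L n).core.T (L n).core.ρ.V ((L n).core.ρ.ρ σ), ?_⟩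
      show π n _ = Ideal.Quotient.mk K _
      rw [htr, (hfrob₀ ℓ hℓ hℓS _ PT.padicPlace_liesOverPrime σ hσ).1]
    exact hle (L₀.gen ▸ Algebra.mem_top)
  choose b hb using fun n => exists_basis_map_eq (L n).core.ρ.ρ
    (exists_adapted (bbar := bbar) (L n).core.residue_surjective (L n).core.ρ
      (L n).core.residual).choose (π n).toRingHom (hπsurj n) M₀ gb hgram (htr n)
  have hadapt : ∀ n, Adapted bbar (L n).core.residue_surjective (L n).core.ρ (b n) := fun n σ => by
    rw [← hM₀res σ, ← hb n σ]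
    ext i j
    simp only [Matrix.map_apply]
    exact (toRes_map _ hres₀ (π n) (hπm n) _).symm
  let R : ℕ → RepLevel P g D d M₀ (A₀ : (L₀.T ⧸ K) →+* Matrix (Fin d) (Fin d) O) := fun n =>
    { T := (L n).core.T
      residue_surjective := (L n).core.residue_surjective
      proj := π n
      proj_surjective := hπsurj n
      ρ := (L n).core.ρ
      b := b n
      adapted := hadapt n
      det := (L n).core.det
      proj_rep := hb n
      gen := by
        simp only [trace_matrixRep]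
        exact (L n).core.adjoin_traces
      ι := (L n).ι
      F := (L n).F
      pt := (L n).pt
      pt_mem := (L n).pt_mem
      pts_injective := (L n).pts_injective
      pt_unipotent := fun a i => by
        show ((matrixRep (b n) (L n).core.ρ.ρ (P.σ i)).map ((L n).pt a).toRingHom).charpoly = _
        rw [Matrix.charpoly_map]
        refine Eq.trans ?_ ((L n).pt_unipotent a i)
        exact congrArg (Polynomial.map _) (LinearMap.charpoly_toMatrix _ (b n))
      Z := (L n).Z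
      Z_fin := (L n).Z_fin
      Z_le := (L n).Z_le
      Z_mem := (L n).Z_mem (b n) (hadapt n)
      J := (L n).core.J
      J_aug := (L n).core.J_aug
      act := (L n).core.act
      act_algebraMap := (L n).core.act_algebraMap
      act_aug := fun x => (hπA n x).symm
      sq_mem := (L n).sq_mem }
  have hgenA : ∀ x, A₀ x ∈ Algebra.adjoin O (Tm '' {ℓ | ℓ.Prime ∧ ℓ ∉ S₀}) := fun x => by
    obtain ⟨z, rfl⟩ := Ideal.Quotient.mk_surjective x
    rw [hA₀]
    exact L₀.augHom_mem_adjoin z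
  refine false_of_repLevels h2 P hD hd R hJ i₀
    (hexact (L₀.T ⧸ K) A₀ M₀ hcont₀ hgenA ⟨gb, hgram⟩ fun ℓ hℓ hℓS A hA σ hσ => ?_)
  obtain ⟨h1, h3⟩ := hfrob₀ ℓ hℓ hℓS A hA σ hσ
  exact ⟨by rw [h1, hA₀, L₀.augHom_τ hℓ hℓS], h3⟩

end Fermat.Agent.LevelLowering.Scalar
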