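import Mathlib.NumberTheory.Padics.RingHoms
import Fermat.Agent.Attach.Model
import Fermat.Agent.Ihara.RaiseBase
import Fermat.Agent.LevelLowering.FreeBase
import Fermat.Agent.LevelLowering.JacobianPoints

/-!
# Reduction of the lattice `Hom_cl(Γ₀(N), ℤ_p)` to the coordinates of `J₀(N)[p]`

Reduction modulo `p` of closed homomorphisms, read through the torsion model, is surjective with
kernel the multiples of `p` and commutes with the Hecke operators (`exists_clReduction`).
-/

noncomputable section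

namespace Fermat.Agent.LevelLowering.Scalar

open Attach CongruenceSubgroup Fermat.Agent.Grp Fermat.Agent.Ihara
open scoped MatrixGroups

variable (N : ℕ) [NeZero N] (p : ℕ) [hp : Fact p.Prime]

instance neZero_prime : NeZero p := ⟨hp.out.ne_zero⟩

/-- The torsion model used by the bridge. -/
abbrev tModel : TorsionModel N p := torsionModel N p

theorem exists_eq_mul_p {c : ℤ_[p]} (h : PadicInt.toZModPow 1 c = 0) :
    ∃ z, c = (p : ℤ_[p]) * z := by
  have h' : c ∈ RingHom.ker (PadicInt.toZModPow (p := p) 1) := h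
  rw [PadicInt.ker_toZModPow, pow_one, Ideal.mem_span_singleton] at h'
  exact h'

/-- **The reduction map.** -/
theorem exists_clReduction {S : Finset ℕ} (hNS : ∀ q, q.Prime → q ∣ N → q ∈ (↑S : Set ℕ)) :
    ∃ χ : clH ℤ_[p] N →+ (Fin (tModel N p).rk → ZMod (p ^ 1)), Function.Surjective χ ∧
      (∀ x, χ x = 0 ↔ ∃ y, x = (p : ℤ_[p]) • y) ∧
      (∀ (c : ℤ_[p]) x, χ (c • x) = PadicInt.toZModPow 1 c • χ x) ∧
      ∀ (ℓ : ℕ) [NeZero ℓ] (hℓ : ℓ.Prime) (hℓN : ¬ ℓ ∣ N) (hℓS : ℓ ∉ (↑S : Set ℕ)) x,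
        χ (baseOp ℤ_[p] N ℓ x) =
          heckeAct (tModel N p) hNS 1 (CuspForm.heckeAlgebra.T hℓ hℓN hℓS) (χ x) := by
  classical
  have : NeZero (p ^ 1) := ⟨pow_ne_zero _ hp.out.ne_zero⟩
  obtain ⟨γ, e, he, -, hdec⟩ := clBasis_exists (Gamma0 N) (neg_one_mem_Gamma0 N)
  set M := tModel N p with hM
  let co : clLattice N ≃ₗ[ℤ] (Fin M.rk → ℤ) := M.bas.equivFun
  let ec : Fin (clRank (Gamma0 N)) → clLattice N := fun i => ⟨e i, he i⟩
  let cast : clLattice N →+ clH ℤ_[p] N := clMap (Int.castRingHom ℤ_[p])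
  have hcast : ∀ v x, (cast v).1 x = ((v.1 x : ℤ) : ℤ_[p]) := fun v x => rfl
  -- the map
  let χ : clH ℤ_[p] N →+ (Fin M.rk → ZMod (p ^ 1)) :=
    { toFun := fun x =>
        ∑ i, PadicInt.toZModPow 1 (x.1 (Additive.ofMul (γ i))) • M.redVec 1 (co (ec i))
      map_zero' := by simp
      map_add' := fun x y => by
        simp only [Submodule.coe_add, AddMonoidHom.add_apply, map_add, add_smul,
          Finset.sum_add_distrib] }
  have hlat : ∀ v : clLattice N, v = ∑ i, v.1 (Additive.ofMul (γ i)) • ec i := fun v => by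
    refine Subtype.ext (AddMonoidHom.ext fun x => ?_)
    rw [hdec ℤ v.1 v.2 x, Submodule.coe_sum, AddMonoidHom.finsetSum_apply]
    refine Finset.sum_congr rfl fun i _ => ?_
    show e i x • v.1 (Additive.ofMul (γ i)) = v.1 (Additive.ofMul (γ i)) • e i x
    rw [smul_eq_mul, smul_eq_mul, mul_comm]
  have hsmul : ∀ (c : ℤ_[p]) x, χ (c • x) = PadicInt.toZModPow 1 c • χ x := fun c x => by
    show (∑ i, PadicInt.toZModPow 1 ((c • x).1 (Additive.ofMul (γ i))) • M.redVec 1 (co (ec i))) =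
      PadicInt.toZModPow 1 c •
        ∑ i, PadicInt.toZModPow 1 (x.1 (Additive.ofMul (γ i))) • M.redVec 1 (co (ec i))
    rw [Finset.smul_sum]
    refine Finset.sum_congr rfl fun i _ => ?_
    show PadicInt.toZModPow 1 (c * x.1 (Additive.ofMul (γ i))) • _ = _
    rw [map_mul, mul_smul]
  have hint : ∀ v, χ (cast v) = M.redVec 1 (co v) := fun v => by
    conv_rhs => rw [hlat v]
    show (∑ i, PadicInt.toZModPow 1 ((cast v).1 (Additive.ofMul (γ i))) •
      M.redVec 1 (co (ec i))) = _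
    funext j
    simp only [map_sum, map_zsmul, Finset.sum_apply, Pi.smul_apply, TorsionModel.redVec, hcast,
      map_intCast, smul_eq_mul, Int.cast_sum, zsmul_eq_mul]
    simp
  have hsplit : ∀ x : clH ℤ_[p] N, ∃ v y, x = cast v + (p : ℤ_[p]) • y := by
    intro x
    choose z hz using fun i => exists_eq_mul_p p
      (c := x.1 (Additive.ofMul (γ i)) -
        (((PadicInt.toZModPow 1 (x.1 (Additive.ofMul (γ i)))).val : ℤ) : ℤ_[p]))
      (by rw [map_sub, map_intCast, Int.cast_natCast, ZMod.natCast_zmod_val, sub_self])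
    refine ⟨∑ i, ((PadicInt.toZModPow 1 (x.1 (Additive.ofMul (γ i)))).val : ℤ) • ec i,
      ∑ i, z i • cast (ec i), Subtype.ext (AddMonoidHom.ext fun w => ?_)⟩
    rw [hdec ℤ_[p] x.1 x.2 w]
    simp only [map_sum, map_zsmul, Submodule.coe_add, Submodule.coe_sum,
      Submodule.coe_smul_of_tower, AddMonoidHom.add_apply, AddMonoidHom.finsetSum_apply,
      AddMonoidHom.smul_apply,
      Finset.smul_sum, ← Finset.sum_add_distrib, hcast, smul_eq_mul]
    refine Finset.sum_congr rfl fun i _ => ?_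
    simp only [zsmul_eq_mul, ec]
    linear_combination (e i w : ℤ_[p]) * hz i
  have hp0 : ∀ y, χ ((p : ℤ_[p]) • y) = 0 := fun y => by
    rw [hsmul, map_natCast, show ((p : ℕ) : ZMod (p ^ 1)) = 0 by
      rw [ZMod.natCast_eq_zero_iff, pow_one], zero_smul]
  refine ⟨χ, fun w => ?_, fun x => ⟨fun hx => ?_, ?_⟩, hsmul, ?_⟩
  · obtain ⟨u, rfl⟩ := redVec_surjective M 1 w
    exact ⟨cast (co.symm u), by rw [hint, co.apply_symm_apply]⟩
  · obtain ⟨v, y, rfl⟩ := hsplit x
    rw [map_add, hp0, add_zero, hint] at hx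
    have hd : ∀ j, (p : ℤ) ∣ co v j := fun j => by
      have := (ZMod.intCast_zmod_eq_zero_iff_dvd (co v j) (p ^ 1)).mp (congrFun hx j)
      simpa using this
    choose z hz using hd
    refine ⟨cast (co.symm z) + y, ?_⟩
    rw [smul_add, ← co.symm_apply_apply v, show co v = (p : ℤ) • z from funext hz, map_zsmul,
      map_zsmul, natCast_zsmul, ← Nat.cast_smul_eq_nsmul ℤ_[p]]
  · rintro ⟨y, rfl⟩
    exact hp0 y
  · intro ℓ _ hℓ hℓN hℓS x
    obtain ⟨v, y, rfl⟩ := hsplit x
    rw [map_add, map_smul, map_add, hp0, add_zero, map_add, hp0, add_zero]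
    have hop : baseOp ℤ_[p] N ℓ (cast v) =
        cast (latticeHecke N (CuspForm.heckeAlgebra.T hℓ hℓN hℓN) v) := by
      refine Subtype.ext ?_
      rw [coe_baseOp]
      show Hecke.perTransfer N ℓ ℤ_[p] ((Int.castAddHom ℤ_[p]).comp v.1) =
        (Int.castAddHom ℤ_[p]).comp _
      rw [latticeHecke_T N hℓ hℓN v]
      exact Hecke.transferHom_comp (Hecke.upperConj N ℓ) (Int.castAddHom ℤ_[p]) v.1
    rw [hop, hint, hint]
    have hco : co (latticeHecke N (CuspForm.heckeAlgebra.T hℓ hℓN hℓN) v) =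
        (M.mat (CuspForm.heckeAlgebra.T hℓ hℓN hℓN)).mulVec (co v) :=
      (LinearMap.toMatrix_mulVec_repr M.bas M.bas
        (M.hecke (CuspForm.heckeAlgebra.T hℓ hℓN hℓN)) v).symm
    rw [hco, M.redVec_mulVec]
    rfl

end Fermat.Agent.LevelLowering.Scalar
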