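import Fermat.Agent.LevelLowering.MonodromyExact.Coords
import Fermat.Agent.LevelLowering.Scalar.Bridge

/-!
# The idempotent part of the lattice reduces to the `θ`-part of `J₀(N)[p]`

A basis of the part of `Hom_cl(Γ₀(N), ℤ_p)` cut out by the idempotent of the residual system gives
coordinates on the `θ`-part of `J₀(N)[p]`, compatibly with the Hecke operators.
-/

noncomputable section

namespace Fermat.Agent.LevelLowering.Scalar

open Attach CongruenceSubgroup IsLocalRing Fermat.Agent.Grp Fermat.Agent.Ihara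
open scoped MatrixGroups IsMulCommutative

variable {N : ℕ} [NeZero N] {p : ℕ} [hp : Fact p.Prime] {S : Finset ℕ}
  (hNS : ∀ q, q.Prime → q ∣ N → q ∈ (↑S : Set ℕ))
  {k : Type} [Field k] [CharP k p]
  (θ : CuspForm.heckeAlgebra N 2 (↑S : Set ℕ) →+* k)
  (χ : clH ℤ_[p] N →+ (Fin (tModel N p).rk → ZMod (p ^ 1)))

variable (N S) in
/-- The good Hecke algebra. -/
abbrev HeckeS : Type := ↥(CuspForm.heckeAlgebra N 2 (↑S : Set ℕ))

/-- A shortcut: the group of classes is an additive group. -/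
local instance (priority := high) addCommGroupClH : AddCommGroup ↥(clH ℤ_[p] N) := inferInstance

/-- A shortcut: the Hecke algebra is a commutative ring. -/
local instance (priority := high) commRingHeckeS : CommRing (HeckeS N S) := inferInstance

/-- A shortcut: the base algebra is commutative. -/
local instance (priority := high) commRingBase (𝓟 : Set Nat.Primes) :
    CommRing ↥(baseAlg ℤ_[p] N 𝓟) :=
  inferInstance

/-- The two operators agree on the reduction. -/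
def Related (a : Module.End ℤ_[p] (clH ℤ_[p] N)) (t : HeckeS N S) : Prop :=
  ∀ x, χ (a x) = heckeAct (tModel N p) hNS 1 t (χ x)

/-- The value of a `p`-adic integer in `k`. -/
def resVal : ℤ_[p] →+* k := (ZMod.castHom (dvd_refl p) k).comp PadicInt.toZMod

theorem mem_maximalIdeal_of_resVal {c : ℤ_[p]} (hc : resVal (k := k) c = 0) :
    c ∈ maximalIdeal ℤ_[p] := by
  rw [← PadicInt.ker_toZMod, RingHom.mem_ker]
  exact RingHom.injective (ZMod.castHom (dvd_refl p) k) (hc.trans (map_zero _).symm)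

section

variable {hNS θ χ}

theorem Related.add {a b : Module.End ℤ_[p] (clH ℤ_[p] N)} {s t : HeckeS N S}
    (h : Related hNS χ a s) (h' : Related hNS χ b t) :
    Related hNS χ (a + b) (s + t) := fun x => by
  rw [LinearMap.add_apply, map_add, h, h', map_add, LinearMap.add_apply]

theorem Related.mul {a b : Module.End ℤ_[p] (clH ℤ_[p] N)} {s t : HeckeS N S}
    (h : Related hNS χ a s) (h' : Related hNS χ b t) :
    Related hNS χ (a * b) (s * t) := fun x => by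
  rw [Module.End.mul_apply, h, h', map_mul, Module.End.mul_apply]

theorem Related.neg {a : Module.End ℤ_[p] (clH ℤ_[p] N)} {t : HeckeS N S} (h : Related hNS χ a t) :
    Related hNS χ (-a) (-t) := fun x => by
  show χ (-(a x)) = _
  refine (map_neg χ (a x)).trans ?_
  rw [h x, map_neg]
  rfl

end

variable (𝓟 : Set Nat.Primes) (av : Nat.Primes → ResidueField ℤ_[p])
  (hP : ∀ ℓ : Nat.Primes, ℓ ∈ 𝓟 ↔ (ℓ : ℕ) ∉ S)
  (hsmul : ∀ (c : ℤ_[p]) x, χ (c • x) = PadicInt.toZModPow 1 c • χ x)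
  (hker : ∀ x, χ x = 0 ↔ ∃ y, x = (p : ℤ_[p]) • y) (hsurj : Function.Surjective χ)
  (hT : ∀ (ℓ : ℕ) [NeZero ℓ] (hℓ : ℓ.Prime) (hℓN : ¬ ℓ ∣ N) (hℓS : ℓ ∉ (↑S : Set ℕ)),
    Related hNS χ (baseOp ℤ_[p] N ℓ) (CuspForm.heckeAlgebra.T hℓ hℓN hℓS))
  (hav : ∀ (ℓ : Nat.Primes) (hℓN : ¬ (ℓ : ℕ) ∣ N) (hℓS : (ℓ : ℕ) ∉ (↑S : Set ℕ)),
    resVal (k := k) (liftSys ℤ_[p] av ℓ) = θ (CuspForm.heckeAlgebra.T ℓ.2 hℓN hℓS))

include hsmul in
theorem related_algebraMap (c : ℤ_[p]) :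
    Related hNS χ (algebraMap ℤ_[p] _ c) ((PadicInt.toZMod c).val : HeckeS N S) := fun x => by
  have : NeZero (p ^ 1) := ⟨pow_ne_zero _ hp.out.ne_zero⟩
  rw [Module.algebraMap_end_apply, hsmul, map_natCast, Module.End.natCast_apply,
    ← Nat.cast_smul_eq_nsmul (ZMod (p ^ 1))]
  congr 1
  obtain ⟨z, hz⟩ := exists_eq_mul_p p (c := c - ((PadicInt.toZModPow 1 c).val : ℕ))
    (by rw [map_sub, map_natCast, ZMod.natCast_zmod_val, sub_self])
  have h := congrArg PadicInt.toZMod hz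
  rw [map_sub, map_natCast, map_mul, map_natCast, ZMod.natCast_self, zero_mul, sub_eq_zero] at h
  rw [h, ZMod.val_natCast, Nat.mod_eq_of_lt (lt_of_lt_of_eq (ZMod.val_lt _) (pow_one p)),
    ZMod.natCast_zmod_val]

include hP hsmul hT hav in
/-- Every element of the algebra is related to one of the Hecke algebra, compatibly with the
residual values. -/
theorem exists_related (a : baseAlg ℤ_[p] N 𝓟) :
    ∃ (t : HeckeS N S) (c : ℤ_[p]), Related hNS χ a.1 t ∧ θ t = resVal c ∧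
      a - algebraMap ℤ_[p] _ c ∈ baseIdeal ℤ_[p] N 𝓟 av := by
  obtain ⟨a, ha⟩ := a
  induction ha using Algebra.adjoin_induction with
  | mem x hx =>
    obtain ⟨i, rfl⟩ := hx
    have hiS : (i.1 : ℕ) ∉ (↑S : Set ℕ) := fun h => (hP i.1).mp i.2 (Finset.mem_coe.1 h)
    have hiN : ¬ (i.1 : ℕ) ∣ N := fun h => hiS (hNS _ i.1.2 h)
    have : NeZero (i.1 : ℕ) := ⟨i.1.2.ne_zero⟩
    exact ⟨_, _, hT _ i.1.2 hiN hiS, (hav i.1 hiN hiS).symm,
      sub_mem_genIdeal (baseElt ℤ_[p] N 𝓟) (fun i => liftSys ℤ_[p] av i.1) i⟩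
  | algebraMap r =>
    refine ⟨_, r, related_algebraMap hNS χ hsmul r, ?_, ?_⟩
    · rw [map_natCast, resVal, RingHom.comp_apply]
      conv_rhs => rw [← ZMod.natCast_zmod_val (PadicInt.toZMod r), map_natCast]
    · exact (congrArg (· ∈ baseIdeal ℤ_[p] N 𝓟 av) (sub_self _)).mpr (zero_mem _)
  | add x y hx hy ihx ihy =>
    obtain ⟨s, c, h1, h2, h3⟩ := ihx
    obtain ⟨t, d, h4, h5, h6⟩ := ihy
    refine ⟨s + t, c + d, h1.add h4, by rw [map_add, map_add, h2, h5], ?_⟩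
    rw [map_add]
    convert add_mem h3 h6 using 1
    exact (add_sub_add_comm (⟨x, hx⟩ : baseAlg ℤ_[p] N 𝓟) ⟨y, hy⟩ _ _)
  | mul x y hx hy ihx ihy =>
    obtain ⟨s, c, h1, h2, h3⟩ := ihx
    obtain ⟨t, d, h4, h5, h6⟩ := ihy
    refine ⟨s * t, c * d, h1.mul h4, by rw [map_mul, map_mul, h2, h5], ?_⟩
    rw [map_mul, show (⟨x * y, _⟩ : baseAlg ℤ_[p] N 𝓟) = ⟨x, hx⟩ * ⟨y, hy⟩ from rfl,
      show (⟨x, hx⟩ : baseAlg ℤ_[p] N 𝓟) * ⟨y, hy⟩ - algebraMap ℤ_[p] _ c * algebraMap ℤ_[p] _ d =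
        (⟨x, hx⟩ - algebraMap ℤ_[p] _ c) * ⟨y, hy⟩ +
          algebraMap ℤ_[p] _ c * (⟨y, hy⟩ - algebraMap ℤ_[p] _ d) by ring]
    exact add_mem (Ideal.mul_mem_right _ _ h3) (Ideal.mul_mem_left _ _ h6)

include hP hsmul hT hav in
/-- Elements of the ideal are related to the kernel of `θ`. -/
theorem exists_related_ker (a : baseAlg ℤ_[p] N 𝓟) (ha : a ∈ baseIdeal ℤ_[p] N 𝓟 av) :
    ∃ t : HeckeS N S, Related hNS χ a.1 t ∧ θ t = 0 := by
  let K : Ideal (baseAlg ℤ_[p] N 𝓟) :=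
    { carrier := {a | ∃ t : HeckeS N S, Related hNS χ a.1 t ∧ θ t = 0}
      zero_mem' := ⟨0, fun x => by simp, map_zero θ⟩
      add_mem' := by
        rintro a b ⟨s, h1, h2⟩ ⟨t, h3, h4⟩
        exact ⟨s + t, h1.add h3, by rw [map_add, h2, h4, add_zero]⟩
      smul_mem' := by
        rintro b a ⟨t, h1, h2⟩
        obtain ⟨s, -, h3, -, -⟩ := exists_related hNS θ χ 𝓟 av hP hsmul hT hav b
        exact ⟨s * t, h3.mul h1, by rw [map_mul, h2, mul_zero]⟩ }
  have hle : baseIdeal ℤ_[p] N 𝓟 av ≤ K := by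
    refine sup_le (Ideal.map_le_iff_le_comap.mpr fun r hr => ?_) (Ideal.span_le.mpr ?_)
    · refine ⟨_, related_algebraMap hNS χ hsmul r, ?_⟩
      rw [← PadicInt.ker_toZMod, RingHom.mem_ker] at hr
      rw [hr, ZMod.val_zero, Nat.cast_zero, map_zero]
    · rintro _ ⟨i, rfl⟩
      have hiS : (i.1 : ℕ) ∉ (↑S : Set ℕ) := fun h => (hP i.1).mp i.2 (Finset.mem_coe.1 h)
      have hiN : ¬ (i.1 : ℕ) ∣ N := fun h => hiS (hNS _ i.1.2 h)
      have : NeZero (i.1 : ℕ) := ⟨i.1.2.ne_zero⟩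
      refine ⟨CuspForm.heckeAlgebra.T i.1.2 hiN hiS +
        -((PadicInt.toZMod (liftSys ℤ_[p] av i.1)).val : HeckeS N S), ?_, ?_⟩
      · have := (hT _ i.1.2 hiN hiS).add (related_algebraMap hNS χ hsmul (liftSys ℤ_[p] av i.1)).neg
        rw [← sub_eq_add_neg] at this
        exact this
      · rw [map_add, map_neg, map_natCast, ← hav i.1 hiN hiS, resVal, RingHom.comp_apply]
        conv_lhs => arg 1; rw [← ZMod.natCast_zmod_val (PadicInt.toZMod (liftSys ℤ_[p] av i.1)),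
          map_natCast]
        exact add_neg_cancel _
  exact hle ha

include hP hsmul hsurj hT hav in
/-- The idempotent fixes the `θ`-part. -/
theorem map_idem_of_mem {x : clH ℤ_[p] N}
    (hx : χ x ∈ eigenPart (tModel N p) hNS θ 1) :
    χ ((baseIdem ℤ_[p] N 𝓟 av).1 x) = χ x := by
  set e := baseIdem ℤ_[p] N 𝓟 av
  have he := isIdemAt_baseIdem ℤ_[p] N 𝓟 av
  obtain ⟨t, ht, ht0⟩ := exists_related_ker hNS θ χ 𝓟 av hP hsmul hT hav _ he.one_sub_mem
  have hd : χ x - χ (e.1 x) = heckeAct (tModel N p) hNS 1 t (χ x) := by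
    rw [← ht x, ← map_sub]
    rfl
  have hidem : heckeAct (tModel N p) hNS 1 t * heckeAct (tModel N p) hNS 1 t =
      heckeAct (tModel N p) hNS 1 t := by
    refine LinearMap.ext fun w => ?_
    obtain ⟨y, rfl⟩ := hsurj w
    rw [Module.End.mul_apply, ← ht y, ← ht]
    exact congrArg (fun a : baseAlg ℤ_[p] N 𝓟 => χ (a.1 y))
      (show (1 - e) * (1 - e) = 1 - e by linear_combination he.idem)
  obtain ⟨j, hj⟩ := (mem_eigenPart (tModel N p) hNS θ).mp hx t ht0
  rcases Nat.eq_zero_or_pos j with rfl | hj0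
  · rw [pow_zero, Module.End.one_apply] at hj
    rw [hj, map_zero, sub_eq_neg_self.mpr rfl] at hd
    simpa [hj] using hd
  · rw [(show IsIdempotentElem (heckeAct (tModel N p) hNS 1 t) from hidem).pow_eq (by omega)] at hj
    rw [hj, sub_eq_zero] at hd
    exact hd.symm

include hP hT hav in
/-- Every Hecke element is related to one of the algebra, compatibly with the residual values. -/
theorem exists_lift_related (t : HeckeS N S) :
    ∃ (a : baseAlg ℤ_[p] N 𝓟) (c : ℤ_[p]), Related hNS χ a.1 t ∧ θ t = resVal c ∧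
      a - algebraMap ℤ_[p] _ c ∈ baseIdeal ℤ_[p] N 𝓟 av := by
  set I := baseIdeal ℤ_[p] N 𝓟 av
  let C : Subring (HeckeS N S) :=
    { carrier := {t | ∃ (a : baseAlg ℤ_[p] N 𝓟) (c : ℤ_[p]), Related hNS χ a.1 t ∧
        θ t = resVal c ∧ a - algebraMap ℤ_[p] _ c ∈ I}
      mul_mem' := by
        rintro s t ⟨a, c, h1, h2, h3⟩ ⟨b, d, h4, h5, h6⟩
        refine ⟨a * b, c * d, h1.mul h4, by rw [map_mul, map_mul, h2, h5], ?_⟩
        rw [map_mul, show a * b - algebraMap ℤ_[p] _ c * algebraMap ℤ_[p] _ d =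
          (a - algebraMap ℤ_[p] _ c) * b + algebraMap ℤ_[p] _ c * (b - algebraMap ℤ_[p] _ d)
            by ring]
        exact add_mem (Ideal.mul_mem_right _ _ h3) (Ideal.mul_mem_left _ _ h6)
      one_mem' := ⟨1, 1, fun y => by simp, by rw [map_one, map_one], by simp⟩
      add_mem' := by
        rintro s t ⟨a, c, h1, h2, h3⟩ ⟨b, d, h4, h5, h6⟩
        refine ⟨a + b, c + d, h1.add h4, by rw [map_add, map_add, h2, h5], ?_⟩
        rw [map_add, add_sub_add_comm]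
        exact add_mem h3 h6
      zero_mem' := ⟨0, 0, fun y => by simp, by rw [map_zero, map_zero], by simp⟩
      neg_mem' := by
        rintro t ⟨a, c, h1, h2, h3⟩
        refine ⟨-a, -c, h1.neg, by rw [map_neg, map_neg, h2], ?_⟩
        rw [map_neg, ← neg_add_eq_sub, neg_neg, ← sub_eq_add_neg, ← neg_sub]
        exact neg_mem h3 }
  have hall : ∀ t : HeckeS N S, t ∈ C := fun t =>
    forall_mem_of_T_mem (fun q hq hq' => hNS q hq' hq) (RingHom.id (HeckeS N S)) C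
      (fun ℓ hℓ hℓN hℓS => by
        have : NeZero ℓ := ⟨hℓ.ne_zero⟩
        let i : 𝓟 := ⟨⟨ℓ, hℓ⟩, (hP _).mpr fun h => hℓS (Finset.mem_coe.2 h)⟩
        exact ⟨baseElt ℤ_[p] N 𝓟 i, _, hT ℓ hℓ hℓN hℓS, (hav ⟨ℓ, hℓ⟩ hℓN hℓS).symm,
          sub_mem_genIdeal (baseElt ℤ_[p] N 𝓟) (fun i => liftSys ℤ_[p] av i.1) i⟩) t
  exact hall t

include hP hT hav in
/-- The idempotent lands in the `θ`-part. -/
theorem map_idem_mem (x : clH ℤ_[p] N) :
    χ ((baseIdem ℤ_[p] N 𝓟 av).1 x) ∈ eigenPart (tModel N p) hNS θ 1 := by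
  classical
  have : NeZero (p ^ 1) := ⟨pow_ne_zero _ hp.out.ne_zero⟩
  set e := baseIdem ℤ_[p] N 𝓟 av
  set I := baseIdeal ℤ_[p] N 𝓟 av
  have he := isIdemAt_baseIdem ℤ_[p] N 𝓟 av
  refine (mem_eigenPart (tModel N p) hNS θ).mpr fun t ht => ?_
  obtain ⟨a, c, hat, hc, hI⟩ := exists_lift_related hNS θ χ 𝓟 av hP hT hav t
  have haI : a ∈ I := by
    simpa using add_mem hI (algebraMap_mem_genIdeal (baseElt ℤ_[p] N 𝓟)
      (fun i => liftSys ℤ_[p] av i.1) (mem_maximalIdeal_of_resVal (k := k) (hc.symm.trans ht)))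
  have hpow : ∀ n : ℕ, Related hNS χ (a ^ n).1 (t ^ n) := by
    intro n
    induction n with
    | zero => exact fun y => by simp
    | succ n ih => rw [pow_succ, pow_succ]; exact ih.mul hat
  set E := Module.End (ZMod (p ^ 1)) (Fin (tModel N p).rk → ZMod (p ^ 1))
  have : Finite E := Finite.of_injective (fun f => ⇑f) DFunLike.coe_injective
  obtain ⟨L, hL0, hL⟩ := MonodromyExact.exists_idempotent_exponent E
  refine ⟨L, ?_⟩
  obtain ⟨b, hb⟩ : ∃ b, (1 - a ^ L) * b * e = e := by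
    by_cases hmem : 1 - a ^ L ∈ I
    · have h1 : (1 : baseAlg ℤ_[p] N 𝓟) ∈ I := by
        simpa using add_mem hmem (Ideal.pow_mem_of_mem _ haI L hL0)
      exact ⟨0, by rw [show e = 0 from he.eq_zero_of_top (I.eq_top_iff_one.mpr h1), mul_zero]⟩
    · exact he.exists_inv _ hmem
  have hx : e.1 x = (1 - a ^ L).1 ((b * e).1 x) := by
    conv_lhs => rw [← hb, mul_assoc]
    rfl
  rw [← map_pow, hx]
  show heckeAct (tModel N p) hNS 1 (t ^ L) (χ ((b * e).1 x - (a ^ L).1 ((b * e).1 x))) = 0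
  refine (congrArg (heckeAct (tModel N p) hNS 1 (t ^ L))
    (χ.map_sub ((b * e).1 x) ((a ^ L).1 ((b * e).1 x)))).trans ?_
  rw [hpow L, map_pow]
  refine (LinearMap.map_sub _ _ _).trans ?_
  rw [← Module.End.mul_apply, (hL _).eq, sub_self]

include hP hsmul hker hsurj hT hav in
/-- **Coordinates on the `θ`-part.** -/
theorem exists_residual_coords {d : ℕ} (v : Fin d → clH ℤ_[p] N)
    (hfix : ∀ i, (baseIdem ℤ_[p] N 𝓟 av).1 (v i) = v i)
    (hbasis : ∀ x, (baseIdem ℤ_[p] N 𝓟 av).1 x = x → ∃! b : Fin d → ℤ_[p], ∑ i, b i • v i = x) :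
    ∃ F : (Fin d → ZMod (p ^ 1)) ≃+ eigenPart (tModel N p) hNS θ 1,
      ∀ (a : Module.End ℤ_[p] (clH ℤ_[p] N)) (t : HeckeS N S), Related hNS χ a t →
        ∀ A : Matrix (Fin d) (Fin d) ℤ_[p], (∀ j, a (v j) = ∑ i, A i j • v i) → ∀ c,
          (F ((A.map (PadicInt.toZModPow 1)).mulVec c) : Fin (tModel N p).rk → ZMod (p ^ 1)) =
            heckeAct (tModel N p) hNS 1 t (F c) := by
  classical
  have : NeZero (p ^ 1) := ⟨pow_ne_zero _ hp.out.ne_zero⟩
  set e := baseIdem ℤ_[p] N 𝓟 av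
  have he := isIdemAt_baseIdem ℤ_[p] N 𝓟 av
  have hee : ∀ x, e.1 (e.1 x) = e.1 x := fun x =>
    LinearMap.congr_fun (congrArg Subtype.val he.idem) x
  let w : (Fin d → ZMod (p ^ 1)) →ₗ[ZMod (p ^ 1)] (Fin (tModel N p).rk → ZMod (p ^ 1)) :=
    Fintype.linearCombination (ZMod (p ^ 1)) fun i => χ (v i)
  have hw : ∀ b : Fin d → ℤ_[p],
      χ (∑ i, b i • v i) = w fun i => PadicInt.toZModPow 1 (b i) := fun b => by
    simp [w, Fintype.linearCombination_apply, hsmul]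
  have hlift : ∀ c : Fin d → ZMod (p ^ 1),
      ∃ b : Fin d → ℤ_[p], (fun i => PadicInt.toZModPow 1 (b i)) = c := fun c =>
    ⟨fun i => ((c i).val : ℕ), funext fun i => by rw [map_natCast, ZMod.natCast_zmod_val]⟩
  have hsum : ∀ b : Fin d → ℤ_[p], e.1 (∑ i, b i • v i) = ∑ i, b i • v i := fun b => by
    simp [hfix]
  have hmem : ∀ c, w c ∈ eigenPart (tModel N p) hNS θ 1 := fun c => by
    obtain ⟨b, rfl⟩ := hlift c
    rw [← hw, ← hsum]
    exact map_idem_mem hNS θ χ 𝓟 av hP hT hav _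
  have hinj : ∀ c, w c = 0 → c = 0 := fun c hc => by
    obtain ⟨b, rfl⟩ := hlift c
    rw [← hw, hker] at hc
    obtain ⟨y, hy⟩ := hc
    obtain ⟨b', hb', -⟩ := hbasis (e.1 y) (hee y)
    have hb : b = fun i => (p : ℤ_[p]) * b' i := by
      refine (hbasis _ (hsum b)).unique rfl ?_
      have h1 := hsum b
      rw [hy, map_smul, ← hb', Finset.smul_sum] at h1
      simp only [smul_smul] at h1
      rw [h1, ← hy]
    funext i
    rw [hb, map_mul, map_natCast, show ((p : ℕ) : ZMod (p ^ 1)) = 0 by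
      rw [ZMod.natCast_eq_zero_iff, pow_one], zero_mul]
    rfl
  let F₀ : (Fin d → ZMod (p ^ 1)) →+ eigenPart (tModel N p) hNS θ 1 :=
    (w.codRestrict _ hmem).toAddMonoidHom
  have hF : Function.Bijective F₀ := by
    refine ⟨(injective_iff_map_eq_zero F₀).mpr fun c hc => hinj c (congrArg Subtype.val hc),
      fun ⟨u, hu⟩ => ?_⟩
    obtain ⟨x, rfl⟩ := hsurj u
    obtain ⟨b, hb, -⟩ := hbasis (e.1 x) (hee x)
    refine ⟨fun i => PadicInt.toZModPow 1 (b i), Subtype.ext ?_⟩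
    show w (fun i => PadicInt.toZModPow 1 (b i)) = χ x
    rw [← hw, hb, map_idem_of_mem hNS θ χ 𝓟 av hP hsmul hsurj hT hav hu]
  refine ⟨AddEquiv.ofBijective F₀ hF, fun a t hat A hA c => ?_⟩
  show w _ = heckeAct (tModel N p) hNS 1 t (w c)
  obtain ⟨b, rfl⟩ := hlift c
  rw [← hw, ← hat, show ((A.map (PadicInt.toZModPow 1)).mulVec
      fun i => PadicInt.toZModPow 1 (b i)) = fun i => PadicInt.toZModPow 1 (A.mulVec b i) from
      funext fun i => (RingHom.map_mulVec (PadicInt.toZModPow 1) A b i).symm, ← hw]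
  congr 1
  simp only [map_sum, map_smul, hA, Finset.smul_sum, smul_smul, Matrix.mulVec, dotProduct,
    Finset.sum_smul]
  rw [Finset.sum_comm]
  exact Finset.sum_congr rfl fun i _ => Finset.sum_congr rfl fun j _ => by rw [mul_comm]

end Fermat.Agent.LevelLowering.Scalar
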