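import Fermat.Agent.LevelLowering.Monodromy
import Fermat.Agent.LevelLowering.ScalarPatching

/-!
# Exactness of the residual block matrix from exactness on a framed module

If `H ≅ P ⊕ P` with an operator given by the matrix `N`, exactness of the operator on `H` gives
exactness of `N` on `H ⊕ H`, hence of the block matrix on the reduction of the coordinate module
when that is isomorphic to `H` compatibly with the ring.
-/

namespace Fermat.Agent.LevelLowering.Scalar

open IsLocalRing

section Frame

variable {R : Type*} [CommRing R] {H P : Type*} [AddCommGroup H] [Module R H] [AddCommGroup P]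
  [Module R P]

/-- Exactness on a framed module passes to pairs of its elements. -/
theorem matAct_exact_of_frame (N : Matrix (Fin 2) (Fin 2) R) (e : H ≃ₗ[R] (Fin 2 → P))
    (τ : H → H) (he : ∀ x, e (τ x) = matAct N (e x)) (hex : ∀ x, τ x = 0 → ∃ y, τ y = x)
    (v : Fin 2 → H) (hv : matAct N v = 0) : ∃ y, matAct N y = v := by
  have hP : ∀ w : Fin 2 → P, matAct N w = 0 → ∃ y, matAct N y = w := fun w hw => by
    obtain ⟨y, hy⟩ := hex (e.symm w) (e.injective (by rw [he, e.apply_symm_apply, hw, map_zero]))
    exact ⟨e y, by rw [← he, hy, e.apply_symm_apply]⟩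
  have hslot : ∀ j, matAct N (fun b => e (v b) j) = 0 := fun j => funext fun a => by
    have h := congrFun (congrArg e (congrFun hv a)) j
    simpa using h
  choose y hy using fun j => hP _ (hslot j)
  refine ⟨fun b => e.symm fun j => y j b, funext fun a => e.injective (funext fun j => ?_)⟩
  have h := congrFun (hy j) a
  simpa using h

end Frame

section Block

variable {𝒪 : Type} [CommRing 𝒪] [IsDomain 𝒪] [IsDiscreteValuationRing 𝒪] {R : Type} [CommRing R]
  {d : ℕ}
  (A : R →+* Matrix (Fin d) (Fin d) 𝒪) {H : Type*} [AddCommGroup H] [Module R H]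

/-- Exactness transported to the residual coordinate module. -/
theorem resBlock_exact (f : (Fin d → ResidueField 𝒪) ≃+ H)
    (hf : ∀ (t : R) v, f (((A t).map (residue 𝒪)).mulVec v) = t • f v)
    (N : Matrix (Fin 2) (Fin 2) R)
    (hex : ∀ v : Fin 2 → H, matAct N v = 0 → ∃ y, matAct N y = v)
    (w : Fin 2 × Fin d → ResidueField 𝒪) (hw : resBlock A N w = 0) :
    ∃ y, resBlock A N y = w := by
  have key : ∀ (u : Fin 2 × Fin d → ResidueField 𝒪) (a : Fin 2),
      f (fun x => resBlock A N u (a, x)) = matAct N (fun b => f fun x => u (b, x)) a := by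
    intro u a
    rw [matAct_apply, ← hf, ← hf, ← map_add]
    refine congrArg f (funext fun x => ?_)
    simp only [resBlock, Fintype.sum_prod_type, Fin.sum_univ_two, Pi.add_apply, Matrix.mulVec,
      dotProduct, Matrix.map_apply]
  obtain ⟨y, hy⟩ := hex (fun b => f fun x => w (b, x)) (funext fun a => by
    rw [← key, hw]
    exact map_zero f)
  refine ⟨fun p => f.symm (y p.1) p.2, funext fun p => ?_⟩
  obtain ⟨a, x⟩ := p
  have h : f (fun x => resBlock A N (fun p => f.symm (y p.1) p.2) (a, x)) =
      f fun x => w (a, x) := by
    rw [key, ← congrFun hy a]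
    simp
  exact congrFun (f.injective h) x

end Block

end Fermat.Agent.LevelLowering.Scalar
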