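import Mathlib.NumberTheory.Padics.RingHoms
import Mathlib.RingTheory.Artinian.Ring
import Fermat.Agent.Attach.TwoDim
import Fermat.Agent.LevelLowering.MonodromyExact.Main
import Fermat.Agent.LevelLowering.Scalar.Exact

/-!
# Exactness of the monodromy at the minimal level

A representation over a local ring acting on coordinates of the `θ`-part of `J₀(N)[p]` through
the Hecke algebra, with Frobenius traces the Hecke operators, has exact residual monodromy block.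
-/

noncomputable section

namespace Fermat.Agent.LevelLowering.Scalar

open Attach IsLocalRing Matrix
open scoped IsMulCommutative

local notation "Qbar" => AlgebraicClosure ℚ
local notation "GQ" => (AlgebraicClosure ℚ ≃ₐ[ℚ] AlgebraicClosure ℚ)

/-- Exactness transfers along conjugation. -/
theorem matAct_exact_of_conj {R P : Type*} [CommRing R] [AddCommGroup P] [Module R P]
    {N N' Q : Matrix (Fin 2) (Fin 2) R} (hQ : IsUnit Q.det) (h : N' * Q = Q * N)
    (hex : ∀ v : Fin 2 → P, matAct N' v = 0 → ∃ y, matAct N' y = v)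
    (v : Fin 2 → P) (hv : matAct N v = 0) : ∃ y, matAct N y = v := by
  have hinj : ∀ a b : Fin 2 → P, matAct Q a = matAct Q b → a = b := fun a b e => by
    have e' := congrArg (matAct Q⁻¹) e
    rwa [matAct_mul, matAct_mul, nonsing_inv_mul _ hQ, matAct_one, matAct_one] at e'
  obtain ⟨y, hy⟩ := hex (matAct Q v) (by rw [matAct_mul, h, ← matAct_mul, hv, map_zero])
  refine ⟨matAct Q⁻¹ y, hinj _ _ ?_⟩
  rw [matAct_mul, ← h, matAct_mul, mul_assoc, mul_nonsing_inv _ hQ, mul_one, hy]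

/-- Exactness on a framed module gives exactness of the frame representation. -/
theorem exact_frameRep {R G H : Type} [CommRing R] [Group G] [AddCommGroup H]
    [Module R H] {η : R} {τ : G →* Module.End R H} {χ : G →* R} {t : G → R} {c g₀ h₀ : G}
    (hq : OddQuad η τ χ t c) (hu : IsUnit (crossP η t c g₀ h₀))
    (hv : IsUnit (crossM η t c h₀ g₀)) (hH : ∀ r : R, (∀ v : H, r • v = 0) → r = 0)
    (σ : G) (hex : ∀ x, τ σ x - x = 0 → ∃ y, τ σ y - y = x)
    (v : Fin 2 → H) (hv' : matAct (hq.frameRep hu hv hH σ - 1) v = 0) :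
    ∃ y, matAct (hq.frameRep hu hv hH σ - 1) y = v :=
  matAct_exact_of_frame (hq.frameRep hu hv hH σ - 1) (hq.frameEquiv hu hv) (fun x => τ σ x - x)
    (fun x => by
      rw [map_sub, hq.frameEquiv_smul hu hv, OddQuad.frameRep_apply]
      funext i
      fin_cases i <;> simp [sub_smul] <;> abel) hex v hv'

variable {N : ℕ} [NeZero N] {p : ℕ} [hp : Fact p.Prime] (M : TorsionModel N p)
  {S : Finset ℕ} (hNS : ∀ q, q.Prime → q ∣ N → q ∈ (↑S : Set ℕ))
  {k : Type} [Field k] (θ : CuspForm.heckeAlgebra N 2 (↑S : Set ℕ) →+* k)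

/-- The ring acting on coordinates maps to the image of the Hecke algebra. -/
theorem exists_toImage {T H : Type} [CommRing T] [AddCommGroup H] [Finite H] [Nontrivial H]
    (φ : T →+* Module.End ℤ H) {T₀ : Type} [CommRing T₀] [IsLocalRing T₀] {d : ℕ}
    (A₀ : T₀ →+* Matrix (Fin d) (Fin d) ℤ_[p]) (f : (Fin d → ResidueField ℤ_[p]) ≃+ H)
    (hA : ∀ x, ∃ t, ∀ v, f (((A₀ x).map (residue ℤ_[p])).mulVec v) = φ t (f v)) :
    ∃ π : T₀ →+* T ⧸ RingHom.ker φ,
      (∀ x v, RingHom.kerLift φ (π x) (f v) = f (((A₀ x).map (residue ℤ_[p])).mulVec v)) ∧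
      ∃ n, maximalIdeal T₀ ^ n ≤ RingHom.ker π := by
  choose e he using hA
  have key : ∀ a b : T ⧸ RingHom.ker φ,
      (∀ v, RingHom.kerLift φ a (f v) = RingHom.kerLift φ b (f v)) → a = b := fun a b h =>
    RingHom.kerLift_injective φ (LinearMap.ext fun u => by
      obtain ⟨v, rfl⟩ := f.surjective u
      exact h v)
  have hπ : ∀ x v, RingHom.kerLift φ (Ideal.Quotient.mk _ (e x)) (f v) =
      f (((A₀ x).map (residue ℤ_[p])).mulVec v) := fun x v => (he x v).symm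
  let π : T₀ →+* T ⧸ RingHom.ker φ :=
    { toFun := fun x => Ideal.Quotient.mk _ (e x)
      map_one' := key _ _ fun v => by
        rw [hπ, map_one, map_one, Module.End.one_apply,
          Matrix.map_one _ (map_zero _) (map_one _), one_mulVec]
      map_mul' := fun x y => key _ _ fun v => by
        rw [hπ, map_mul (RingHom.kerLift φ), Module.End.mul_apply, hπ, hπ, map_mul,
          Matrix.map_mul, mulVec_mulVec]
      map_zero' := key _ _ fun v => by
        rw [hπ, map_zero, map_zero, LinearMap.zero_apply, Matrix.map_zero _ (map_zero _),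
          zero_mulVec, map_zero]
      map_add' := fun x y => key _ _ fun v => by
        rw [hπ, map_add (RingHom.kerLift φ), LinearMap.add_apply, hπ, hπ, map_add,
          Matrix.map_add _ (map_add _), add_mulVec, map_add] }
  have : Finite (Module.End ℤ H) := Finite.of_injective (fun g => ⇑g) DFunLike.coe_injective
  have : Finite (T ⧸ RingHom.ker φ) := Finite.of_injective _ (RingHom.kerLift_injective φ)
  have : Nontrivial (T ⧸ RingHom.ker φ) := Ideal.Quotient.nontrivial_iff.2 (RingHom.ker_ne_top φ)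
  exact ⟨π, hπ, PatchBase.exists_pow_le_ker π⟩

/-- Traces modulo a kernel are determined by Frobenius elements. -/
theorem trace_eq_of_frobenius {T₀ R : Type} [CommRing T₀] [IsLocalRing T₀] [CommRing R]
    (M₀ : GQ →* Matrix (Fin 2) (Fin 2) T₀)
    (hM₀ : ∀ n, ∃ L : IntermediateField ℚ Qbar, FiniteDimensional ℚ L ∧
      ∀ g : GQ, (∀ x ∈ L, g x = x) → Attach.NearOne (maximalIdeal T₀ ^ n) (M₀ g))
    (π : T₀ →+* R) {n : ℕ} (hn : maximalIdeal T₀ ^ n ≤ RingHom.ker π) (t : GQ → R)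
    (h : ∀ (g : GQ) (L : IntermediateField ℚ Qbar), FiniteDimensional ℚ L →
      ∃ (τ : GQ) (j ℓ : ℕ), (∀ x ∈ L, g x = (τ ^ j) x) ∧ (M₀ τ).det = (ℓ : T₀) ∧
        t g = powTrace (π (trace (M₀ τ))) (ℓ : R) j)
    (g : GQ) : trace (π.mapMatrix (M₀ g)) = t g := by
  obtain ⟨L, hL, hLn⟩ := hM₀ n
  obtain ⟨τ, j, ℓ, hLg, hdet, ht⟩ := h g L hL
  have hu : IsUnit (π.mapMatrix (M₀ τ)).det := by
    rw [← RingHom.map_det π (M₀ τ)]
    exact ((Group.isUnit τ).map (Matrix.detMonoidHom.comp M₀)).map π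
  have hmg : π.mapMatrix (M₀ g) = π.mapMatrix (M₀ τ) ^ j := by
    rw [← map_pow, ← map_pow, ← mul_inv_cancel_left (τ ^ j) g, map_mul, map_mul]
    have h1 : π.mapMatrix (M₀ ((τ ^ j)⁻¹ * g)) = 1 := by
      ext a b
      have h2 := hn (hLn ((τ ^ j)⁻¹ * g) (fun x hx => by
        show (τ ^ j)⁻¹ (g x) = x
        rw [hLg x hx]
        exact (τ ^ j).symm_apply_apply x) a b)
      rw [RingHom.mem_ker, map_sub, sub_eq_zero] at h2
      rw [RingHom.mapMatrix_apply, Matrix.map_apply, h2]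
      by_cases hab : a = b <;> simp [Matrix.one_apply, hab]
    rw [h1, mul_one]
  rw [hmg, trace_pow_eq_powTrace _ hu j, ← RingHom.map_det π (M₀ τ), hdet, map_natCast, ht]
  congr 1
  exact (AddMonoidHom.map_trace π.toAddMonoidHom (M₀ τ)).symm

/-- An invertible Gram determinant of traces stays invertible after a ring map. -/
theorem exists_gram_map {T R G : Type} [CommRing T] [CommRing R] [Group G]
    (M₀ : G →* Matrix (Fin 2) (Fin 2) T) (π : T →+* R)
    (hgram : ∃ g : Fin 4 → G,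
      IsUnit (Matrix.of fun i j => Matrix.trace (M₀ (g i) * M₀ (g j))).det) :
    ∃ g : Fin 4 → G, IsUnit (Matrix.of fun i j => Matrix.trace
      (π.mapMatrix.toMonoidHom.comp M₀ (g i) * π.mapMatrix.toMonoidHom.comp M₀ (g j))).det := by
  obtain ⟨g, hg⟩ := hgram
  refine ⟨g, ?_⟩
  have h1 := hg.map π
  rw [RingHom.map_det] at h1
  refine (congrArg (fun Y => IsUnit (Matrix.det Y)) ?_).mp h1
  ext a b
  exact (AddMonoidHom.map_trace π.toAddMonoidHom _).trans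
    (congrArg Matrix.trace (map_mul π.mapMatrix (M₀ (g a)) (M₀ (g b))))

/-- Exact monodromy passes to a lift with the same Frobenius traces. -/
theorem matAct_exact_of_traces {T₀ R P : Type} [CommRing T₀] [IsLocalRing T₀] [CommRing R]
    [IsLocalRing R] [AddCommGroup P] [Module R P] (M₀ : GQ →* Matrix (Fin 2) (Fin 2) T₀)
    (hM₀ : ∀ n, ∃ L : IntermediateField ℚ Qbar, FiniteDimensional ℚ L ∧
      ∀ g : GQ, (∀ x ∈ L, g x = x) → Attach.NearOne (maximalIdeal T₀ ^ n) (M₀ g))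
    (hgram : ∃ g : Fin 4 → GQ,
      IsUnit (Matrix.of fun i j => Matrix.trace (M₀ (g i) * M₀ (g j))).det)
    (π : T₀ →+* R) {n : ℕ} (hn : maximalIdeal T₀ ^ n ≤ RingHom.ker π)
    (m₁ : GQ →* Matrix (Fin 2) (Fin 2) R)
    (htr : ∀ (g : GQ) (L : IntermediateField ℚ Qbar), FiniteDimensional ℚ L →
      ∃ (τ : GQ) (j ℓ : ℕ), (∀ x ∈ L, g x = (τ ^ j) x) ∧ (M₀ τ).det = (ℓ : T₀) ∧
        trace (m₁ g) = powTrace (π (trace (M₀ τ))) (ℓ : R) j)
    (σ : GQ) (hex : ∀ v : Fin 2 → P, matAct (m₁ σ - 1) v = 0 → ∃ y, matAct (m₁ σ - 1) y = v)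
    (v : Fin 2 → P) (hv : matAct ((M₀ σ - 1).map π) v = 0) :
    ∃ y, matAct ((M₀ σ - 1).map π) y = v := by
  obtain ⟨g, hg⟩ := exists_gram_map M₀ π hgram
  let m : GQ →* Matrix (Fin 2) (Fin 2) R := π.mapMatrix.toMonoidHom.comp M₀
  obtain ⟨Q, hQ, hconj⟩ := Gal.exists_conj_matrix m m₁ g hg
    (trace_eq_of_frobenius M₀ hM₀ π hn (fun g => trace (m₁ g)) htr)
  have hm : (M₀ σ - 1).map π = m σ - 1 :=
    (map_sub π.mapMatrix (M₀ σ) 1).trans (congrArg _ (map_one π.mapMatrix))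
  rw [hm] at hv ⊢
  exact matAct_exact_of_conj hQ (by rw [sub_mul, mul_sub, one_mul, mul_one, hconj]) hex v hv

/-- Exactness over a quotient ring gives exactness of the residual block. -/
theorem resBlock_exact_of_map {𝒪 T₀ R H : Type} [CommRing 𝒪] [IsDomain 𝒪]
    [IsDiscreteValuationRing 𝒪] [CommRing T₀] [CommRing R] [AddCommGroup H]
    [Module R H] {d : ℕ} (A₀ : T₀ →+* Matrix (Fin d) (Fin d) 𝒪)
    (f : (Fin d → ResidueField 𝒪) ≃+ H) (π : T₀ →+* R)
    (hπ : ∀ x v, π x • f v = f (((A₀ x).map (residue 𝒪)).mulVec v))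
    (N₀ : Matrix (Fin 2) (Fin 2) T₀) (N' : Matrix (Fin 2) (Fin 2) R) (hN : N₀.map π = N')
    (hex : ∀ v : Fin 2 → H, matAct N' v = 0 → ∃ y, matAct N' y = v)
    (w : Fin 2 × Fin d → ResidueField 𝒪) (hw : resBlock A₀ N₀ w = 0) :
    ∃ y, resBlock A₀ N₀ y = w := by
  subst hN
  let : Module T₀ H := Module.compHom H π
  have hmap : ∀ v : Fin 2 → H, matAct N₀ v = matAct (N₀.map π) v := fun _ => rfl
  exact resBlock_exact A₀ f (fun x v => (hπ x v).symm) N₀
    (fun v hv => (hex v (by rw [← hmap, hv])).imp fun y hy => (hmap y).trans hy) w hw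

/-- A representation over the image of the Hecke algebra with the Frobenius traces and exact
monodromy. -/
theorem exists_frame [Finite k] [CharP k p] (hp2 : p ≠ 2) (hG : TorsionGalois N p) (hpS : p ∈ S)
    {V : Type} [AddCommGroup V] [Module k V] (hV : Module.finrank k V = 2)
    (ρ : GQ →* Module.End k V)
    (hfin : ∃ L : IntermediateField ℚ Qbar, FiniteDimensional ℚ L ∧
      ∀ g : GQ, (∀ x ∈ L, g x = x) → ρ g = 1)
    (hirr : ∀ W : Submodule k V, (∀ g, ∀ x ∈ W, ρ g x ∈ W) → W = ⊥ ∨ W = ⊤)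
    (hfrob : ∀ (ℓ : ℕ) (hℓ : ℓ.Prime) (hℓN : ¬ ℓ ∣ N) (hℓS : ℓ ∉ (↑S : Set ℕ)),
      ∀ A : ValuationSubring Qbar, A.LiesOverPrime ℓ → ∀ g : GQ, A.IsFrobeniusAt g ℓ →
        LinearMap.trace k V (ρ g) = θ (CuspForm.heckeAlgebra.T hℓ hℓN hℓS) ∧
          LinearMap.det (ρ g) = (ℓ : k))
    {r : ℕ} (hr : 2 ≤ r) {φ σ : GQ} (hcyc : ∀ n, cyc p n φ = (r : ZMod (p ^ n)))
    (I : MonodromyExact.ToricInputs M hNS θ r φ σ) [Nontrivial (eigenPart M hNS θ 1)] :
    letI := imageModule (eigenHecke M hNS θ 1)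
    ∃ m : GQ →* Matrix (Fin 2) (Fin 2)
        (CuspForm.heckeAlgebra N 2 (↑S : Set ℕ) ⧸ RingHom.ker (eigenHecke M hNS θ 1)),
      (∀ v : Fin 2 → eigenPart M hNS θ 1, matAct (m σ - 1) v = 0 →
        ∃ y, matAct (m σ - 1) y = v) ∧
      ∀ (g : GQ) (L : IntermediateField ℚ Qbar), FiniteDimensional ℚ L →
        ∃ (ℓ : ℕ) (hℓ : ℓ.Prime) (hℓN : ¬ ℓ ∣ N) (hℓS : ℓ ∉ (↑S : Set ℕ))
          (B : ValuationSubring Qbar) (τ : GQ) (j : ℕ),
          B.LiesOverPrime ℓ ∧ B.IsFrobeniusAt τ ℓ ∧ (∀ x ∈ L, g x = (τ ^ j) x) ∧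
            Matrix.trace (m g) =
              powTrace (Ideal.Quotient.mk _ (CuspForm.heckeAlgebra.T hℓ hℓN hℓS)) (ℓ : _) j := by
  classical
  have hnil := eigenHecke_nilpotent M hNS θ 1
  have : NeZero (p ^ 1) := ⟨pow_ne_zero _ hp.out.ne_zero⟩
  let := imageModule (eigenHecke M hNS θ 1)
  obtain ⟨η, hcomm, χ, t, g₀, h₀, hq, hu, hv, hχ, -, -⟩ :=
    exists_jacobianFrame M hNS θ hp2 hG hpS 1 le_rfl hV ρ hfin hirr hfrob
  have : IsLocalRing (CuspForm.heckeAlgebra N 2 (↑S : Set ℕ) ⧸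
      RingHom.ker (eigenHecke M hNS θ 1)) := isLocalRing_image (eigenHecke M hNS θ 1) θ hnil
  have hH := image_faithful (eigenHecke M hNS θ 1)
  have eqR : ∀ a b : (CuspForm.heckeAlgebra N 2 (↑S : Set ℕ) ⧸ RingHom.ker (eigenHecke M hNS θ 1)),
      (∀ v : eigenPart M hNS θ 1, a • v = b • v) → a = b := fun a b h =>
    sub_eq_zero.mp (hH _ fun v => by rw [sub_smul, h v, sub_self])
  refine ⟨hq.frameRep hu hv hH, ?_, fun g L hL => ?_⟩
  · refine exact_frameRep hq hu hv hH σ fun x hx => ?_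
    rw [tauImage_apply] at hx
    have hfix : σ • coordPt M 1 x = coordPt M 1 x := by
      rw [smul_coordPt, ← coe_eigenGal M hNS θ hG, sub_eq_zero.mp hx]
    obtain ⟨_, ⟨u, hu', rfl⟩, hu''⟩ := MonodromyExact.exists_preimage_monodromy M hNS θ hp2 hG hpS
      hV ρ hfin
        hirr hfrob hr hcyc I (y := coordPt M 1 x) ⟨x, x.2, rfl⟩ hfix
    refine ⟨⟨u, hu'⟩, ?_⟩
    rw [tauImage_apply]
    refine Subtype.ext (coordPt_injective M 1 ?_)
    rw [AddSubgroupClass.coe_sub, map_sub, coe_eigenGal, ← smul_coordPt]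
    exact hu''
  obtain ⟨ℓ, hℓ, hℓN, hℓS, B, τ, j, hB, hτ, hLg, -, hrep⟩ :=
    M.exists_trace_element hG hpS hNS 1 g L
  refine ⟨ℓ, hℓ, hℓN, hℓS, B, τ, j, hB, hτ, hLg, ?_⟩
  rw [OddQuad.frameRep_apply, frameMatrix_trace η t _ hq.two,
    ← map_natCast (Ideal.Quotient.mk (RingHom.ker (eigenHecke M hNS θ 1))) ℓ, ← map_powTrace]
  refine eqR _ _ fun u => Eq.trans ?_ (image_smul (eigenHecke M hNS θ 1) _ u).symm
  refine (LinearMap.congr_fun (hq.quad g) u).symm.trans ?_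
  rw [LinearMap.add_apply, LinearMap.smul_apply, hχ, Nat.cast_smul_eq_nsmul]
  refine Subtype.ext ?_
  rw [tauImage_apply, tauImage_apply, coe_eigenHecke, Submodule.coe_add,
    Submodule.coe_smul_of_tower, coe_eigenGal, coe_eigenGal]
  show (M.rep 1 g).mulVec _ + _ • (M.rep 1 g⁻¹).mulVec _ = (M.matS hNS 1 _).mulVec _
  rw [← hrep, Matrix.add_mulVec, Matrix.smul_mulVec, ← Nat.cast_smul_eq_nsmul (ZMod (p ^ 1)),
    ZMod.natCast_zmod_val]

/-- **Exactness of the monodromy block at the minimal level.** -/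
theorem resBlock_exact_mono [Finite k] [CharP k p] (hp2 : p ≠ 2) (hG : TorsionGalois N p)
    (hpS : p ∈ S) {V : Type} [AddCommGroup V] [Module k V] (hV : Module.finrank k V = 2)
    (ρ : GQ →* Module.End k V)
    (hfin : ∃ L : IntermediateField ℚ Qbar, FiniteDimensional ℚ L ∧
      ∀ g : GQ, (∀ x ∈ L, g x = x) → ρ g = 1)
    (hirr : ∀ W : Submodule k V, (∀ g, ∀ x ∈ W, ρ g x ∈ W) → W = ⊥ ∨ W = ⊤)
    (hfrob : ∀ (ℓ : ℕ) (hℓ : ℓ.Prime) (hℓN : ¬ ℓ ∣ N) (hℓS : ℓ ∉ (↑S : Set ℕ)),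
      ∀ A : ValuationSubring Qbar, A.LiesOverPrime ℓ → ∀ g : GQ, A.IsFrobeniusAt g ℓ →
        LinearMap.trace k V (ρ g) = θ (CuspForm.heckeAlgebra.T hℓ hℓN hℓS) ∧
          LinearMap.det (ρ g) = (ℓ : k))
    {r : ℕ} (hr : 2 ≤ r) {φ σ : GQ} (hcyc : ∀ n, cyc p n φ = (r : ZMod (p ^ n)))
    (I : MonodromyExact.ToricInputs M hNS θ r φ σ)
    {T₀ : Type} [CommRing T₀] [IsLocalRing T₀] {d : ℕ}
    (A₀ : T₀ →+* Matrix (Fin d) (Fin d) ℤ_[p])
    (f : (Fin d → ResidueField ℤ_[p]) ≃+ eigenPart M hNS θ 1)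
    (hA : ∀ x, ∃ t, ∀ v, f (((A₀ x).map (residue ℤ_[p])).mulVec v) = eigenHecke M hNS θ 1 t (f v))
    (M₀ : GQ →* Matrix (Fin 2) (Fin 2) T₀)
    (hM₀ : ∀ n, ∃ L : IntermediateField ℚ Qbar, FiniteDimensional ℚ L ∧
      ∀ g : GQ, (∀ x ∈ L, g x = x) → Attach.NearOne (maximalIdeal T₀ ^ n) (M₀ g))
    (hgram : ∃ g : Fin 4 → GQ,
      IsUnit (Matrix.of fun i j => Matrix.trace (M₀ (g i) * M₀ (g j))).det)
    (hfrob₀ : ∀ (ℓ : ℕ) (hℓ : ℓ.Prime) (hℓN : ¬ ℓ ∣ N) (hℓS : ℓ ∉ (↑S : Set ℕ)),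
      ∀ A : ValuationSubring Qbar, A.LiesOverPrime ℓ → ∀ g : GQ, A.IsFrobeniusAt g ℓ →
        (∀ v, f (((A₀ (trace (M₀ g))).map (residue ℤ_[p])).mulVec v) =
          eigenHecke M hNS θ 1 (CuspForm.heckeAlgebra.T hℓ hℓN hℓS) (f v)) ∧
        (M₀ g).det = (ℓ : T₀))
    (w : Fin 2 × Fin d → ResidueField ℤ_[p]) (hw : resBlock A₀ (M₀ σ - 1) w = 0) :
    ∃ y, resBlock A₀ (M₀ σ - 1) y = w := by
  classical
  rcases subsingleton_or_nontrivial (eigenPart M hNS θ 1) with hs | hnt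
  · have hs' : Subsingleton (Fin d → ResidueField ℤ_[p]) := f.injective.subsingleton
    refine ⟨w, funext fun q => ?_⟩
    obtain ⟨a, x⟩ := q
    exact congrFun
      (Subsingleton.elim (fun x => resBlock A₀ (M₀ σ - 1) w (a, x)) fun x => w (a, x)) x
  let := imageModule (eigenHecke M hNS θ 1)
  have : IsLocalRing (CuspForm.heckeAlgebra N 2 (↑S : Set ℕ) ⧸
      RingHom.ker (eigenHecke M hNS θ 1)) :=
    isLocalRing_image (eigenHecke M hNS θ 1) θ (eigenHecke_nilpotent M hNS θ 1)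
  obtain ⟨m₁, hex₁, htr₁⟩ := exists_frame M hNS θ hp2 hG hpS hV ρ hfin hirr hfrob hr hcyc I
  -- the map to the image
  obtain ⟨π, hπ', n, hn⟩ := exists_toImage (eigenHecke M hNS θ 1) A₀ f hA
  have hπ : ∀ (x : T₀) v, π x • f v = f (((A₀ x).map (residue ℤ_[p])).mulVec v) := hπ'
  -- the traces agree
  refine resBlock_exact_of_map A₀ f π hπ (M₀ σ - 1) _ rfl
    (matAct_exact_of_traces M₀ hM₀ hgram π hn m₁ (fun g L hL => ?_) σ hex₁) w hw
  obtain ⟨ℓ, hℓ, hℓN, hℓS, B, τ, j, hB, hτ, hLg, ht⟩ := htr₁ g L hL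
  obtain ⟨hT, hdet⟩ := hfrob₀ ℓ hℓ hℓN hℓS B hB τ hτ
  refine ⟨τ, j, ℓ, hLg, hdet, ht.trans (congrArg (powTrace · _ j) (sub_eq_zero.mp ?_))⟩
  refine image_faithful (eigenHecke M hNS θ 1) _ fun u => ?_
  obtain ⟨v, rfl⟩ := f.surjective u
  rw [sub_smul, hπ, hT, image_smul, sub_self]

end Fermat.Agent.LevelLowering.Scalar
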