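import Mathlib.LinearAlgebra.FreeModule.PID
import Fermat.Agent.LevelLowering.Scalar.Coordinates
import Fermat.Agent.LevelLowering.Scalar.Mono
import Fermat.Agent.LevelLowering.Scalar.Traces

/-!
# The minimal level in coordinates, and exactness there

The part of the lattice at the residual system has a basis, and exactness of the monodromy on the
`θ`-part of the torsion gives exactness in these coordinates (`resBlock_exact_levelM`).
-/

noncomputable section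

namespace Fermat.Agent.LevelLowering.Scalar

open Module Attach CongruenceSubgroup IsLocalRing Matrix Fermat.Agent.Grp Fermat.Agent.Ihara
open scoped MatrixGroups IsMulCommutative

local notation "Qbar" => AlgebraicClosure ℚ
local notation "GQ" => (AlgebraicClosure ℚ ≃ₐ[ℚ] AlgebraicClosure ℚ)

section Basis

variable (O : Type) [CommRing O] [IsDomain O] [IsPrincipalIdealRing O] [IsLocalRing O]
  [IsNoetherianRing O] [IsAdicComplete (maximalIdeal O) O] (N : ℕ) [NeZero N]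
  (𝓟 : Set Nat.Primes) (a : Nat.Primes → ResidueField O)

/-- The part cut out by the idempotent has a finite basis. -/
theorem exists_idem_basis : ∃ (d : ℕ) (v : Fin d → clH O N),
    (∀ i, (baseIdem O N 𝓟 a).1 (v i) = v i) ∧
    ∀ x, (baseIdem O N 𝓟 a).1 x = x → ∃! b : Fin d → O, ∑ i, b i • v i = x := by
  obtain ⟨h3, h4⟩ := free_clHoms (K := Gamma0 N) (neg_one_mem_Gamma0 N) O
  set e := (baseIdem O N 𝓟 a).1
  have hee : ∀ x, e (e x) = e x := fun x =>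
    LinearMap.congr_fun (congrArg Subtype.val (isIdemAt_baseIdem O N 𝓟 a).idem) x
  obtain ⟨d, bd⟩ :=
    Submodule.basisOfPid (Module.Free.chooseBasis O (clH O N)) (LinearMap.range e)
  refine ⟨d, fun i => (bd i : clH O N), fun i => ?_, fun x hx => ?_⟩
  · obtain ⟨y, hy⟩ := (bd i).2
    show e (bd i : clH O N) = (bd i : clH O N)
    rw [← hy, hee]
  · let x' : LinearMap.range e := ⟨x, x, hx⟩
    refine ⟨fun i => bd.repr x' i, ?_, fun b hb => ?_⟩
    · refine Eq.trans ?_ (congrArg Subtype.val (bd.sum_repr x'))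
      rw [Submodule.coe_sum]
      rfl
    · have hb' : ∑ i, b i • bd i = x' := Subtype.ext (by simpa using hb)
      funext i
      rw [← hb', bd.repr_sum_self]

end Basis

variable {N : ℕ} [NeZero N] {p : ℕ} [hp : Fact p.Prime] {S : Finset ℕ}
  (hNS : ∀ q, q.Prime → q ∣ N → q ∈ (↑S : Set ℕ))
  {k : Type} [Field k] [CharP k p] (θ : CuspForm.heckeAlgebra N 2 (↑S : Set ℕ) →+* k)
  (av : Nat.Primes → ResidueField ℤ_[p])

/-- The primes of the algebra at level `N`. -/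
def goodPrimes (S : Finset ℕ) : Set Nat.Primes := {ℓ | (ℓ : ℕ) ∉ S}

/-- Compatibility of the residual system with `θ`. -/
def SysMatch : Prop :=
  ∀ (ℓ : Nat.Primes) (hℓN : ¬ (ℓ : ℕ) ∣ N) (hℓS : (ℓ : ℕ) ∉ (↑S : Set ℕ)),
    resVal (k := k) (liftSys ℤ_[p] av ℓ) = θ (CuspForm.heckeAlgebra.T ℓ.2 hℓN hℓS)

/-- Reduction from `ℤ_p` to `ZMod (p ^ 1)` through the residue field. -/
theorem exists_resHom : ∃ r : ResidueField ℤ_[p] ≃+* ZMod (p ^ 1),
    ∀ c, r (residue ℤ_[p] c) = PadicInt.toZModPow 1 c := by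
  have : Fact (1 < p ^ 1) := ⟨by simpa using hp.out.one_lt⟩
  let r₀ : ResidueField ℤ_[p] →+* ZMod (p ^ 1) :=
    Ideal.Quotient.lift (maximalIdeal ℤ_[p]) (PadicInt.toZModPow 1) fun c hc => by
      have h : c ∈ RingHom.ker (PadicInt.toZModPow (p := p) 1) := by
        rwa [PadicInt.ker_toZModPow, pow_one, ← PadicInt.maximalIdeal_eq_span_p]
      exact h
  have hr : ∀ c, r₀ (residue ℤ_[p] c) = PadicInt.toZModPow 1 c := fun c => rfl
  refine ⟨RingEquiv.ofBijective r₀ ⟨r₀.injective, fun z => ?_⟩, hr⟩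
  obtain ⟨c, hc⟩ := ZMod.ringHom_surjective (PadicInt.toZModPow (p := p) 1) z
  exact ⟨residue ℤ_[p] c, hc⟩

variable {θ av} in
/-- The idempotent part is nonzero when the `θ`-part is. -/
theorem pos_of_nontrivial (hav : SysMatch θ av) {d : ℕ} (v : Fin d → clH ℤ_[p] N)
    (hfix : ∀ i, (baseIdem ℤ_[p] N (goodPrimes S) av).1 (v i) = v i)
    (hbasis : ∀ x, (baseIdem ℤ_[p] N (goodPrimes S) av).1 x = x →
      ∃! b : Fin d → ℤ_[p], ∑ i, b i • v i = x)
    (hnt : Nontrivial (eigenPart (tModel N p) hNS θ 1)) : 0 < d := by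
  obtain ⟨χ, hsurj, hker, hsmul, hT⟩ := exists_clReduction N p hNS
  obtain ⟨F, -⟩ := exists_residual_coords hNS θ χ (goodPrimes S) av (fun _ => Iff.rfl) hsmul hker
    hsurj hT hav v hfix hbasis
  by_contra hd
  have : IsEmpty (Fin d) := by
    rw [Nat.eq_zero_of_not_pos hd]; infer_instance
  obtain ⟨x, hx⟩ := exists_ne (0 : eigenPart (tModel N p) hNS θ 1)
  exact hx (F.symm.injective (Subsingleton.elim _ _))

variable {θ av} in
/-- **Exactness at the minimal level in coordinates.** -/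
theorem resBlock_exact_levelM [Finite k] (hp2 : p ≠ 2) (hG : TorsionGalois N p) (hpS : p ∈ S)
    (hav : SysMatch θ av) {d : ℕ} (v : Fin d → clH ℤ_[p] N)
    (hfix : ∀ i, (baseIdem ℤ_[p] N (goodPrimes S) av).1 (v i) = v i)
    (hbasis : ∀ x, (baseIdem ℤ_[p] N (goodPrimes S) av).1 x = x →
      ∃! b : Fin d → ℤ_[p], ∑ i, b i • v i = x)
    {V : Type} [AddCommGroup V] [Module k V] (hV : Module.finrank k V = 2)
    (ρ : GQ →* Module.End k V)
    (hfin : ∃ L : IntermediateField ℚ Qbar, FiniteDimensional ℚ L ∧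
      ∀ g : GQ, (∀ x ∈ L, g x = x) → ρ g = 1)
    (hirr : ∀ W : Submodule k V, (∀ g, ∀ x ∈ W, ρ g x ∈ W) → W = ⊥ ∨ W = ⊤)
    (hfrob : ∀ (ℓ : ℕ) (hℓ : ℓ.Prime) (hℓN : ¬ ℓ ∣ N) (hℓS : ℓ ∉ (↑S : Set ℕ)),
      ∀ A : ValuationSubring Qbar, A.LiesOverPrime ℓ → ∀ g : GQ, A.IsFrobeniusAt g ℓ →
        LinearMap.trace k V (ρ g) = θ (CuspForm.heckeAlgebra.T hℓ hℓN hℓS) ∧
          LinearMap.det (ρ g) = (ℓ : k))
    {r : ℕ} (hr : 2 ≤ r) {φ σ : GQ} (hcyc : ∀ n, cyc p n φ = (r : ZMod (p ^ n)))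
    (I : MonodromyExact.ToricInputs (tModel N p) hNS θ r φ σ)
    (Tm : ℕ → Matrix (Fin d) (Fin d) ℤ_[p])
    (hTm : ∀ (ℓ : goodPrimes S) j,
      baseGen ℤ_[p] N (goodPrimes S) ℓ (v j) = ∑ i, Tm (ℓ.1 : ℕ) i j • v i)
    {T₀ : Type} [CommRing T₀] [IsLocalRing T₀] [Algebra ℤ_[p] T₀]
    (A₀ : T₀ →ₐ[ℤ_[p]] Matrix (Fin d) (Fin d) ℤ_[p])
    (M₀ : GQ →* Matrix (Fin 2) (Fin 2) T₀) (hM₀ : AdicCont M₀)
    (hgen : ∀ x, A₀ x ∈ Algebra.adjoin ℤ_[p] (Tm '' {ℓ | ℓ.Prime ∧ ℓ ∉ S}))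
    (hgram : ∃ g : Fin 4 → GQ,
      IsUnit (Matrix.of fun i j => Matrix.trace (M₀ (g i) * M₀ (g j))).det)
    (hfrob₀ : ∀ ℓ : ℕ, ℓ.Prime → ℓ ∉ S → ∀ A : ValuationSubring Qbar, A.LiesOverPrime ℓ →
      ∀ g : GQ, A.IsFrobeniusAt g ℓ → A₀ (M₀ g).trace = Tm ℓ ∧ (M₀ g).det = (ℓ : T₀))
    (w : Fin 2 × Fin d → ResidueField ℤ_[p])
    (hw : resBlock (A₀ : T₀ →+* Matrix (Fin d) (Fin d) ℤ_[p]) (M₀ σ - 1) w = 0) :
    ∃ y, resBlock (A₀ : T₀ →+* Matrix (Fin d) (Fin d) ℤ_[p]) (M₀ σ - 1) y = w := by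
  classical
  obtain ⟨χ, hsurj, hker, hsmul, hT⟩ := exists_clReduction N p hNS
  obtain ⟨F, hF⟩ := exists_residual_coords hNS θ χ (goodPrimes S) av (fun _ => Iff.rfl) hsmul hker
    hsurj hT hav v hfix hbasis
  obtain ⟨r', hr'⟩ := exists_resHom (p := p)
  let f : (Fin d → ResidueField ℤ_[p]) ≃+ eigenPart (tModel N p) hNS θ 1 :=
    (AddEquiv.piCongrRight fun _ => r'.toAddEquiv).trans F
  -- a matrix related to a Hecke element acts through it
  have hact : ∀ (a : Module.End ℤ_[p] (clH ℤ_[p] N)) (t : HeckeS N S), Related hNS χ a t →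
      ∀ A : Matrix (Fin d) (Fin d) ℤ_[p], (∀ j, a (v j) = ∑ i, A i j • v i) →
        ∀ u, f ((A.map (residue ℤ_[p])).mulVec u) = eigenHecke (tModel N p) hNS θ 1 t (f u) := by
    intro a t hat A hA u
    refine Subtype.ext ?_
    rw [coe_eigenHecke]
    refine Eq.trans ?_ (hF a t hat A hA fun i => r' (u i))
    show Subtype.val (F fun i => r' ((A.map (residue ℤ_[p])).mulVec u i)) = _
    congr 2
    funext i
    refine (RingHom.map_mulVec r'.toRingHom _ u i).trans (congrArg (fun X : Matrix (Fin d) (Fin d)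
      (ZMod (p ^ 1)) => X.mulVec (fun i => r' (u i)) i) ?_)
    rw [Matrix.map_map]
    exact Matrix.ext fun a b => hr' _
  let good : Subalgebra ℤ_[p] (Matrix (Fin d) (Fin d) ℤ_[p]) :=
    { carrier := {A | ∃ (a : Module.End ℤ_[p] (clH ℤ_[p] N)) (t : HeckeS N S),
        Related hNS χ a t ∧ ∀ j, a (v j) = ∑ i, A i j • v i}
      mul_mem' := by
        rintro A B ⟨a, s, h1, h2⟩ ⟨b, t, h3, h4⟩
        refine ⟨a * b, s * t, h1.mul h3, fun j => ?_⟩
        rw [Module.End.mul_apply, h4, map_sum]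
        simp only [map_smul, h2, Finset.smul_sum, smul_smul]
        rw [Finset.sum_comm]
        refine Finset.sum_congr rfl fun i _ => ?_
        rw [← Finset.sum_smul, Matrix.mul_apply]
        exact congrArg (· • v i) (Finset.sum_congr rfl fun l _ => mul_comm _ _)
      add_mem' := by
        rintro A B ⟨a, s, h1, h2⟩ ⟨b, t, h3, h4⟩
        refine ⟨a + b, s + t, h1.add h3, fun j => ?_⟩
        simp [h2, h4, add_smul, Finset.sum_add_distrib]
      algebraMap_mem' := fun c => ⟨_, _, related_algebraMap hNS χ hsmul c, fun j => by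
        rw [Module.algebraMap_end_apply]
        simp [Matrix.algebraMap_matrix_apply, ite_smul]⟩ }
  have hTmem : ∀ ℓ : ℕ, ℓ.Prime → ℓ ∉ S → Tm ℓ ∈ good := by
    intro ℓ hℓ hℓS
    have : NeZero ℓ := ⟨hℓ.ne_zero⟩
    exact ⟨_, _, hT ℓ hℓ (fun h => hℓS (Finset.mem_coe.1 (hNS ℓ hℓ h))) (fun h => hℓS h),
      hTm ⟨⟨ℓ, hℓ⟩, hℓS⟩⟩
  refine resBlock_exact_mono (tModel N p) hNS θ hp2 hG hpS hV ρ hfin hirr hfrob hr hcyc I _ f
    (fun x => ?_) M₀ hM₀ hgram (fun ℓ hℓ hℓN hℓS A hA g hg => ?_) w hw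
  · obtain ⟨a, t, hat, hA⟩ : A₀ x ∈ good :=
      Algebra.adjoin_le (by rintro _ ⟨ℓ, hℓ, rfl⟩; exact hTmem ℓ hℓ.1 hℓ.2) (hgen x)
    exact ⟨t, hact a t hat _ hA⟩
  · obtain ⟨h1, h2⟩ := hfrob₀ ℓ hℓ (fun h => hℓS h) A hA g hg
    have : NeZero ℓ := ⟨hℓ.ne_zero⟩
    refine ⟨fun u => ?_, h2⟩
    rw [show (A₀ : T₀ →+* Matrix (Fin d) (Fin d) ℤ_[p]) (M₀ g).trace = Tm ℓ from h1]
    exact hact _ _ (hT ℓ hℓ hℓN hℓS) _ (hTm ⟨⟨ℓ, hℓ⟩, fun h => hℓS h⟩) u

end Fermat.Agent.LevelLowering.Scalar
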