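import Fermat.Agent.Attach.Inputs
import Fermat.Agent.LevelLowering.MazurPrinciple.Minimal
import Fermat.Agent.LevelLowering.MazurPrinciple.Primes
import Fermat.Agent.LevelLowering.MonodromyExact.Inputs
import Fermat.Agent.LevelLowering.Scalar.Assembly
import Fermat.Agent.LevelLowering.Scalar.LevelM
import Fermat.Agent.LoweringAtP.HeckeCompat.Modular

/-!
# The minimal level of a Frey representation

At a minimal level prime to `p` every odd prime is a scalar prime, and the monodromy there is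
exact on the Hecke module of that level.
-/

noncomputable section

namespace Fermat.Agent.LevelLowering.Scalar

open Module Attach IsLocalRing Matrix WeierstrassCurve WeierstrassCurve.Affine.Point
open ModularCurve Fermat.Agent.Ihara Fermat.Agent.LoweringAtP.HeckeCompat
open scoped WeierstrassCurve.Affine IsMulCommutative

local notation "Qbar" => AlgebraicClosure ℚ
local notation "GQ" => (AlgebraicClosure ℚ ≃ₐ[ℚ] AlgebraicClosure ℚ)

/-- Frobenius on the torsion of the Frey curve through an integral model. -/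
theorem frey_trace_det_frobenius (P : FreyPackage) [Fact P.p.Prime] {W : WeierstrassCurve ℤ}
    (hW : W.IsIntegralModelOf P.freyCurve) {ℓ : ℕ} (hℓ : ℓ.Prime) (hℓp : ℓ ≠ P.p)
    (hgood : W.IsGoodPrimeFor ℓ) {A : ValuationSubring Qbar} (hA : A.LiesOverPrime ℓ) {σ : GQ}
    (hσ : A.IsFrobeniusAt σ ℓ) :
    LinearMap.trace (ZMod P.p) _ (galoisRepModuleEnd (K := Qbar) ℚ P.freyCurve P.p σ) =
        (W.apOfModel ℓ : ZMod P.p) ∧
      LinearMap.det (galoisRepModuleEnd (K := Qbar) ℚ P.freyCurve P.p σ) = (ℓ : ZMod P.p) := by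
  have := Frey.isElliptic_freyCurve P
  refine ⟨?_, EC.det_frobenius P.p ℓ P.freyCurve hℓ hℓp hA hσ⟩
  have h := EC.galoisTrace_frobenius W P.p ℓ hℓ hℓp hgood hA hσ
  rw [galoisTrace_def] at h
  obtain ⟨C, hC⟩ := hW
  rw [← h, ← hC]
  let e : Submodule.torsionBy ℤ (P.freyCurve⁄Qbar).Point (P.p : ℤ) ≃ₗ[ZMod P.p]
      Submodule.torsionBy ℤ ((C • P.freyCurve)⁄Qbar).Point (P.p : ℤ) :=
    LinearEquiv.symm (EC.torsionEquiv (K := Qbar) C P.freyCurve P.p)
  rw [← LinearMap.trace_conj' _ e]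
  congr 1
  refine LinearMap.ext fun x => ?_
  rw [LinearEquiv.conj_apply, LinearMap.comp_apply, LinearMap.comp_apply]
  apply e.symm.injective
  show e.symm (e (galoisRepModuleEnd (K := Qbar) ℚ P.freyCurve P.p σ (e.symm x))) =
    e.symm (galoisRepModuleEnd (K := Qbar) ℚ (C • P.freyCurve) P.p σ x)
  rw [LinearEquiv.symm_apply_apply, galoisRepModuleEnd_apply, galoisRepModuleEnd_apply]
  exact (EC.torsionEquiv_smul C P.freyCurve P.p σ x).symm

section System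

variable {p : ℕ} [Fact p.Prime]

/-- The residual system of an integral sequence. -/
def intSys (a : ℕ → ℤ) (ℓ : Nat.Primes) : ResidueField ℤ_[p] :=
  MazurPrinciple.toPadicRes p (a ℓ : ZMod p)

theorem resVal_liftSys_intSys (a : ℕ → ℤ) (ℓ : Nat.Primes) :
    resVal (k := ZMod p) (liftSys ℤ_[p] (intSys a) ℓ) = (a ℓ : ZMod p) := by
  have h := residue_liftSys ℤ_[p] (intSys (p := p) a) ℓ
  rw [resVal, RingHom.comp_apply, PadicInt.toZMod_eq_residueField_comp_residue,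
    RingHom.comp_apply, h]
  show ZMod.castHom (dvd_refl p) (ZMod p)
    (PadicInt.residueField ((PadicInt.residueField (p := p)).symm (a ℓ : ZMod p))) = _
  rw [RingEquiv.apply_symm_apply, map_intCast]

end System

/-- The part cut out by the idempotent is stable under the operators. -/
theorem baseIdem_baseGen (O : Type) [CommRing O] [IsLocalRing O] [IsNoetherianRing O]
    [IsAdicComplete (maximalIdeal O) O] (N : ℕ) [NeZero N] (𝓟 : Set Nat.Primes)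
    (a : Nat.Primes → ResidueField O) (ℓ : 𝓟) {x : clH O N}
    (hx : (baseIdem O N 𝓟 a).1 x = x) :
    (baseIdem O N 𝓟 a).1 (baseGen O N 𝓟 ℓ x) = baseGen O N 𝓟 ℓ x := by
  have h : (baseIdem O N 𝓟 a).1 * baseGen O N 𝓟 ℓ = baseGen O N 𝓟 ℓ * (baseIdem O N 𝓟 a).1 :=
    congrArg Subtype.val (mul_comm (baseIdem O N 𝓟 a) (baseElt O N 𝓟 ℓ))
  have h1 := LinearMap.congr_fun h x
  rw [Module.End.mul_apply, Module.End.mul_apply, hx] at h1
  exact h1

/-- What the minimal level provides. -/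
structure FreyLevel (P : FreyPackage) [Fact P.p.Prime] [P.freyCurve.IsElliptic] (M : ℕ)
    [NeZero M] where
  /-- An integral model of the Frey curve. -/
  W : WeierstrassCurve ℤ
  model : W.IsIntegralModelOf P.freyCurve
  /-- The number of odd primes of the level. -/
  m : ℕ
  /-- These primes as scalar primes. -/
  SP : ScalarPrimes P.p (MazurPrinciple.curveRes P.p P.freyCurve)
    (MazurPrinciple.curveBasis P.p P.freyCurve) m
  r_inj : Function.Injective SP.r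
  r_mem : ∀ r : ℕ, (∃ i, SP.r i = r) ↔ r.Prime ∧ r ≠ 2 ∧ r ∣ M
  /-- The eigensystem of the curve modulo `p` on the Hecke algebra of level `M`. -/
  θ : CuspForm.heckeAlgebra M 2 (↑(badSet M P.p W) : Set ℕ) →+* ZMod P.p
  θ_T : ∀ (ℓ : ℕ) (hℓ : ℓ.Prime) (hℓM : ¬ ℓ ∣ M) (hℓS : ℓ ∉ (↑(badSet M P.p W) : Set ℕ)),
    θ (CuspForm.heckeAlgebra.T hℓ hℓM hℓS) = (W.apOfModel ℓ : ZMod P.p)
  /-- The rank of the part at the residual system. -/
  d : ℕ
  d_pos : 0 < d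
  /-- A basis of that part over `ℤ_p`. -/
  v : Fin d → clH ℤ_[P.p] M
  fix : ∀ i, (baseIdem ℤ_[P.p] M (goodPrimes (badSet M P.p W)) (intSys W.apOfModel)).1 (v i) = v i
  basis : ∀ x, (baseIdem ℤ_[P.p] M (goodPrimes (badSet M P.p W)) (intSys W.apOfModel)).1 x = x →
    ∃! b : Fin d → ℤ_[P.p], ∑ i, b i • v i = x
  /-- The matrix of each good operator in the basis. -/
  Tm : ℕ → Matrix (Fin d) (Fin d) ℤ_[P.p]
  Tm_spec : ∀ (ℓ : goodPrimes (badSet M P.p W)) j,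
    baseGen ℤ_[P.p] M (goodPrimes (badSet M P.p W)) ℓ (v j) = ∑ i, Tm (ℓ.1 : ℕ) i j • v i
  exact : ∀ i₀, ∀ (T₀ : Type) [CommRing T₀] [IsLocalRing T₀] [IsNoetherianRing T₀]
    [Algebra ℤ_[P.p] T₀] (A₀ : T₀ →ₐ[ℤ_[P.p]] Matrix (Fin d) (Fin d) ℤ_[P.p])
    (M₀ : GQ →* Matrix (Fin 2) (Fin 2) T₀), AdicCont M₀ →
    (∀ x, A₀ x ∈ Algebra.adjoin ℤ_[P.p] (Tm '' {ℓ | ℓ.Prime ∧ ℓ ∉ badSet M P.p W})) →
    (∃ g : Fin 4 → GQ, IsUnit (Matrix.of fun i j => Matrix.trace (M₀ (g i) * M₀ (g j))).det) →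
    (∀ ℓ : ℕ, ℓ.Prime → ℓ ∉ badSet M P.p W → ∀ A : ValuationSubring Qbar, A.LiesOverPrime ℓ →
      ∀ σ : GQ, A.IsFrobeniusAt σ ℓ → A₀ (M₀ σ).trace = Tm ℓ ∧ (M₀ σ).det = (ℓ : T₀)) →
    ∀ w, resBlock (A₀ : T₀ →+* Matrix (Fin d) (Fin d) ℤ_[P.p]) (M₀ (SP.σ i₀) - 1) w = 0 →
      ∃ y, resBlock (A₀ : T₀ →+* Matrix (Fin d) (Fin d) ℤ_[P.p]) (M₀ (SP.σ i₀) - 1) y = w

/-- **The minimal level of a Frey representation.** -/
theorem exists_freyLevel (P : FreyPackage) [Fact P.p.Prime] [P.freyCurve.IsElliptic]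
    (hirr : GaloisRepIsIrreducible (K := Qbar) ℚ P.freyCurve P.p) {M : ℕ} [NeZero M]
    (hcond : P.IsConductorLevel M) (hpM : ¬ P.p ∣ M) (hmin : MazurPrinciple.IsMinimalLevel P M) :
    Nonempty (FreyLevel P M) := by
  classical
  have hp : P.p.Prime := Fact.out
  have hp2 : P.p ≠ 2 := by have := P.hp5; omega
  -- the two Galois inputs
  obtain ⟨f, W, 𝔪, hf, hW, h𝔪, hp𝔪, hcong⟩ := hmin.1
  have hΔ : W.Δ ≠ 0 := model_Δ_ne_zero (model_elliptic hW)
  set S := badSet M P.p W with hS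
  have hNS : ∀ q, q.Prime → q ∣ M → q ∈ (↑S : Set ℕ) := fun q hq h => mem_badSet_of_dvd hq h
  obtain ⟨Ins₀⟩ := nonempty_jacobianInputs M P.p
  let Ins : JacobianInputs M P.p := ⟨tModel M P.p, Ins₀.galois⟩
  obtain ⟨θ, hθ⟩ := exists_theta_of_congr hf hNS Ins.model h𝔪 hp𝔪 W.apOfModel fun ℓ hℓ _ hℓS => by
    obtain ⟨h1, h2, h3⟩ := good_of_not_mem_badSet hΔ hℓ fun h => hℓS (Finset.mem_coe.2 h)
    exact hcong ℓ hℓ h1 h2 h3
  obtain ⟨ι, hι, hequiv, htor, heig⟩ :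
      ∃ ι : Submodule.torsionBy ℤ (P.freyCurve⁄Qbar).Point (P.p : ℤ) →+ JZero M,
        Function.Injective ι ∧ (∀ (g : GQ) x, ι (g • x) = g • ι x) ∧ (∀ x, P.p • ι x = 0) ∧
        ∀ ℓ : Nat.Primes, (ℓ : ℕ) ∉ S → ∀ x,
          heckeOperatorBar M ℓ (ι x) = W.apOfModel ℓ • ι x := by
    obtain ⟨C, hC⟩ := hW
    have hirr' : GaloisRepIsIrreducible (K := Qbar) ℚ (W.map (Int.castRingHom ℚ)) P.p := by
      rw [← hC]; exact (EC.galoisRepIsIrreducible_variableChange C P.freyCurve P.p).mpr hirr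
    have := model_elliptic (P := P) ⟨C, hC⟩
    obtain ⟨ι, hι, hequiv, htor, heig⟩ := exists_galois_map W hp2 hirr' Ins.model Ins.galois
      (mem_badSet_self M P.p W) hNS (fun q hq h => mem_badSet_of_bad hΔ hq h) θ hθ
    obtain ⟨e, he⟩ : ∃ e : Submodule.torsionBy ℤ (P.freyCurve⁄Qbar).Point (P.p : ℤ) ≃+
        Submodule.torsionBy ℤ ((W.map (Int.castRingHom ℚ))⁄Qbar).Point (P.p : ℤ),
        ∀ (g : GQ) x, e (g • x) = g • e x := by
      rw [← hC]
      refine ⟨(EC.torsionEquiv (K := Qbar) C P.freyCurve P.p).symm.toAddEquiv, fun g x => ?_⟩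
      apply (EC.torsionEquiv (K := Qbar) C P.freyCurve P.p).injective
      rw [EC.torsionEquiv_smul]
      simp
    exact ⟨ι.comp e.toAddMonoidHom, hι.comp e.injective,
      fun g x => (congrArg ι (he g x)).trans (hequiv g (e x)), fun x => htor _,
      fun ℓ hℓ x => heig ℓ hℓ _⟩
  -- the odd primes of `M`
  let R : Finset ℕ := M.primeFactors.filter (· ≠ 2)
  let e := R.equivFin.symm
  let r : Fin R.card → ℕ := fun i => (e i : ℕ)
  have hr : ∀ i, (r i).Prime ∧ r i ≠ 2 ∧ r i ∣ M ∧ r i ≠ P.p := fun i => by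
    obtain ⟨h1, h2⟩ := Finset.mem_filter.mp (e i).2
    exact ⟨Nat.prime_of_mem_primeFactors h1, h2, Nat.dvd_of_mem_primeFactors h1,
      fun h => hpM (h ▸ Nat.dvd_of_mem_primeFactors h1)⟩
  have htoric : ∀ (q : ℕ), q.Prime → q ≠ 2 → q ∣ M → ∀ (A : ValuationSubring Qbar),
      A.LiesOverPrime q → ∀ φ σ : GQ, A.IsFrobeniusAt φ q → MazurPrinciple.IsTameGenerator P.p A σ →
        Nonempty (MazurPrinciple.LocalToric Ins.model hNS θ q φ σ) := by
    intro q hq hq2 hqM A hA φ σ hφ hσ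
    exact MonodromyExact.hasToricInputs P M q hcond hpM hirr Ins hq hq2 (fun h => hpM (h ▸ hqM)) hqM
      (fun h => hmin.2 (M / q) (Nat.div_dvd_of_dvd hqM)
        (Nat.div_lt_self (Nat.pos_of_ne_zero (NeZero.ne M)) hq.one_lt).ne h)
      W hW S hNS θ hθ A hA φ σ hφ hσ
  -- Mazur's principle
  have hunr : ∀ i, ∀ A : ValuationSubring Qbar, A.LiesOverPrime (r i) →
      ∀ τ ∈ A.inertiaSubgroupIn ℚ,
        ∀ x : Submodule.torsionBy ℤ (P.freyCurve⁄Qbar).Point (P.p : ℤ), τ • x = x :=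
    fun i A hA τ hτ => Tate.frey_galoisRepUnramifiedAt P (hr i).1 (hr i).2.1 (hr i).2.2.2 A hA τ hτ
  have hmaz : ∀ i, ∀ A : ValuationSubring Qbar, A.LiesOverPrime (r i) → ∀ φ : GQ,
      A.IsFrobeniusAt φ (r i) → (r i : ZMod P.p) = 1 ∧ ∃ c : ZMod P.p, (c = 1 ∨ c = -1) ∧
        ∀ x, galoisRepModuleEnd (K := Qbar) ℚ P.freyCurve P.p φ x = c • x := by
    intro i A hA φ hφ
    obtain ⟨σ, hσ⟩ := MazurPrinciple.exists_isTameGenerator (hr i).1 hp (hr i).2.2.2.symm hA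
    obtain ⟨I⟩ := htoric (r i) (hr i).1 (hr i).2.1 (hr i).2.2.1 A hA φ σ hφ hσ
    exact MazurPrinciple.scalar_of_localToric_curve hp2 P.freyCurve Ins.model hNS θ
      W.apOfModel hθ hirr
      hι hequiv htor heig (hr i).1 (hr i).2.2.2 hA hφ (fun x => hunr i A hA σ hσ.1 x) I
  obtain ⟨SP, hSP⟩ := MazurPrinciple.exists_scalarPrimes P.p P.freyCurve hp2 r (fun i => (hr i).1)
    (fun i => (hr i).2.2.2)
    (fun i => by
      obtain ⟨A, hA⟩ := Gal.exists_liesOverPrime (hr i).1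
      obtain ⟨φ, hφ⟩ := Gal.exists_isFrobeniusAt (hr i).1 hA
      exact (hmaz i A hA φ hφ).1)
    hunr (fun i A hA φ hφ => (hmaz i A hA φ hφ).2)
  have hSPr : SP.r = r := funext fun i => (hSP i).1
  -- coordinates
  obtain ⟨d, v, hfix, hbasis⟩ :=
    exists_idem_basis ℤ_[P.p] M (goodPrimes S) (intSys W.apOfModel)
  have hav : SysMatch θ (intSys W.apOfModel) := fun ℓ hℓN hℓS =>
    (resVal_liftSys_intSys W.apOfModel ℓ).trans (hθ ℓ ℓ.2 hℓN hℓS).symm
  have hnt : Nontrivial (eigenPart (tModel M P.p) hNS θ 1) := by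
    obtain ⟨x, y, hxy⟩ := hirr.1
    obtain ⟨w, hw, hwx⟩ : ι (x - y) ∈ MonodromyExact.thetaPts (tModel M P.p) hNS θ 1 :=
      MazurPrinciple.mem_thetaPts_of_eigen (tModel M P.p) hNS θ W.apOfModel hθ (htor _)
        fun ℓ hℓ => heig ℓ hℓ _
    refine ⟨⟨w, hw⟩, 0, fun h => sub_ne_zero.mpr hxy (hι ?_)⟩
    rw [_root_.map_zero, ← hwx, show w = 0 from congrArg Subtype.val h, _root_.map_zero]
  have hd : 0 < d := pos_of_nontrivial hNS hav v hfix hbasis hnt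
  have hcomm : ∀ (ℓ : goodPrimes S) j,
      (baseIdem ℤ_[P.p] M (goodPrimes S) (intSys W.apOfModel)).1
        (baseGen ℤ_[P.p] M (goodPrimes S) ℓ (v j)) = baseGen ℤ_[P.p] M (goodPrimes S) ℓ (v j) :=
    fun ℓ j => baseIdem_baseGen ℤ_[P.p] M (goodPrimes S) (intSys W.apOfModel) ℓ (hfix j)
  choose B hB using fun ℓ j => (hbasis _ (hcomm ℓ j)).exists
  let Tm : ℕ → Matrix (Fin d) (Fin d) ℤ_[P.p] := fun ℓ =>
    if h : ℓ.Prime ∧ ℓ ∉ S then Matrix.of fun i j => B ⟨⟨ℓ, h.1⟩, h.2⟩ j i else 0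
  have hTm : ∀ (ℓ : goodPrimes S) j,
      baseGen ℤ_[P.p] M (goodPrimes S) ℓ (v j) = ∑ i, Tm (ℓ.1 : ℕ) i j • v i := fun ℓ j => by
    refine (hB ℓ j).symm.trans (Finset.sum_congr rfl fun i _ => ?_)
    simp only [Tm, dif_pos (show (ℓ.1 : ℕ).Prime ∧ (ℓ.1 : ℕ) ∉ S from ⟨ℓ.1.2, ℓ.2⟩),
      Matrix.of_apply]
    rfl
  refine ⟨{
    W := W
    model := hW
    m := R.card
    SP := SP
    r_inj := fun i j h => e.injective (Subtype.ext (by rw [hSPr] at h; exact h))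
    r_mem := fun q => by
      rw [hSPr]
      constructor
      · rintro ⟨i, rfl⟩; exact ⟨(hr i).1, (hr i).2.1, (hr i).2.2.1⟩
      · rintro ⟨hq, hq2, hqM⟩
        refine ⟨e.symm ⟨q, Finset.mem_filter.mpr ⟨Nat.mem_primeFactors.2
          ⟨hq, hqM, NeZero.ne M⟩, hq2⟩⟩, ?_⟩
        simp only [r, Equiv.apply_symm_apply]
    θ := θ
    θ_T := hθ
    d := d
    d_pos := hd
    v := v
    fix := hfix
    basis := hbasis
    Tm := Tm
    Tm_spec := hTm
    exact := fun i₀ T₀ _ _ _ _ A₀ M₀ hM₀ hgen hgram hfrob₀ w hw => ?_ }⟩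
  obtain ⟨I⟩ := htoric (SP.r i₀) (SP.prime i₀) (SP.two i₀) (by rw [hSPr]; exact (hr i₀).2.2.1)
    (SP.A i₀) (SP.lies i₀) (SP.φ i₀) (SP.σ i₀) (SP.frob i₀) (SP.tame i₀)
  refine resBlock_exact_levelM hNS hp2 Ins.galois (mem_badSet_self M P.p W) hav v hfix hbasis
    (EC.finrank_torsionBy (K := Qbar) P.freyCurve P.p (Nat.cast_ne_zero.mpr hp.ne_zero))
    (galoisRepModuleEnd (K := Qbar) ℚ P.freyCurve P.p)
    (EC.residualRep P.freyCurve P.p).factorsThroughFiniteLevel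
    (fun V hV => hirr.2 V fun τ x hx => ?_) (fun ℓ hℓ hℓN hℓS A hA g hg => ?_)
    (SP.prime i₀).two_le
    (fun n => cyc_frobenius P.p n (SP.prime i₀) (SP.ne_p i₀) (SP.lies i₀) (SP.frob i₀))
    I.toToricInputs Tm hTm A₀ M₀ hM₀ hgen hgram hfrob₀ w hw
  · have h := hV τ x hx
    rwa [galoisRepModuleEnd_apply] at h
  · obtain ⟨h1, h2, h3⟩ := good_of_not_mem_badSet hΔ hℓ fun h => hℓS (Finset.mem_coe.2 h)
    obtain ⟨ht, hdet⟩ := frey_trace_det_frobenius P hW hℓ h3 h1 hA hg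
    exact ⟨ht.trans (hθ ℓ hℓ hℓN hℓS).symm, hdet⟩

end Fermat.Agent.LevelLowering.Scalar
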