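import Fermat.Agent.LevelLowering.Scalar.Level
import Fermat.Agent.TW.Assembly

/-!
# Taylor–Wiles primes with strict conditions at the scalar primes

The strict space at a set of scalar primes, the membership of the tangent cocycles in it, and
auxiliary primes for which its classes have bounded dimension (`exists_twPrimes_strict`).
-/

noncomputable section

namespace Fermat.Agent.LevelLowering.Scalar

open Module IsLocalRing Matrix Fermat.Agent.Gal Fermat.Agent.PT Fermat.Agent.PT.Lv Fermat.Agent.TW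

variable {O : Type} [CommRing O] [IsLocalRing O] {p : ℕ} [Fact p.Prime]
  [CharP (ResidueField O) p] {ρbar : ResidualGaloisRep (ResidueField O)}
  {bbar : Basis (Fin 2) (ResidueField O) ρbar.V} {m : ℕ}

/-- The scalar primes as primes. -/
def ScalarPrimes.primes (P : ScalarPrimes p ρbar bbar m) : Finset Nat.Primes :=
  Finset.univ.image fun i => (⟨P.r i, P.prime i⟩ : Nat.Primes)

omit [Fact (Nat.Prime p)] [CharP (ResidueField O) p] in
/-- The adjoint is trivial on the decomposition group at a scalar prime. -/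
theorem ScalarPrimes.adRep_eq_one (P : ScalarPrimes p ρbar bbar m) (i : Fin m) :
    ∀ g ∈ (P.A i).decompositionSubgroup ℚ, adRep (rbar bbar) g = 1 := by
  intro g hg
  obtain ⟨L, hL, hL1⟩ := ρbar.factorsThroughFiniteLevel
  obtain ⟨j, ι, hι, hu⟩ :=
    exists_frob_pow_mul (P.prime i) (P.lies i) (P.frob i) (fixingSubgroup_mem_krull L) hg
  have hg' : rbar bbar g = residue O (P.ε i) ^ j • 1 := by
    have h1 : rbar bbar ((P.φ i ^ j * ι)⁻¹ * g) = 1 := by
      show LinearMap.toMatrixAlgEquiv bbar (ρbar.ρ _) = 1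
      rw [hL1 _ fun x hx => (IntermediateField.mem_fixingSubgroup_iff _ _).1 hu x hx, map_one]
    rw [← mul_inv_cancel_left (P.φ i ^ j * ι) g, map_mul, h1, mul_one, map_mul, map_pow,
      P.inertia i ι hι, mul_one, P.scalar, smul_pow, one_pow]
  have hinv := rbar_inv_mul (bbar := bbar) g
  rw [hg', Matrix.mul_smul, mul_one] at hinv
  refine LinearMap.ext fun X => Subtype.ext ?_
  rw [coe_adRep, hg', Matrix.smul_mul, one_mul, Matrix.smul_mul, Module.End.one_apply,
    ← Matrix.mul_smul, hinv, mul_one]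

/-- The space of classes at a level with auxiliary primes `qv`. -/
def ScalarPrimes.strictSpace (P : ScalarPrimes p ρbar bbar m)
    (Cp : Submodule (ResidueField O) (AG → sl2 (ResidueField O))) {D : ℕ} (qv : Fin D → ℕ) :
    Submodule (ResidueField O) (AG → sl2 (ResidueField O)) :=
  TW.strictSpace p (rbar bbar) P.primes Cp qv

/-- Tangent classes trivial at the scalar primes lie in the strict space. -/
theorem ScalarPrimes.tanCocycle_mem_strictSpace (P : ScalarPrimes p ρbar bbar m) (hp2 : p ≠ 2)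
    {T : Type} [CommRing T] [IsLocalRing T] [Algebra O T] [IsLocalHom (algebraMap O T)]
    {hres : Function.Surjective (residue T ∘ algebraMap O T)} {ρ : GaloisRepAdic T}
    {b : Basis (Fin 2) T ρ.V} (hb : Adapted bbar hres ρ b) (hdet : ρ.DetIsCyclotomic p)
    (Cp : Submodule (ResidueField O) (AG → sl2 (ResidueField O))) {D : ℕ} (qv : Fin D → ℕ)
    (hU : ∀ q : ℕ, q.Prime → q ∉ insert p (natSet P.primes ∪ Finset.univ.image qv) →
      ρ.IsUnramifiedAt q ∨ (ρ.IsUnipotentOnInertiaAt q ∧ ¬ ρbar.IsUnramifiedAt q))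
    (δ : tangent hres) (hCp : tanCocycle hb hdet δ ∈ Cp)
    (hδ : ∀ i, ∀ h ∈ (P.A i).decompositionSubgroup ℚ, tanCocycle hb hdet δ h = 0) :
    tanCocycle hb hdet δ ∈ P.strictSpace Cp qv := by
  refine ⟨tanCocycle_mem_selCocycles hb hdet hp2 (Finset.mem_insert_self _ _) hU δ, hCp,
    (Submodule.mem_iInf _).2 fun r => (Submodule.mem_iInf _).2 fun hr => ?_⟩
  obtain ⟨i, -, rfl⟩ := Finset.mem_image.1 hr
  have : Fact (P.r i).Prime := ⟨P.prime i⟩
  exact mem_locB1_decQ_of_eq_zero _ (tanCocycle_mem_Z1 hb hdet δ) (P.lies i) (hδ i)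

variable [Finite (ResidueField O)] [Algebra (ZMod p) (ResidueField O)]

/-- Taylor–Wiles primes for strict conditions at the scalar primes, selected by `Q`. -/
theorem exists_twPrimes_of {Q : M2 (ResidueField O) → Prop}
    (hQ : Selects p (rbar bbar) Q) (hEuler : EulerFormula p) (hp2 : p ≠ 2)
    (habs : ρbar.IsAbsolutelyIrreducible) (hdet : DetCyc p (rbar bbar))
    (hTW : ∀ (K : Type) [Field K] [Algebra (ResidueField O) K] (G : Subgroup AG), G.index = 2 →
      ∀ V : Submodule K (ρbar.baseChange K).V,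
        (∀ σ ∈ G, ∀ x ∈ V, (ρbar.baseChange K).ρ σ x ∈ V) → V = ⊥ ∨ V = ⊤)
    (P : ScalarPrimes p ρbar bbar m) (hinjr : Function.Injective P.r)
    (L : Submodule (ResidueField O) ((decQ ((pP p : Nat.Primes) : ℕ) → sl2 (ResidueField O)) ⧸
      B1 (resRep (adRep (rbar bbar)) (decQ ((pP p : Nat.Primes) : ℕ)))))
    (hLfin : FiniteDimensional (ResidueField O) L)
    (hL : finrank (ResidueField O) L ≤ finrank (ResidueField O) (Representation.invariants
      (resRep (adRep (rbar bbar)) (decQ ((pP p : Nat.Primes) : ℕ)))) + 1)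
    (S : Finset ℕ) :
    ∃ g D : ℕ, m * 3 + g ≤ D ∧ ∀ n : ℕ, ∃ qv : Fin D → ℕ, Function.Injective qv ∧
      (∀ i, (qv i).Prime ∧ qv i ∉ S ∧ p ^ (n + 1) ∣ qv i - 1) ∧
      (∀ i, ∀ A : ValuationSubring (AlgebraicClosure ℚ), A.LiesOverPrime (qv i) →
        ∀ φ : AG, A.IsFrobeniusAt φ (qv i) → trace (rbar bbar φ) ^ 2 ≠ 4 ∧
          det (rbar bbar φ) = 1 ∧ Q (rbar bbar φ)) ∧
      FiniteDimensional (ResidueField O)
        (classes (adRep (rbar bbar)) (P.strictSpace (condAt (adRep (rbar bbar)) L) qv)) ∧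
      finrank (ResidueField O)
        (classes (adRep (rbar bbar)) (P.strictSpace (condAt (adRep (rbar bbar)) L) qv)) ≤ g := by
  classical
  have hle := locSpace_condAt_le (adRep (rbar bbar)) (pP p) L
  have hRp : pP p ∉ P.primes := fun h => by
    obtain ⟨i, -, hi⟩ := Finset.mem_image.1 h
    exact P.ne_p i (congrArg Subtype.val hi)
  have hR : ∀ r ∈ P.primes, ∀ g ∈ decQ (r : ℕ), adRep (rbar bbar) g = 1 := by
    intro r hr g hg
    obtain ⟨i, -, rfl⟩ := Finset.mem_image.1 hr
    have : Fact (P.r i).Prime := ⟨P.prime i⟩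
    obtain ⟨γ, hγ⟩ :=
      Gal.exists_smul_eq (P.prime i) (padicPlace_liesOverPrime (q := P.r i)) (P.lies i)
    have h1 := Gal.conj_mem_decomposition hg γ
    rw [hγ] at h1
    have h2 := P.adRep_eq_one i _ h1
    calc adRep (rbar bbar) g
        = adRep (rbar bbar) γ⁻¹ * adRep (rbar bbar) (γ * g * γ⁻¹) * adRep (rbar bbar) γ := by
          rw [← map_mul, ← map_mul]; congr 1; group
      _ = 1 := by rw [h2, mul_one, ← map_mul, inv_mul_cancel, map_one]
  have hcard : P.primes.card = m := by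
    refine (Finset.card_image_of_injective _ fun a b h => hinjr ?_).trans ?_
    · exact congrArg Subtype.val h
    · rw [Finset.card_univ, Fintype.card_fin]
  have hdef : strictDeficit (rbar bbar) P.primes = 3 * m := by
    refine (Finset.sum_congr rfl (g := fun _ => 3) fun r hr => ?_).trans
      (by rw [Finset.sum_const, smul_eq_mul, hcard, mul_comm])
    have htop : Representation.invariants (resRep (adRep (rbar bbar)) (decQ (r : ℕ))) = ⊤ :=
      Submodule.eq_top_iff'.2 fun X g => LinearMap.congr_fun (hR r hr g g.2) X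
    rw [htop, finrank_top, finrank_sl2]
  obtain ⟨D, hD⟩ := exists_auxiliaryPrimes_strictAt hQ hEuler hp2
    (bigImage_of_hyps bbar habs hTW) (finiteLevel_matrixRep bbar) hdet
    (exists_nonsquare_det hp2 hdet) P.primes hRp (condAt (adRep (rbar bbar)) L)
    (Submodule.finiteDimensional_of_le hle) 0 ((Submodule.finrank_mono hle).trans hL)
  rw [hdef, add_zero] at hD
  have hDm : 3 * m ≤ D := by
    have : NeZero p := ⟨(Fact.out : p.Prime).ne_zero⟩
    obtain ⟨qv, -, -, -, -, h⟩ := hD p dvd_rfl ∅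
    omega
  refine ⟨D - 3 * m, D, by omega, fun n => ?_⟩
  have : NeZero (p ^ (n + 1)) := ⟨pow_ne_zero _ (Fact.out : p.Prime).ne_zero⟩
  obtain ⟨qv, hinj, hq, hqQ, hfin, hbound⟩ := hD (p ^ (n + 1)) (dvd_pow_self p n.succ_ne_zero) S
  refine ⟨qv, hinj, fun i => ⟨(hq i).2.1, (hq i).1, (hq i).2.2.1⟩,
    fun i A hA φ hφ => ⟨((hq i).2.2.2.2 A hA φ hφ).1, ((hq i).2.2.2.2 A hA φ hφ).2,
      hqQ i A hA φ hφ⟩, hfin, ?_⟩
  have : finrank (ResidueField O)
      (classes (adRep (rbar bbar)) (P.strictSpace (condAt (adRep (rbar bbar)) L) qv)) + 3 * m ≤ D :=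
    hbound
  omega

/-- **Taylor–Wiles primes** for strict conditions at the scalar primes. -/
theorem exists_twPrimes_strict (hEuler : EulerFormula p) (hp2 : p ≠ 2)
    (habs : ρbar.IsAbsolutelyIrreducible) (hdet : DetCyc p (rbar bbar))
    (hsplit : ∀ σ : AG, ∃ α β : ResidueField O, LinearMap.charpoly (ρbar.ρ σ) =
      (Polynomial.X - Polynomial.C α) * (Polynomial.X - Polynomial.C β))
    (hTW : ∀ (K : Type) [Field K] [Algebra (ResidueField O) K] (G : Subgroup AG), G.index = 2 →
      ∀ V : Submodule K (ρbar.baseChange K).V,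
        (∀ σ ∈ G, ∀ x ∈ V, (ρbar.baseChange K).ρ σ x ∈ V) → V = ⊥ ∨ V = ⊤)
    (P : ScalarPrimes p ρbar bbar m) (hinjr : Function.Injective P.r)
    (L : Submodule (ResidueField O) ((decQ ((pP p : Nat.Primes) : ℕ) → sl2 (ResidueField O)) ⧸
      B1 (resRep (adRep (rbar bbar)) (decQ ((pP p : Nat.Primes) : ℕ)))))
    (hLfin : FiniteDimensional (ResidueField O) L)
    (hL : finrank (ResidueField O) L ≤ finrank (ResidueField O) (Representation.invariants
      (resRep (adRep (rbar bbar)) (decQ ((pP p : Nat.Primes) : ℕ)))) + 1)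
    (S : Finset ℕ) :
    ∃ g D : ℕ, m * 3 + g ≤ D ∧ ∀ n : ℕ, ∃ qv : Fin D → ℕ, Function.Injective qv ∧
      (∀ i, (qv i).Prime ∧ qv i ∉ S ∧ p ^ (n + 1) ∣ qv i - 1) ∧
      (∀ i, ∀ A : ValuationSubring (AlgebraicClosure ℚ), A.LiesOverPrime (qv i) →
        ∀ φ : AG, A.IsFrobeniusAt φ (qv i) →
          ∃ α β : ResidueField O, α ≠ β ∧ LinearMap.charpoly (ρbar.ρ φ) =
            (Polynomial.X - Polynomial.C α) * (Polynomial.X - Polynomial.C β)) ∧
      FiniteDimensional (ResidueField O)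
        (classes (adRep (rbar bbar)) (P.strictSpace (condAt (adRep (rbar bbar)) L) qv)) ∧
      finrank (ResidueField O)
        (classes (adRep (rbar bbar)) (P.strictSpace (condAt (adRep (rbar bbar)) L) qv)) ≤ g := by
  obtain ⟨g, D, hD, h⟩ := exists_twPrimes_of
    (selects_true hp2 (bigImage_of_hyps bbar habs hTW) hdet) hEuler hp2 habs hdet hTW P hinjr L
    hLfin hL S
  refine ⟨g, D, hD, fun n => ?_⟩
  obtain ⟨qv, h1, h2, h3, h4⟩ := h n
  exact ⟨qv, h1, h2, fun i A hA φ hφ =>
    exists_ne_roots bbar hsplit ⟨(h3 i A hA φ hφ).1, (h3 i A hA φ hφ).2.1⟩, h4⟩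

end Fermat.Agent.LevelLowering.Scalar
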