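import Fermat.Agent.Flat.DatumFlat
import Fermat.Agent.LevelLowering.Scalar.TWPrimes
import Fermat.Agent.LevelLowering.TraceGlue

/-!
# Local conditions detected on the points of a local ring

A representation over `T` with jointly injective points is unramified, unipotent on inertia or
flat as soon as its pushforward along every point is.
-/

noncomputable section

namespace Fermat.Agent.Flat

local notation "Gal0" => (AlgebraicClosure ℚ ≃ₐ[ℚ] AlgebraicClosure ℚ)

variable {ℓ : ℕ} [Fact ℓ.Prime]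

/-- Finite flat models pass to finite dependent products. -/
theorem HasFlatModel.piFin : ∀ {r : ℕ} {M : Fin r → Type} [∀ i, AddCommGroup (M i)]
    [∀ i, Finite (M i)] {act : ∀ i, Gal0 → M i → M i}, (∀ i, HasFlatModel ℓ (M i) (act i)) →
    (∀ i σ, act i σ 0 = 0) → HasFlatModel ℓ (∀ i, M i) fun σ v i => act i σ (v i)
  | 0, _, _, _, _, _, _ => HasFlatModel.of_subsingleton
  | _ + 1, M, _, _, act, h, h0 =>
    ((h 0).prod (HasFlatModel.piFin (M := fun i => M i.succ) (fun i => h i.succ)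
      fun i => h0 i.succ) (h0 0) fun σ => funext fun i => h0 i.succ σ).sub
      (AddMonoidHom.mk' (fun v => (v 0, fun i => v i.succ)) fun _ _ => rfl)
      (fun v w hvw => funext fun i => by
        obtain ⟨e0, e1⟩ := Prod.ext_iff.1 hvw
        cases i using Fin.cases with
        | zero => exact e0
        | succ j => exact congrFun e1 j)
      (fun _ _ => rfl) fun σ => funext fun i => h0 i σ

/-- Finite flat models pass to products over finite index types. -/
theorem HasFlatModel.piFinite {ι : Type} [Finite ι] {M : ι → Type} [∀ i, AddCommGroup (M i)]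
    [∀ i, Finite (M i)] {act : ∀ i, Gal0 → M i → M i} (h : ∀ i, HasFlatModel ℓ (M i) (act i))
    (h0 : ∀ i σ, act i σ 0 = 0) : HasFlatModel ℓ (∀ i, M i) fun σ v i => act i σ (v i) := by
  obtain ⟨r, ⟨e⟩⟩ := Finite.exists_equiv_fin ι
  refine (HasFlatModel.piFin (M := fun k => M (e.symm k)) (fun k => h _) fun k => h0 _).sub
    (AddMonoidHom.mk' (fun v k => v (e.symm k)) fun _ _ => rfl)
    (fun v w hvw => funext fun i => ?_) (fun _ _ => rfl) fun σ => funext fun i => h0 i σ
  obtain ⟨k, rfl⟩ := e.symm.surjective i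
  exact congrFun hvw k

end Fermat.Agent.Flat

namespace Fermat.Agent.LevelLowering.Scalar

open Module IsLocalRing Matrix Polynomial Fermat.Agent.Gal Fermat.Agent.PT Fermat.Agent.PT.Lv
  Fermat.Agent.TW DualNumber
open scoped TensorProduct

local notation "GQ" => (AlgebraicClosure ℚ ≃ₐ[ℚ] AlgebraicClosure ℚ)

variable {T : Type} [CommRing T] [IsLocalRing T] {ρ : GaloisRepAdic T} {ι : Type}
  {F : ι → Type} [∀ a, CommRing (F a)] [∀ a, IsLocalRing (F a)]
  {ψ : ∀ a, T →+* F a} {hψ : ∀ a, IsLocalHom (ψ a)}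
  (hinj : ∀ x, (∀ a, ψ a x = 0) → x = 0) {p q : ℕ}

include hinj

/-- Unramifiedness is detected on points. -/
theorem isUnramifiedAt_of_points (h : ∀ a, (ρ.baseChangeAlong (ψ a) (hψ a)).IsUnramifiedAt q) :
    ρ.IsUnramifiedAt q := fun P hP σ hσ => by
  let b := basisTwo ρ.finrank_eq
  suffices matrixRep b ρ.ρ σ = 1 from
    (LinearMap.toMatrixAlgEquiv b).injective (this.trans (map_one _).symm)
  ext i j
  rw [← sub_eq_zero]
  refine hinj _ fun a => ?_
  obtain ⟨bc, hbc⟩ := exists_basis_adicBaseChange (ψ a) (hψ a) ρ b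
  have e : (matrixRep b ρ.ρ σ).map (ψ a) = 1 := by
    rw [← hbc σ]
    show LinearMap.toMatrixAlgEquiv bc ((ρ.baseChangeAlong (ψ a) (hψ a)).ρ σ) = 1
    rw [h a P hP σ hσ, map_one]
  have := congrFun (congrFun e i) j
  rw [map_apply] at this
  rw [map_sub, this]
  rcases eq_or_ne i j with rfl | hij <;> simp [*]

/-- Unipotence on inertia is detected on points. -/
theorem isUnipotentOnInertiaAt_of_points
    (h : ∀ a, (ρ.baseChangeAlong (ψ a) (hψ a)).IsUnipotentOnInertiaAt q) :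
    ρ.IsUnipotentOnInertiaAt q := fun P hP σ hσ => by
  refine Polynomial.ext fun k => sub_eq_zero.mp (hinj _ fun a => ?_)
  let : Algebra T (F a) := (ψ a).toAlgebra
  have e : LinearMap.charpoly ((ρ.ρ σ).baseChange (F a)) = (X - 1) ^ 2 := h a P hP σ hσ
  rw [LinearMap.charpoly_baseChange] at e
  rw [map_sub, ← Polynomial.coeff_map, ← Polynomial.coeff_map]
  exact sub_eq_zero.mpr (by rw [← RingHom.algebraMap_toAlgebra (ψ a), e]; simp)

omit hinj

/-- A level of a pushforward receives the representation. -/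
theorem exists_levelMap {B : Type} [CommRing B] [IsLocalRing B] (φ : T →+* B) (hφ : IsLocalHom φ)
    (b : Basis (Fin 2) T ρ.V) (K : Ideal B) :
    ∃ j : ρ.V →+ (ρ.baseChangeAlong φ hφ).V ⧸
        (K • (⊤ : Submodule B (ρ.baseChangeAlong φ hφ).V)),
      (∀ σ v, j (ρ.ρ σ v) = (ρ.baseChangeAlong φ hφ).levelAction K σ (j v)) ∧
      ∀ v, j v = 0 → ∀ i, φ (b.repr v i) ∈ K := by
  let : Algebra T B := φ.toAlgebra
  let f : ρ.V →ₗ[T] (B ⊗[T] ρ.V) ⧸ (K • (⊤ : Submodule B (B ⊗[T] ρ.V))) :=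
    ((Submodule.mkQ _).restrictScalars T).comp (TensorProduct.mk T B ρ.V 1)
  refine ⟨f.toAddMonoidHom, fun σ v => rfl, fun v hv i => ?_⟩
  have h1 : (1 : B) ⊗ₜ[T] v ∈ K • (⊤ : Submodule B (B ⊗[T] ρ.V)) :=
    (Submodule.Quotient.mk_eq_zero _).1 hv
  have h2 := (mem_smul_top_iff_repr (Algebra.TensorProduct.basis B b) K _).1 h1 i
  simpa [Algebra.TensorProduct.basis_repr_tmul, RingHom.algebraMap_toAlgebra] using h2

/-- The levels of a representation are finite. -/
theorem finite_level (ρ : GaloisRepAdic T) (I : Ideal T) [Finite (T ⧸ I)] :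
    Finite (ρ.V ⧸ (I • (⊤ : Submodule T ρ.V))) := by
  have : Finite ((T ⧸ I) ⊗[T] ρ.V) := Module.finite_of_finite (T ⧸ I)
  exact Finite.of_equiv _ (TensorProduct.quotTensorEquivQuotSMul ρ.V I).toEquiv

include hinj

/-- **Flatness is detected on finitely many points.** -/
theorem isFlatAt_of_points [IsNoetherianRing T] [IsAdicComplete (maximalIdeal T) T]
    [Finite (ResidueField T)] [Finite ι] [∀ a, IsNoetherianRing (F a)] [Fact p.Prime]
    (h : ∀ a, (ρ.baseChangeAlong (ψ a) (hψ a)).IsFlatAt p) : ρ.IsFlatAt p := by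
  classical
  refine ⟨‹_›, fun I hI => ?_⟩
  have := Fintype.ofFinite ι
  obtain ⟨k, hk⟩ := Flat.Datum.exists_pow_le I
  obtain ⟨N, hN⟩ := @exists_pow_of_forall_mem T _ _ _ _ _ ι F _ _ _ ψ hψ hinj k
  have hfinK : ∀ a, Finite (F a ⧸ maximalIdeal (F a) ^ N) := fun a => by
    have : Finite (F a ⧸ maximalIdeal (F a)) := (h a).1
    exact Ideal.finite_quotient_pow (IsNoetherian.noetherian _) N
  have hfinM := fun a => finite_level (ρ.baseChangeAlong (ψ a) (hψ a)) (maximalIdeal (F a) ^ N)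
  let b := basisTwo ρ.finrank_eq
  choose j hj hj0 using fun a => exists_levelMap (ψ a) (hψ a) b (maximalIdeal (F a) ^ N)
  let Φ := AddMonoidHom.mk' (fun v a => j a v) fun v w => funext fun a => map_add (j a) v w
  let act := fun (σ : GQ) (y : ∀ a, (ρ.baseChangeAlong (ψ a) (hψ a)).V ⧸
      ((maximalIdeal (F a) ^ N) • (⊤ : Submodule (F a) (ρ.baseChangeAlong (ψ a) (hψ a)).V))) a =>
    (ρ.baseChangeAlong (ψ a) (hψ a)).levelAction (maximalIdeal (F a) ^ N) σ (y a)
  have hΦact : ∀ σ v, act σ (Φ v) = Φ (ρ.ρ σ v) := fun σ v => funext fun a => (hj a σ v).symm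
  have hmem : ∀ (σ : GQ) (y : Φ.range), act σ y.1 ∈ Φ.range := by
    rintro σ ⟨_, v, rfl⟩
    exact ⟨ρ.ρ σ v, (hΦact σ v).symm⟩
  have hP : Flat.HasFlatModel p (∀ a, (ρ.baseChangeAlong (ψ a) (hψ a)).V ⧸
      ((maximalIdeal (F a) ^ N) • (⊤ : Submodule (F a) (ρ.baseChangeAlong (ψ a) (hψ a)).V))) act :=
    Flat.HasFlatModel.piFinite (fun a => (h a).2 _ (hfinK a)) fun a σ => map_zero _
  have hR : Flat.HasFlatModel p Φ.range fun σ y => ⟨act σ y.1, hmem σ y⟩ :=
    hP.sub Φ.range.subtype Subtype.val_injective (fun _ _ => rfl)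
      fun σ => Subtype.ext (funext fun a => map_zero _)
  have : Finite Φ.range := Finite.of_injective Φ.range.subtype Subtype.val_injective
  choose c hc using fun y : Φ.range => y.2
  let mk : ρ.V → ρ.V ⧸ (I • (⊤ : Submodule T ρ.V)) := Submodule.Quotient.mk
  have hwd : ∀ v w, Φ v = Φ w → mk v = mk w := fun v w e => by
    refine (Submodule.Quotient.eq _).2
      ((mem_smul_top_iff_repr b I _).2 fun i => hk (hN _ fun a => ?_))
    exact hj0 a _ (by rw [map_sub, sub_eq_zero]; exact congrFun e a) i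
  have hπ : ∀ y z : Φ.range, mk (c (y + z)) = mk (c y) + mk (c z) := fun y z =>
    (hwd _ (c y + c z) (by rw [hc, map_add, hc, hc]; rfl)).trans (Submodule.Quotient.mk_add _)
  refine hR.quot (AddMonoidHom.mk' (fun y => mk (c y)) hπ) (fun v => ?_) (fun σ y => ?_)
    fun σ => Subtype.ext (funext fun a => map_zero _)
  · obtain ⟨v, rfl⟩ := Submodule.Quotient.mk_surjective _ v
    exact ⟨⟨Φ v, v, rfl⟩, hwd _ _ (hc _)⟩
  · show mk (c _) = ρ.levelAction I σ (mk (c y))
    refine (hwd _ (ρ.ρ σ (c y)) ?_).trans rfl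
    rw [hc, ← hΦact, hc]

omit hinj

/-- Tangent classes of a flat representation satisfy the flat local condition. -/
theorem tanCocycle_mem_condAt_of_flat {O : Type} [CommRing O] [IsLocalRing O] [Fact p.Prime]
    [Algebra O T] [IsLocalHom (algebraMap O T)]
    {ρbar : ResidualGaloisRep (ResidueField O)} {bbar : Basis (Fin 2) (ResidueField O) ρbar.V}
    {hres : Function.Surjective (residue T ∘ algebraMap O T)} {b : Basis (Fin 2) T ρ.V}
    (hb : Adapted bbar hres ρ b) (hdet : ρ.DetIsCyclotomic p) (hflat : ρ.IsFlatAt p)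
    (L : Submodule (ResidueField O) ((decQ ((pP p : Nat.Primes) : ℕ) → sl2 (ResidueField O)) ⧸
      B1 (resRep (adRep (rbar bbar)) (decQ ((pP p : Nat.Primes) : ℕ)))))
    (hloc : ∀ c ∈ Z1 lvQ (adRep (rbar bbar)),
      (∃ (ρ' : GaloisRepAdic (ResidueField O)[ε]) (b' : Basis (Fin 2) (ResidueField O)[ε] ρ'.V),
        ρ'.IsFlatAt p ∧ ∀ g, matrixRep b' ρ'.ρ g = (rbar bbar g).map TrivSqZeroExt.inl +
          ((c g : M2 (ResidueField O)) * rbar bbar g).map TrivSqZeroExt.inr) →
      c ∈ condAt (adRep (rbar bbar)) L)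
    (δ : tangent hres) : tanCocycle hb hdet δ ∈ condAt (adRep (rbar bbar)) L := by
  by_cases hδ : δ = 0
  · rw [hδ, map_zero]
    exact zero_mem _
  obtain ⟨bd, hbd⟩ := exists_basis_adicBaseChange
    (dualHom δ : T →+* (ResidueField O)[ε]) (isLocalHom_dualHom δ) ρ b
  refine hloc _ (tanCocycle_mem_Z1 hb hdet δ)
    ⟨dualRep ρ δ, bd, isFlatAt_baseChange _ (dualHom_surjective hδ) hflat, fun g => ?_⟩
  refine (hbd g).trans (Matrix.ext fun i j => ?_)
  rw [coe_tanCocycle, mul_assoc, rbar_inv_mul, mul_one, map_apply, Matrix.add_apply, map_apply,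
    map_apply, tanMat, map_apply, ← toRes_entry hb]
  exact TrivSqZeroExt.ext (by simp [fst_dualHom]) (by simp [snd_dualHom])

/-- The tangent cocycles of a level lie in the strict space with the flat condition at `p`. -/
theorem ScalarPrimes.tanCocycle_mem_strictSpace_of_flat {O : Type} [CommRing O] [IsLocalRing O]
    [Fact p.Prime] [CharP (ResidueField O) p] [Algebra O T] [IsLocalHom (algebraMap O T)]
    {ρbar : ResidualGaloisRep (ResidueField O)} {bbar : Basis (Fin 2) (ResidueField O) ρbar.V}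
    {m : ℕ} (P : ScalarPrimes p ρbar bbar m) (hp2 : p ≠ 2)
    {hres : Function.Surjective (residue T ∘ algebraMap O T)} {b : Basis (Fin 2) T ρ.V}
    (hb : Adapted bbar hres ρ b) (hdet : ρ.DetIsCyclotomic p) (hflat : ρ.IsFlatAt p)
    (L : Submodule (ResidueField O) ((decQ ((pP p : Nat.Primes) : ℕ) → sl2 (ResidueField O)) ⧸
      B1 (resRep (adRep (rbar bbar)) (decQ ((pP p : Nat.Primes) : ℕ)))))
    (hloc : ∀ c ∈ Z1 lvQ (adRep (rbar bbar)),
      (∃ (ρ' : GaloisRepAdic (ResidueField O)[ε]) (b' : Basis (Fin 2) (ResidueField O)[ε] ρ'.V),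
        ρ'.IsFlatAt p ∧ ∀ g, matrixRep b' ρ'.ρ g = (rbar bbar g).map TrivSqZeroExt.inl +
          ((c g : M2 (ResidueField O)) * rbar bbar g).map TrivSqZeroExt.inr) →
      c ∈ condAt (adRep (rbar bbar)) L)
    {D : ℕ} (qv : Fin D → ℕ)
    (hU : ∀ q : ℕ, q.Prime → q ∉ insert p (natSet P.primes ∪ Finset.univ.image qv) →
      ρ.IsUnramifiedAt q ∨ (ρ.IsUnipotentOnInertiaAt q ∧ ¬ ρbar.IsUnramifiedAt q))
    (δ : tangent hres) (hδ : ∀ i, ∀ h ∈ (P.A i).decompositionSubgroup ℚ,
      tanCocycle hb hdet δ h = 0) :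
    tanCocycle hb hdet δ ∈ P.strictSpace (condAt (adRep (rbar bbar)) L) qv :=
  P.tanCocycle_mem_strictSpace hp2 hb hdet _ qv hU δ
    (tanCocycle_mem_condAt_of_flat hb hdet hflat L hloc δ) hδ

/-- Unramifiedness transfers along an equivalence. -/
theorem isUnramifiedAt_congr {ρ' : GaloisRepAdic T} (e : ρ.IsEquiv ρ') (h : ρ'.IsUnramifiedAt q) :
    ρ.IsUnramifiedAt q := fun P hP σ hσ => by
  obtain ⟨e⟩ := e
  refine LinearMap.ext fun v => e.toLinearEquiv.injective ?_
  rw [e.map_apply, h P hP σ hσ, Module.End.one_apply, Module.End.one_apply]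

/-- Unipotence on inertia transfers along an equivalence. -/
theorem isUnipotentOnInertiaAt_congr {ρ' : GaloisRepAdic T} (e : ρ.IsEquiv ρ')
    (h : ρ'.IsUnipotentOnInertiaAt q) : ρ.IsUnipotentOnInertiaAt q := fun P hP σ hσ => by
  obtain ⟨e⟩ := e
  rw [← h P hP σ hσ, ← e.toLinearEquiv.charpoly_conj (ρ.ρ σ)]
  congr 1
  refine LinearMap.ext fun v => ?_
  rw [LinearEquiv.conj_apply_apply, e.map_apply, LinearEquiv.apply_symm_apply]

/-- Flatness transfers along an equivalence. -/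
theorem isFlatAt_congr {ρ' : GaloisRepAdic T} (e : ρ.IsEquiv ρ') (h : ρ'.IsFlatAt p) :
    ρ.IsFlatAt p := by
  obtain ⟨e⟩ := e
  refine ⟨h.1, fun I hI => ?_⟩
  obtain ⟨H, iC, iH, hf, hfl, hc, f, hadd, hσ⟩ := h.2 I hI
  let E : (ρ'.V ⧸ (I • (⊤ : Submodule T ρ'.V))) ≃ₗ[T] ρ.V ⧸ (I • (⊤ : Submodule T ρ.V)) :=
    Submodule.Quotient.equiv _ _ e.toLinearEquiv.symm (by
      rw [Submodule.map_smul'', Submodule.map_top, LinearEquiv.range])
  refine ⟨H, iC, iH, hf, hfl, hc, f.trans E.toEquiv, fun u v => ?_, fun σ u v huv => ?_⟩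
  · exact (congrArg E (hadd u v)).trans (map_add E _ _)
  · show E (f v) = ρ.levelAction I σ (E (f u))
    rw [hσ σ u v huv]
    obtain ⟨w, hw⟩ := Submodule.mkQ_surjective _ (f u)
    rw [← hw]
    exact congrArg (Submodule.Quotient.mk (p := I • (⊤ : Submodule T ρ.V))) (e.symm.map_apply σ w)

end Fermat.Agent.LevelLowering.Scalar
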