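import Mathlib.LinearAlgebra.FreeModule.Finite.Basic
import Fermat.Agent.LevelLowering.Scalar.Assembly
import Fermat.Agent.LevelLowering.Scalar.LevelM

/-!
# Exactness at the minimal level over a larger coefficient ring

The part of `Hom_cl(Γ₀(N), O)` cut out by the idempotent of a residual system with values in the
prime field is the extension of the corresponding part over `ℤ_p`; the residual monodromy block
stays exact over the larger residue field.
-/

noncomputable section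

namespace Fermat.Agent.LevelLowering.Scalar

open Module Attach CongruenceSubgroup IsLocalRing Matrix Fermat.Agent.Grp Fermat.Agent.Ihara
open scoped MatrixGroups IsMulCommutative

local notation "Qbar" => AlgebraicClosure ℚ
local notation "GQ" => (AlgebraicClosure ℚ ≃ₐ[ℚ] AlgebraicClosure ℚ)

/-! ### Extension of fields -/

/-- Exactness of a pair of commuting operators persists under extension of the field. -/
theorem exact_baseChange {K L : Type} [Field K] [Field L] [Algebra K L] [Module.Finite K L]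
    {n : Type} [Fintype n] {R B H : Type} [CommRing R] [CommRing B] [AddCommGroup H] [Module R H]
    [Module B (n → L)] (ψ : R → Matrix n n K) (f : (n → K) ≃+ H)
    (hf : ∀ r w, f ((ψ r).mulVec w) = r • f w) (Ψ : R →+* B)
    (hΨ : ∀ r (u : n → L), Ψ r • u = ((ψ r).map (algebraMap K L)).mulVec u)
    (X : Matrix (Fin 2) (Fin 2) R)
    (hex : ∀ v : Fin 2 → H, matAct X v = 0 → ∃ y, matAct X y = v)
    (v : Fin 2 → n → L) (hv : matAct (X.map Ψ) v = 0) : ∃ y, matAct (X.map Ψ) y = v := by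
  classical
  set b := Module.finBasis K L
  let co : Fin (Module.finrank K L) → (n → L) → n → K := fun j u x => b.repr (u x) j
  have hco : ∀ j (r : R) u, co j ((Ψ r) • u) = (ψ r).mulVec (co j u) := fun j r u => by
    funext x
    simp only [co, hΨ, Matrix.mulVec, dotProduct, Matrix.map_apply, ← Algebra.smul_def, map_sum,
      Finset.sum_apply, map_smul, Finsupp.coe_finsetSum, Finsupp.smul_apply, smul_eq_mul]
  have hadd : ∀ j u u', co j (u + u') = co j u + co j u' := fun j u u' => by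
    funext x
    simp [co]
  have key : ∀ j (u : Fin 2 → n → L) a,
      f (co j (matAct (X.map Ψ) u a)) = matAct X (fun c => f (co j (u c))) a := fun j u a => by
    simp only [matAct_apply, Matrix.map_apply, hadd, hco, map_add, hf]
  have hker : ∀ j, matAct X (fun c => f (co j (v c))) = 0 := fun j => funext fun a => by
    rw [← key, hv]
    exact (congrArg f (funext fun x => by simp [co])).trans (map_zero f)
  choose y hy using fun j => hex _ (hker j)
  let z : Fin 2 → n → L := fun c x => ∑ j, f.symm (y j c) x • b j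
  have hz : ∀ j c, f (co j (z c)) = y j c := fun j c => by
    rw [← f.apply_symm_apply (y j c)]
    refine congrArg f (funext fun x => ?_)
    show b.repr (∑ i, f.symm (y i c) x • b i) j = _
    rw [b.repr_sum_self]
  refine ⟨z, funext fun a => funext fun x => b.repr.injective (Finsupp.ext fun j => ?_)⟩
  have h := key j z a
  simp only [hz] at h
  exact congrFun (f.injective (h.trans (congrFun (hy j) a))) x

/-- An idempotent avoided by a single maximal ideal is the one attached to it. -/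
theorem isIdemAt_of_unique_maximal {A : Type} [CommRing A] (J : Ideal A) (e : A)
    (hidem : e * e = e) (h1 : 1 - e ∈ J)
    (key : ∀ Q : Ideal A, Q.IsMaximal → 1 - e ∈ Q → Q = J) : IsIdemAt J e := by
  refine ⟨hidem, h1, fun a ha => ?_, fun htop => ?_⟩
  · by_cases hL : Ideal.span {a, 1 - e} = ⊤
    · obtain ⟨x, y, hxy⟩ := Ideal.mem_span_pair.1 ((Ideal.eq_top_iff_one _).1 hL)
      exact ⟨x, by linear_combination e * hxy + y * hidem⟩
    · obtain ⟨Q, hQ, hLQ⟩ := Ideal.exists_le_maximal _ hL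
      have h1 := key Q hQ (hLQ (Ideal.subset_span (Or.inr rfl)))
      exact absurd (h1 ▸ hLQ (Ideal.subset_span (Or.inl rfl))) ha
  · have hu : IsUnit (1 - e) := by
      rw [← Ideal.span_singleton_eq_top]
      by_contra hL
      obtain ⟨Q, hQ, hLQ⟩ := Ideal.exists_le_maximal _ hL
      exact hQ.ne_top ((key Q hQ (hLQ (Ideal.mem_span_singleton_self _))).trans htop)
    refine hu.mul_right_eq_zero.mp ?_
    rw [sub_mul, one_mul, hidem, sub_self]

/-! ### Extension of the coefficient ring -/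

section BaseChange

variable {N : ℕ} [NeZero N] {p : ℕ} [hp : Fact p.Prime]
  (O : Type) [CommRing O] [Algebra ℤ_[p] O]

/-- Change of coefficients from `ℤ_p`. -/
def extCl : clH ℤ_[p] N →+ clH O N := clMap (algebraMap ℤ_[p] O)

omit [NeZero N] in
theorem extCl_smul (c : ℤ_[p]) (x : clH ℤ_[p] N) :
    extCl O (c • x) = algebraMap ℤ_[p] O c • extCl O x := clMap_smul _ c x

theorem baseOp_extCl (ℓ : ℕ) [NeZero ℓ] (x : clH ℤ_[p] N) :
    baseOp O N ℓ (extCl O x) = extCl O (baseOp ℤ_[p] N ℓ x) := by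
  refine Subtype.ext ((coe_baseOp O ℓ _).trans ?_)
  refine (congrArg Subtype.val (clT_clMap (algebraMap ℤ_[p] O) x) : _).trans ?_
  exact congrArg ((algebraMap ℤ_[p] O).toAddMonoidHom.comp ·) (coe_baseOp ℤ_[p] ℓ x).symm

variable (N) in
/-- The evaluation points and the lattice vectors spanning everything. -/
theorem exists_extBasis : ∃ (r : ℕ) (γ : Fin r → Gamma0 N) (w : Fin r → clH ℤ_[p] N),
    (∀ x : clH ℤ_[p] N, x = ∑ i, x.1 (Additive.ofMul (γ i)) • w i) ∧
    ∀ y : clH O N, y = ∑ i, y.1 (Additive.ofMul (γ i)) • extCl O (w i) := by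
  obtain ⟨γ, e, he, -, hdec⟩ := clBasis_exists (Gamma0 N) (neg_one_mem_Gamma0 N)
  have key : ∀ (A : Type) [CommRing A] (y : clH A N), y = ∑ i, y.1 (Additive.ofMul (γ i)) •
      clMap (Int.castRingHom A) (⟨e i, he i⟩ : clHoms ℤ (Gamma0 N) ℤ) := fun A _ y => by
    refine Subtype.ext (AddMonoidHom.ext fun x => ?_)
    rw [AddSubmonoidClass.coe_finsetSum, AddMonoidHom.finsetSum_apply, hdec A y.1 y.2 x]
    refine Finset.sum_congr rfl fun i _ => ?_
    show e i x • _ = y.1 (Additive.ofMul (γ i)) * ((e i x : ℤ) : A)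
    rw [zsmul_eq_mul, mul_comm]
  refine ⟨_, γ, fun i => clMap (Int.castRingHom ℤ_[p]) (⟨e i, he i⟩ : clHoms ℤ (Gamma0 N) ℤ),
    key ℤ_[p], fun y => (key O y).trans (Finset.sum_congr rfl fun i _ => congrArg _ ?_)⟩
  refine Subtype.ext (AddMonoidHom.ext fun x => ?_)
  show ((e i x : ℤ) : O) = algebraMap ℤ_[p] O ((e i x : ℤ) : ℤ_[p])
  rw [map_intCast]

/-- An endomorphism of the extended lattice is determined on the image of the lattice over
`ℤ_p`. -/
theorem ext_extCl {a b : Module.End O (clH O N)}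
    (h : ∀ x : clH ℤ_[p] N, a (extCl O x) = b (extCl O x)) :
    a = b := by
  obtain ⟨r, γ, w, -, hy⟩ := exists_extBasis (p := p) N O
  refine LinearMap.ext fun y => ?_
  rw [hy y, map_sum, map_sum]
  simp only [map_smul, h]

variable (𝓟 : Set Nat.Primes)

/-- The operators over `O` extend those over `ℤ_p`. -/
theorem exists_extAlg (a : baseAlg ℤ_[p] N 𝓟) :
    ∃ b : baseAlg O N 𝓟, ∀ x, b.1 (extCl O x) = extCl O (a.1 x) := by
  obtain ⟨a, ha⟩ := a
  induction ha using Algebra.adjoin_induction with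
  | mem x hx =>
    obtain ⟨i, rfl⟩ := hx
    have : NeZero (i.1 : ℕ) := ⟨i.1.2.ne_zero⟩
    exact ⟨baseElt O N 𝓟 i, fun x => baseOp_extCl O i.1 x⟩
  | algebraMap c =>
    exact ⟨algebraMap O _ (algebraMap ℤ_[p] O c), fun x => (extCl_smul O c x).symm⟩
  | add x y hx hy ihx ihy =>
    obtain ⟨s, hs⟩ := ihx
    obtain ⟨t, ht⟩ := ihy
    exact ⟨s + t, fun z =>
      (congrArg₂ (· + ·) (hs z) (ht z)).trans ((extCl O).map_add _ _).symm⟩
  | mul x y hx hy ihx ihy =>
    obtain ⟨s, hs⟩ := ihx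
    obtain ⟨t, ht⟩ := ihy
    exact ⟨s * t, fun z => (congrArg s.1 (ht z)).trans (hs _)⟩

/-- The extension of operators. -/
def extAlg : baseAlg ℤ_[p] N 𝓟 →+* baseAlg O N 𝓟 :=
  have hs := fun a => (exists_extAlg O 𝓟 a).choose_spec
  have key : ∀ (a : baseAlg ℤ_[p] N 𝓟) (b : baseAlg O N 𝓟),
      (∀ x, b.1 (extCl O x) = extCl O (a.1 x)) → (exists_extAlg O 𝓟 a).choose = b := fun a _ h =>
    Subtype.ext (ext_extCl (p := p) O fun x => (hs a x).trans (h x).symm)
  { toFun := fun a => (exists_extAlg O 𝓟 a).choose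
    map_one' := key 1 1 fun _ => rfl
    map_mul' := fun a b => key _ _ fun x => (congrArg _ (hs b x)).trans (hs a _)
    map_zero' := key 0 0 fun _ => (map_zero (extCl O)).symm
    map_add' := fun a b => key _ _ fun x =>
      (congrArg₂ (· + ·) (hs a x) (hs b x)).trans ((extCl O).map_add _ _).symm }

theorem extAlg_apply (a : baseAlg ℤ_[p] N 𝓟) (x : clH ℤ_[p] N) :
    (extAlg O 𝓟 a).1 (extCl O x) = extCl O (a.1 x) := (exists_extAlg O 𝓟 a).choose_spec x

attribute [irreducible] extAlg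

variable [IsLocalRing O] [IsNoetherianRing O] [IsAdicComplete (maximalIdeal O) O]
  [IsLocalHom (algebraMap ℤ_[p] O)] (av : Nat.Primes → ResidueField ℤ_[p])
  (avO : Nat.Primes → ResidueField O)
  (havO : ∀ ℓ, avO ℓ = ResidueField.map (algebraMap ℤ_[p] O) (av ℓ))

include havO in
/-- **The idempotent is extended.** -/
theorem extAlg_baseIdem :
    extAlg O 𝓟 (baseIdem ℤ_[p] N 𝓟 av) = baseIdem O N 𝓟 avO := by
  classical
  have := finite_baseAlg O N 𝓟
  have := finite_baseAlg ℤ_[p] N 𝓟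
  set Φ := extAlg (N := N) (p := p) O 𝓟
  set e := baseIdem ℤ_[p] N 𝓟 av
  set I := baseIdeal ℤ_[p] N 𝓟 av
  set J := baseIdeal O N 𝓟 avO
  have he : IsIdemAt I e := isIdemAt_baseIdem ℤ_[p] N 𝓟 av
  have hc : ∀ c, Φ (algebraMap ℤ_[p] _ c) = algebraMap O _ (algebraMap ℤ_[p] O c) := fun c =>
    Subtype.ext (ext_extCl (p := p) O fun x => (extAlg_apply O 𝓟 _ x).trans (extCl_smul O c x))
  have hΦsub : ∀ a b, Φ (a - b) = Φ a - Φ b := Φ.map_sub
  have hAsub : ∀ a b, algebraMap O (baseAlg O N 𝓟) (a - b) =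
      algebraMap O (baseAlg O N 𝓟) a - algebraMap O (baseAlg O N 𝓟) b :=
    (algebraMap O (baseAlg O N 𝓟)).map_sub
  have hgen : ∀ i, Φ (baseElt ℤ_[p] N 𝓟 i) = baseElt O N 𝓟 i := fun i => by
    have : NeZero (i.1 : ℕ) := ⟨i.1.2.ne_zero⟩
    exact Subtype.ext (ext_extCl (p := p) O fun x =>
      (extAlg_apply O 𝓟 _ x).trans (baseOp_extCl O i.1 x).symm)
  have hlift : ∀ ℓ, algebraMap ℤ_[p] O (liftSys ℤ_[p] av ℓ) - liftSys O avO ℓ ∈ maximalIdeal O :=
    fun ℓ => by
      rw [← residue_eq_zero_iff, map_sub, ← ResidueField.map_residue, residue_liftSys,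
        residue_liftSys, havO, sub_self]
  have hmapM : (maximalIdeal ℤ_[p]).map (algebraMap ℤ_[p] O) ≤ maximalIdeal O :=
    ((local_hom_TFAE (algebraMap ℤ_[p] O)).out 0 2).1 ‹_›
  have hcomapM : (maximalIdeal O).comap (algebraMap ℤ_[p] O) = maximalIdeal ℤ_[p] :=
    ((local_hom_TFAE (algebraMap ℤ_[p] O)).out 0 4).1 ‹_›
  have hIJ : I ≤ J.comap Φ := by
    refine sup_le (Ideal.map_le_iff_le_comap.mpr fun c hc' => ?_) (Ideal.span_le.mpr ?_)
    · rw [Ideal.mem_comap, Ideal.mem_comap, hc]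
      exact algebraMap_mem_genIdeal _ _ (hmapM (Ideal.mem_map_of_mem _ hc'))
    · rintro _ ⟨i, rfl⟩
      refine Ideal.mem_comap.mpr (Set.mem_of_eq_of_mem ((hΦsub _ _).trans ?_)
        (sub_mem (sub_mem_genIdeal (baseElt O N 𝓟) (fun i => liftSys O avO i.1) i)
          (algebraMap_mem_genIdeal (baseElt O N 𝓟) (fun i => liftSys O avO i.1) (hlift i.1))))
      exact (congrArg₂ (· - ·) (hgen i) (hc _)).trans
        ((sub_sub_sub_cancel_right _ _ _).symm.trans (congrArg _ (hAsub _ _).symm))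
  -- the only maximal ideal avoiding the image of the idempotent
  have key : ∀ Q : Ideal (baseAlg O N 𝓟), Q.IsMaximal → 1 - Φ e ∈ Q → Q = J := by
    intro Q hQ hQe
    have heQ : Φ e ∉ Q := fun h => hQ.ne_top ((Ideal.eq_top_iff_one Q).mpr
      (by simpa using add_mem hQe h))
    have hQO : Q.comap (algebraMap O (baseAlg O N 𝓟)) = maximalIdeal O :=
      IsLocalRing.eq_maximalIdeal (Ideal.isMaximal_comap_of_isIntegral_of_isMaximal Q)
    have hQp : Q.comap Φ ≤ I := fun x hx => by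
      by_contra hxI
      obtain ⟨b, hb⟩ := he.exists_inv x hxI
      refine heQ ?_
      rw [← hb, map_mul, map_mul]
      exact Ideal.mul_mem_right _ _ (Ideal.mul_mem_right _ _ hx)
    have hmax : (Q.comap Φ).IsMaximal := by
      have hprime : (Q.comap Φ).IsPrime := Ideal.comap_isPrime Φ Q
      refine Ideal.isMaximal_of_isIntegral_of_isMaximal_comap (R := ℤ_[p]) _ ?_
      have : (Q.comap Φ).comap (algebraMap ℤ_[p] (baseAlg ℤ_[p] N 𝓟)) = maximalIdeal ℤ_[p] := by
        refine Ideal.ext fun c => ?_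
        rw [Ideal.mem_comap, Ideal.mem_comap, hc, ← Ideal.mem_comap, hQO]
        exact Ideal.ext_iff.1 hcomapM c
      rw [this]
      exact maximalIdeal.isMaximal _
    have hItop : I ≠ ⊤ := fun h => heQ (by
      rw [show e = 0 from he.eq_zero_of_top h, map_zero]
      exact zero_mem _)
    have hQI : Q.comap Φ = I := hmax.eq_of_le hItop hQp
    have hJQ : J ≤ Q := by
      refine sup_le (Ideal.map_le_iff_le_comap.mpr hQO.ge) (Ideal.span_le.mpr ?_)
      rintro _ ⟨i, rfl⟩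
      have h1 : Φ (baseElt ℤ_[p] N 𝓟 i - algebraMap ℤ_[p] _ (liftSys ℤ_[p] av i.1)) ∈ Q :=
        hQI.ge (sub_mem_genIdeal (baseElt ℤ_[p] N 𝓟) (fun i => liftSys ℤ_[p] av i.1) i)
      have h2 : algebraMap O (baseAlg O N 𝓟)
          (algebraMap ℤ_[p] O (liftSys ℤ_[p] av i.1) - liftSys O avO i.1) ∈ Q :=
        hQO.ge (hlift i.1)
      exact Set.mem_of_eq_of_mem ((sub_add_sub_cancel _ _ _).symm.trans (congrArg₂ (· + ·)
        ((hΦsub _ _).trans (congrArg₂ (· - ·) (hgen i) (hc _))).symm (hAsub _ _).symm))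
        (add_mem h1 h2)
    rcases genIdeal_isMaximal_or_top (baseElt O N 𝓟) (fun i => liftSys O avO i.1)
      (adjoin_baseElt O N 𝓟) with hJ | hJ
    · exact (hJ.eq_of_le hQ.ne_top hJQ).symm
    · exact absurd (top_le_iff.mp (hJ.symm.le.trans hJQ)) hQ.ne_top
  refine (isIdemAt_of_unique_maximal J (Φ e) ?_ ?_ key).unique (isIdemAt_baseIdem O N 𝓟 avO)
  · exact (map_mul Φ e e).symm.trans (congrArg Φ he.idem)
  · have := hIJ he.one_sub_mem
    rwa [Ideal.mem_comap, hΦsub, Φ.map_one] at this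

include havO in
/-- A basis of the part over `ℤ_p` is one of the part over `O`. -/
theorem extCl_basis {d : ℕ} (v : Fin d → clH ℤ_[p] N)
    (hfix : ∀ i, (baseIdem ℤ_[p] N 𝓟 av).1 (v i) = v i)
    (hbasis : ∀ x, (baseIdem ℤ_[p] N 𝓟 av).1 x = x → ∃! b : Fin d → ℤ_[p], ∑ i, b i • v i = x) :
    (∀ i, (baseIdem O N 𝓟 avO).1 (extCl O (v i)) = extCl O (v i)) ∧
    ∀ y, (baseIdem O N 𝓟 avO).1 y = y → ∃! b : Fin d → O, ∑ i, b i • extCl O (v i) = y := by
  set e := baseIdem ℤ_[p] N 𝓟 av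
  have he : ∀ x, (baseIdem O N 𝓟 avO).1 (extCl O x) = extCl O (e.1 x) := fun x => by
    rw [← extAlg_baseIdem O 𝓟 av avO havO]
    exact extAlg_apply O 𝓟 e x
  obtain ⟨r, γ, w, hw, hwO⟩ := exists_extBasis (p := p) N O
  have hee : ∀ x, e.1 (e.1 x) = e.1 x := fun x =>
    LinearMap.congr_fun (congrArg Subtype.val (isIdemAt_baseIdem ℤ_[p] N 𝓟 av).idem) x
  choose B hB using fun i => (hbasis (e.1 (w i)) (hee _)).exists
  have hVB : ∀ j, (fun l => ∑ i, (v j).1 (Additive.ofMul (γ i)) * B i l) = Pi.single j 1 :=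
      fun j => by
    refine (hbasis (v j) (hfix j)).unique ?_ ?_
    · conv_rhs => rw [← hfix j, hw (v j), map_sum]
      simp only [map_smul, ← hB, Finset.smul_sum, smul_smul, Finset.sum_smul]
      rw [Finset.sum_comm]
    · rw [Finset.sum_eq_single j (fun b _ hb => by simp [hb])
        (fun h => absurd (Finset.mem_univ j) h)]
      simp
  refine ⟨fun i => by rw [he, hfix], fun y hy => ?_⟩
  refine ⟨fun l => ∑ i, y.1 (Additive.ofMul (γ i)) * algebraMap ℤ_[p] O (B i l), ?_,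
    fun b hb => funext fun l => ?_⟩
  · refine Eq.trans ?_ (hy.symm.trans (congrArg ((baseIdem O N 𝓟 avO).1) (hwO y))).symm
    rw [map_sum]
    simp only [map_smul, he, ← hB, map_sum, extCl_smul, Finset.smul_sum, smul_smul,
      Finset.sum_smul]
    rw [Finset.sum_comm]
  · have hy' : ∀ i, y.1 (Additive.ofMul (γ i)) =
        ∑ j, b j * algebraMap ℤ_[p] O ((v j).1 (Additive.ofMul (γ i))) := fun i => by
      rw [← hb, AddSubmonoidClass.coe_finsetSum, AddMonoidHom.finsetSum_apply]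
      rfl
    simp only [hy', Finset.sum_mul, mul_assoc, ← map_mul]
    rw [Finset.sum_comm]
    simp only [← Finset.mul_sum, ← map_sum, fun j => congrFun (hVB j) l]
    rw [Finset.sum_eq_single l (fun j _ hj => by simp [Ne.symm hj])
      (fun h => absurd (Finset.mem_univ l) h)]
    simp

end BaseChange

/-! ### Change of basis -/

/-- Two bases of a part give inverse matrices intertwining the matrices of an operator. -/
theorem exists_changeOfBasis {O W : Type} [CommRing O] [AddCommGroup W] [Module O W]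
    (e : Module.End O W) {d d' : ℕ} (v : Fin d → W) (u : Fin d' → W)
    (hv : ∀ i, e (v i) = v i) (hu : ∀ i, e (u i) = u i)
    (hbv : ∀ x, e x = x → ∃! b : Fin d → O, ∑ i, b i • v i = x)
    (hbu : ∀ x, e x = x → ∃! b : Fin d' → O, ∑ i, b i • u i = x) :
    ∃ (P : Matrix (Fin d') (Fin d) O) (Q : Matrix (Fin d) (Fin d') O), P * Q = 1 ∧ Q * P = 1 ∧
      ∀ (a : Module.End O W) (A : Matrix (Fin d) (Fin d) O) (A' : Matrix (Fin d') (Fin d') O),
        (∀ j, a (v j) = ∑ i, A i j • v i) → (∀ j, a (u j) = ∑ i, A' i j • u i) →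
          P * A = A' * P := by
  choose P hP using fun j => (hbu (v j) (hv j)).exists
  choose Q hQ using fun j => (hbv (u j) (hu j)).exists
  have hsum : ∀ {n m l : ℕ} (c : Fin n → W) (g : Fin m → W) (X : Fin m → Fin n → O)
      (y : Fin l → Fin m → O), (∀ i, ∑ q, X i q • c q = g i) → ∀ j,
      ∑ q, (∑ i, X i q * y j i) • c q = ∑ i, y j i • g i := by
    intro n m l c g X y h j
    simp only [← h, Finset.smul_sum, smul_smul, Finset.sum_smul]
    rw [Finset.sum_comm]
    exact Finset.sum_congr rfl fun i _ => Finset.sum_congr rfl fun q _ => by rw [mul_comm]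
  have hone : ∀ {n : ℕ} (g : Fin n → W) (j : Fin n),
      ∑ i, (1 : Matrix (Fin n) (Fin n) O) i j • g i = g j := by
    intro n g j
    simp [Matrix.one_apply, ite_smul]
  let Pm : Matrix (Fin d') (Fin d) O := Matrix.of fun i j => P j i
  let Qm : Matrix (Fin d) (Fin d') O := Matrix.of fun i j => Q j i
  refine ⟨Pm, Qm, ?_, ?_, fun a A A' hA hA' => ?_⟩
  · refine Matrix.ext fun i j => congrFun ((hbu _ (hu j)).unique
      (y₁ := fun i => (Pm * Qm) i j) ?_ (hone u j)) i
    simp only [Matrix.mul_apply, Pm, Qm, Matrix.of_apply]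
    exact (hsum u v P Q hP j).trans (hQ j)
  · refine Matrix.ext fun i j => congrFun ((hbv _ (hv j)).unique
      (y₁ := fun i => (Qm * Pm) i j) ?_ (hone v j)) i
    simp only [Matrix.mul_apply, Pm, Qm, Matrix.of_apply]
    exact (hsum v u Q P hQ j).trans (hP j)
  · have hfix : ∀ j, e (a (v j)) = a (v j) := fun j => by
      rw [hA, map_sum]
      simp only [map_smul, hv]
    refine Matrix.ext fun i j => congrFun ((hbu _ (hfix j)).unique
      (y₁ := fun i => (Pm * A) i j) (y₂ := fun i => (A' * Pm) i j) ?_ ?_) i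
    · simp only [Matrix.mul_apply, Pm, Matrix.of_apply]
      exact (hsum u v P (fun j i => A i j) hP j).trans (hA j).symm
    · simp only [Matrix.mul_apply, Pm, Matrix.of_apply]
      refine (hsum u (fun i => a (u i)) (fun i q => A' q i) P (fun i => (hA' i).symm) j).trans ?_
      conv_rhs => rw [← hP j, map_sum]
      simp only [map_smul]

/-- An action on coordinates over a ring whose elements are all natural numbers is by matrices. -/
theorem exists_matrixHom {R H F : Type} [CommRing R] [AddCommGroup H] [Module R H] [CommRing F]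
    (hnat : ∀ c : F, ∃ n : ℕ, (n : F) = c) {n : Type} [Fintype n] [DecidableEq n]
    (f : (n → F) ≃+ H) : ∃ ψ : R →+* Matrix n n F, ∀ x u, f ((ψ x).mulVec u) = x • f u := by
  let ψ₀ : R →+* Module.End F (n → F) :=
    { toFun := fun x =>
        { toFun := fun u => f.symm (x • f u)
          map_add' := fun u u' => by rw [map_add f, smul_add, map_add f.symm]
          map_smul' := fun c u => by
            obtain ⟨m, rfl⟩ := hnat c
            rw [RingHom.id_apply, Nat.cast_smul_eq_nsmul, map_nsmul f, smul_comm,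
              map_nsmul f.symm, Nat.cast_smul_eq_nsmul] }
      map_one' := LinearMap.ext fun u => by
        show f.symm ((1 : R) • f u) = u
        rw [one_smul, f.symm_apply_apply]
      map_mul' := fun x y => LinearMap.ext fun u => by
        show f.symm ((x * y) • f u) = f.symm (x • f (f.symm (y • f u)))
        rw [mul_smul, f.apply_symm_apply]
      map_zero' := LinearMap.ext fun u => by
        show f.symm ((0 : R) • f u) = 0
        rw [zero_smul, map_zero]
      map_add' := fun x y => LinearMap.ext fun u => by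
        show f.symm ((x + y) • f u) = f.symm (x • f u) + f.symm (y • f u)
        rw [add_smul, map_add] }
  refine ⟨(LinearMap.toMatrixAlgEquiv' (R := F) (n := n)).toRingEquiv.toRingHom.comp ψ₀,
    fun x u => ?_⟩
  exact (congrArg f (LinearMap.congr_fun
    ((Matrix.toLinAlgEquiv'_toMatrixAlgEquiv' (ψ₀ x) :)) u)).trans (f.apply_symm_apply _)

/-- Inverse matrices carry the reductions of a representation by matrices to the endomorphisms of
the other residual coordinate module. -/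
theorem exists_conjHom {O T : Type} [CommRing O] [IsLocalRing O] [CommRing T] {d d' : ℕ}
    {P : Matrix (Fin d') (Fin d) O} {Q : Matrix (Fin d) (Fin d') O} (hPQ : P * Q = 1)
    (hQP : Q * P = 1) (A : T →+* Matrix (Fin d) (Fin d) O) :
    ∃ (f : (Fin d → ResidueField O) ≃+ (Fin d' → ResidueField O))
      (π : T →+* Module.End (ResidueField O) (Fin d' → ResidueField O)),
      (∀ u, f u = (P.map (residue O)).mulVec u) ∧
        ∀ x u, π x (f u) = f (((A x).map (residue O)).mulVec u) := by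
  let P' : Matrix (Fin d') (Fin d) (ResidueField O) := P.map (residue O)
  let Q' : Matrix (Fin d) (Fin d') (ResidueField O) := Q.map (residue O)
  have hPQ' : P' * Q' = 1 := by
    rw [← Matrix.map_mul, hPQ, Matrix.map_one _ (map_zero _) (map_one _)]
  have hQP' : Q' * P' = 1 := by
    rw [← Matrix.map_mul, hQP, Matrix.map_one _ (map_zero _) (map_one _)]
  let fP : (Fin d → ResidueField O) ≃ₗ[ResidueField O] (Fin d' → ResidueField O) :=
    LinearEquiv.ofLinearMap (Matrix.toLin' P') (Matrix.toLin' Q')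
      (by rw [← Matrix.toLin'_mul, hPQ', Matrix.toLin'_one])
      (by rw [← Matrix.toLin'_mul, hQP', Matrix.toLin'_one])
  refine ⟨fP.toAddEquiv, (LinearEquiv.conjAlgEquiv (ResidueField O) fP).toRingEquiv.toRingHom.comp
    ((Matrix.toLinAlgEquiv' (R := ResidueField O) (n := Fin d)).toRingEquiv.toRingHom.comp
      ((residue O).mapMatrix.comp A)), fun u => rfl, fun x u => ?_⟩
  show fP (Matrix.toLin' ((A x).map (residue O)) (fP.symm (fP u))) = _
  rw [fP.symm_apply_apply, Matrix.toLin'_apply]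
  rfl

/-- A map into the range of `π` factors through the quotient by its kernel. -/
theorem exists_lift_range {R T E : Type} [CommRing R] [CommRing T] [Ring E] (π : T →+* E)
    (Ψ : R →+* E) (h : ∀ x, Ψ x ∈ π.range) :
    ∃ Ψ' : R →+* T ⧸ RingHom.ker π, ∀ x, RingHom.kerLift π (Ψ' x) = Ψ x := by
  refine ⟨(RingHom.quotientKerEquivRange π).symm.toRingHom.comp (Ψ.codRestrict π.range h),
    fun x => ?_⟩
  obtain ⟨z, hz⟩ := Ideal.Quotient.mk_surjective
    ((RingHom.quotientKerEquivRange π).symm ⟨Ψ x, h x⟩)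
  have h1 := congrArg (fun b => Subtype.val (RingHom.quotientKerEquivRange π b)) hz
  simp only [RingEquiv.apply_symm_apply] at h1
  refine Eq.trans ?_ h1
  exact congrArg (RingHom.kerLift π) hz.symm

/-! ### Exactness -/

variable {N : ℕ} [NeZero N] {p : ℕ} [hp : Fact p.Prime] {S : Finset ℕ}
  (hNS : ∀ q, q.Prime → q ∣ N → q ∈ (↑S : Set ℕ))
  {k : Type} [Field k] [CharP k p] (θ : CuspForm.heckeAlgebra N 2 (↑S : Set ℕ) →+* k)
  (av : Nat.Primes → ResidueField ℤ_[p])

variable {θ av} in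
/-- The Hecke algebra acts on the residual coordinates of the eigen-part by the reductions of the
matrices on the lattice. -/
theorem exists_residual_matrixHom (hav : SysMatch θ av) {d : ℕ} (v : Fin d → clH ℤ_[p] N)
    (hfix : ∀ i, (baseIdem ℤ_[p] N (goodPrimes S) av).1 (v i) = v i)
    (hbasis : ∀ x, (baseIdem ℤ_[p] N (goodPrimes S) av).1 x = x →
      ∃! b : Fin d → ℤ_[p], ∑ i, b i • v i = x)
    (A : goodPrimes S → Matrix (Fin d) (Fin d) ℤ_[p])
    (hA : ∀ ℓ j, baseGen ℤ_[p] N (goodPrimes S) ℓ (v j) = ∑ i, A ℓ i j • v i) :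
    letI := imageModule (eigenHecke (tModel N p) hNS θ 1)
    ∃ (f : (Fin d → ResidueField ℤ_[p]) ≃+ eigenPart (tModel N p) hNS θ 1)
      (ψ : CuspForm.heckeAlgebra N 2 (↑S : Set ℕ) ⧸ RingHom.ker (eigenHecke (tModel N p) hNS θ 1)
        →+* Matrix (Fin d) (Fin d) (ResidueField ℤ_[p])),
      (∀ x u, f ((ψ x).mulVec u) = x • f u) ∧
      ∀ (ℓ : ℕ) (hℓ : ℓ.Prime) (hℓN : ¬ ℓ ∣ N) (hℓS : ℓ ∉ (↑S : Set ℕ)),
        ψ (Ideal.Quotient.mk _ (CuspForm.heckeAlgebra.T hℓ hℓN hℓS)) =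
          (A ⟨⟨ℓ, hℓ⟩, fun h => hℓS h⟩).map (residue ℤ_[p]) := by
  classical
  obtain ⟨χ, hsurj, hker, hsmul, hT⟩ := exists_clReduction N p hNS
  obtain ⟨F, hF⟩ := exists_residual_coords hNS θ χ (goodPrimes S) av (fun _ => Iff.rfl) hsmul hker
    hsurj hT hav v hfix hbasis
  obtain ⟨r, hr⟩ := exists_resHom (p := p)
  let f : (Fin d → ResidueField ℤ_[p]) ≃+ eigenPart (tModel N p) hNS θ 1 :=
    (AddEquiv.piCongrRight fun _ => r.toAddEquiv).trans F
  let := imageModule (eigenHecke (tModel N p) hNS θ 1)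
  -- scalars in the prime field are natural numbers
  have : NeZero (p ^ 1) := ⟨pow_ne_zero _ hp.out.ne_zero⟩
  have hnat : ∀ c : ResidueField ℤ_[p], ∃ n : ℕ, (n : ResidueField ℤ_[p]) = c := fun c =>
    ⟨(r c).val, r.injective (by rw [map_natCast, ZMod.natCast_zmod_val])⟩
  obtain ⟨ψ, hψ⟩ := exists_matrixHom
    (R := CuspForm.heckeAlgebra N 2 (↑S : Set ℕ) ⧸
      RingHom.ker (eigenHecke (tModel N p) hNS θ 1)) hnat f
  refine ⟨f, ψ, hψ, fun ℓ hℓ hℓN hℓS => ?_⟩
  have : NeZero ℓ := ⟨hℓ.ne_zero⟩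
  refine Matrix.ext_of_mulVec_single fun i => f.injective ?_
  rw [hψ, image_smul]
  refine Subtype.ext ?_
  rw [coe_eigenHecke]
  refine Eq.symm (Eq.trans ?_ (hF _ _ (hT ℓ hℓ hℓN hℓS) (A ⟨⟨ℓ, hℓ⟩, fun h => hℓS h⟩)
    (fun j => (hA ⟨⟨ℓ, hℓ⟩, fun h => hℓS h⟩ j :))
    fun l => r ((Pi.single i 1 : Fin d → ResidueField ℤ_[p]) l)))
  show Subtype.val (F fun l => r (((A _).map (residue ℤ_[p])).mulVec (Pi.single i 1) l)) = _
  congr 2
  funext l
  refine (RingHom.map_mulVec r.toRingHom _ _ l).trans (congrArg (fun X : Matrix (Fin d) (Fin d)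
    (ZMod (p ^ 1)) => X.mulVec (fun q => r ((Pi.single i 1 : Fin d → ResidueField ℤ_[p]) q)) l)
    ?_)
  rw [Matrix.map_map]
  exact Matrix.ext fun a b => hr _

variable {θ av} in
/-- **Exactness at the minimal level over a larger coefficient ring.** -/
theorem resBlock_exact_levelO [Finite k] (hp2 : p ≠ 2) (hG : TorsionGalois N p) (hpS : p ∈ S)
    (hav : SysMatch θ av)
    {O : Type} [CommRing O] [IsDomain O] [IsDiscreteValuationRing O]
    [IsAdicComplete (maximalIdeal O) O] [Finite (ResidueField O)] [Algebra ℤ_[p] O]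
    [IsLocalHom (algebraMap ℤ_[p] O)]
    (avO : Nat.Primes → ResidueField O)
    (havO : ∀ ℓ, avO ℓ = ResidueField.map (algebraMap ℤ_[p] O) (av ℓ))
    {d : ℕ} (v : Fin d → clH O N)
    (hfix : ∀ i, (baseIdem O N (goodPrimes S) avO).1 (v i) = v i)
    (hbasis : ∀ x, (baseIdem O N (goodPrimes S) avO).1 x = x →
      ∃! b : Fin d → O, ∑ i, b i • v i = x)
    {V : Type} [AddCommGroup V] [Module k V] (hV : Module.finrank k V = 2)
    (ρ : GQ →* Module.End k V)
    (hfin : ∃ L : IntermediateField ℚ Qbar, FiniteDimensional ℚ L ∧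
      ∀ g : GQ, (∀ x ∈ L, g x = x) → ρ g = 1)
    (hirr : ∀ W : Submodule k V, (∀ g, ∀ x ∈ W, ρ g x ∈ W) → W = ⊥ ∨ W = ⊤)
    (hfrob : ∀ (ℓ : ℕ) (hℓ : ℓ.Prime) (hℓN : ¬ ℓ ∣ N) (hℓS : ℓ ∉ (↑S : Set ℕ)),
      ∀ A : ValuationSubring Qbar, A.LiesOverPrime ℓ → ∀ g : GQ, A.IsFrobeniusAt g ℓ →
        LinearMap.trace k V (ρ g) = θ (CuspForm.heckeAlgebra.T hℓ hℓN hℓS) ∧
          LinearMap.det (ρ g) = (ℓ : k))
    {r : ℕ} (hr : 2 ≤ r) {φ σ : GQ} (hcyc : ∀ n, cyc p n φ = (r : ZMod (p ^ n)))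
    (I : MonodromyExact.ToricInputs (tModel N p) hNS θ r φ σ)
    (Tm : ℕ → Matrix (Fin d) (Fin d) O)
    (hTm : ∀ (ℓ : goodPrimes S) j,
      baseGen O N (goodPrimes S) ℓ (v j) = ∑ i, Tm (ℓ.1 : ℕ) i j • v i)
    {T₀ : Type} [CommRing T₀] [IsLocalRing T₀] [Algebra O T₀]
    (A₀ : T₀ →ₐ[O] Matrix (Fin d) (Fin d) O)
    (M₀ : GQ →* Matrix (Fin 2) (Fin 2) T₀) (hM₀ : AdicCont M₀)
    (hgen : ∀ x, A₀ x ∈ Algebra.adjoin O (Tm '' {ℓ | ℓ.Prime ∧ ℓ ∉ S}))
    (hgram : ∃ g : Fin 4 → GQ,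
      IsUnit (Matrix.of fun i j => Matrix.trace (M₀ (g i) * M₀ (g j))).det)
    (hfrob₀ : ∀ ℓ : ℕ, ℓ.Prime → ℓ ∉ S → ∀ A : ValuationSubring Qbar, A.LiesOverPrime ℓ →
      ∀ g : GQ, A.IsFrobeniusAt g ℓ → A₀ (M₀ g).trace = Tm ℓ ∧ (M₀ g).det = (ℓ : T₀))
    (w : Fin 2 × Fin d → ResidueField O)
    (hw : resBlock (A₀ : T₀ →+* Matrix (Fin d) (Fin d) O) (M₀ σ - 1) w = 0) :
    ∃ y, resBlock (A₀ : T₀ →+* Matrix (Fin d) (Fin d) O) (M₀ σ - 1) y = w := by
  classical
  rcases Nat.eq_zero_or_pos d with hd | hd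
  · subst hd
    exact ⟨w, funext fun q => q.2.elim0⟩
  -- the lattice over `ℤ_p` and the change of coordinates
  obtain ⟨d₁, v₁, hfix₁, hbasis₁⟩ := exists_idem_basis ℤ_[p] N (goodPrimes S) av
  obtain ⟨hufix, hubasis⟩ := extCl_basis O (goodPrimes S) av avO havO v₁ hfix₁ hbasis₁
  obtain ⟨P, Q, hPQ, hQP, hPA⟩ := exists_changeOfBasis (baseIdem O N (goodPrimes S) avO).1 v
    (fun i => extCl O (v₁ i)) hfix hufix hbasis hubasis
  have hd₁ : Nonempty (Fin d₁) := by
    by_contra h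
    rw [not_nonempty_iff] at h
    have h0 := congrFun (congrFun hQP ⟨0, hd⟩) ⟨0, hd⟩
    simp [Matrix.mul_apply] at h0
  -- coordinates over the prime field
  choose B₁ hB₁ using fun (ℓ : goodPrimes S) j =>
    (hbasis₁ (baseGen ℤ_[p] N (goodPrimes S) ℓ (v₁ j)) (by
      set a := baseElt ℤ_[p] N (goodPrimes S) ℓ with ha
      set e := baseIdem ℤ_[p] N (goodPrimes S) av
      calc e.1 (a.1 (v₁ j)) = a.1 (e.1 (v₁ j)) :=
            LinearMap.congr_fun (congrArg Subtype.val (mul_comm e a)) (v₁ j)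
        _ = a.1 (v₁ j) := by rw [hfix₁])).exists
  let T₁ : goodPrimes S → Matrix (Fin d₁) (Fin d₁) ℤ_[p] := fun ℓ =>
    Matrix.of fun i j => B₁ ℓ j i
  set φH := eigenHecke (tModel N p) hNS θ 1
  let := imageModule φH
  let Rimg := CuspForm.heckeAlgebra N 2 (↑S : Set ℕ) ⧸ RingHom.ker φH
  obtain ⟨f₁, ψ, hψ, hψT⟩ :=
    exists_residual_matrixHom hNS hav v₁ hfix₁ hbasis₁ T₁ fun ℓ j => (hB₁ ℓ j).symm
  have : Nontrivial (eigenPart (tModel N p) hNS θ 1) := f₁.symm.toEquiv.nontrivial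
  let ι : ResidueField ℤ_[p] →+* ResidueField O := ResidueField.map (algebraMap ℤ_[p] O)
  let : Algebra (ResidueField ℤ_[p]) (ResidueField O) := ι.toAlgebra
  have : Module.Finite (ResidueField ℤ_[p]) (ResidueField O) := .of_finite
  let Ψ : Rimg →+* Module.End (ResidueField O) (Fin d₁ → ResidueField O) :=
    (Matrix.toLinAlgEquiv' (R := ResidueField O) (n := Fin d₁)).toRingEquiv.toRingHom.comp
      (ι.mapMatrix.comp ψ)
  -- the operators in both coordinates
  obtain ⟨fP, π, hfP, hπ⟩ := exists_conjHom hPQ hQP (A₀ : T₀ →+* Matrix (Fin d) (Fin d) O)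
  have hπT : ∀ (ℓ : ℕ) (hℓ : ℓ.Prime) (hℓN : ¬ ℓ ∣ N) (hℓS : ℓ ∉ (↑S : Set ℕ))
      (A : ValuationSubring Qbar), A.LiesOverPrime ℓ → ∀ g : GQ, A.IsFrobeniusAt g ℓ →
      π (trace (M₀ g)) = Ψ (Ideal.Quotient.mk _ (CuspForm.heckeAlgebra.T hℓ hℓN hℓS)) := by
    intro ℓ hℓ hℓN hℓS A hA g hg
    have : NeZero ℓ := ⟨hℓ.ne_zero⟩
    set i : goodPrimes S := ⟨⟨ℓ, hℓ⟩, fun h => hℓS h⟩
    have hc : P * Tm ℓ = (T₁ i).map (algebraMap ℤ_[p] O) * P :=
      hPA (baseGen O N (goodPrimes S) i) _ _ (hTm i) fun j => by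
        refine (baseOp_extCl O ℓ (v₁ j)).trans ?_
        rw [show baseOp ℤ_[p] N ℓ (v₁ j) = ∑ q, B₁ i j q • v₁ q from (hB₁ i j).symm, map_sum]
        simp only [extCl_smul, Matrix.map_apply, T₁, Matrix.of_apply]
    refine LinearMap.ext fun u => ?_
    obtain ⟨u, rfl⟩ := fP.surjective u
    rw [hπ]
    show _ = ((ψ _).map ι).mulVec (fP u)
    rw [hfP, hfP, AlgHom.coe_toRingHom, (hfrob₀ ℓ hℓ (fun h => hℓS h) A hA g hg).1,
      hψT ℓ hℓ hℓN hℓS, mulVec_mulVec, mulVec_mulVec, Matrix.map_map,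
      ← Matrix.map_mul (f := residue O), hc, Matrix.map_mul, Matrix.map_map]
    congr 2
  -- the ring through which everything factors
  have hrange : ∀ x : Rimg, Ψ x ∈ π.range := by
    intro x
    obtain ⟨t, rfl⟩ := Ideal.Quotient.mk_surjective x
    exact forall_mem_of_T_mem (fun q hq hq' => hNS q hq' hq)
      (Ψ.comp (Ideal.Quotient.mk (RingHom.ker φH))) π.range (fun ℓ hℓ hℓN hℓS => by
        have : Fact ℓ.Prime := ⟨hℓ⟩
        obtain ⟨g, hg⟩ := Gal.exists_isFrobeniusAt hℓ (PT.padicPlace_liesOverPrime (q := ℓ))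
        exact ⟨_, hπT ℓ hℓ hℓN hℓS _ PT.padicPlace_liesOverPrime g hg⟩) t
  let Bq := T₀ ⧸ RingHom.ker π
  obtain ⟨Ψ', hkl⟩ := exists_lift_range π Ψ hrange
  let mk₀ : T₀ →+* Bq := Ideal.Quotient.mk (RingHom.ker π)
  let : Module Bq (Fin d₁ → ResidueField O) := Module.compHom _ (RingHom.kerLift π)
  have : Nontrivial (Module.End (ResidueField O) (Fin d₁ → ResidueField O)) := inferInstance
  have : Finite (Module.End (ResidueField O) (Fin d₁ → ResidueField O)) :=
    Finite.of_injective (fun g => ⇑g) DFunLike.coe_injective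
  have : Finite Bq := Finite.of_injective _ (RingHom.kerLift_injective π)
  have : Nontrivial Bq := Ideal.Quotient.nontrivial_iff.2 (RingHom.ker_ne_top π)
  have : IsLocalRing Bq := .of_surjective' mk₀ Ideal.Quotient.mk_surjective
  obtain ⟨n, hn⟩ := PatchBase.exists_pow_le_ker mk₀
  -- the representation over the image of the Hecke algebra
  obtain ⟨m₁, hex₁, htr₁⟩ :=
    exists_frame (tModel N p) hNS θ hp2 hG hpS hV ρ hfin hirr hfrob hr hcyc I
  let m' : GQ →* Matrix (Fin 2) (Fin 2) Bq := Ψ'.mapMatrix.toMonoidHom.comp m₁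
  have hex' : ∀ u : Fin 2 → Fin d₁ → ResidueField O, matAct (m' σ - 1) u = 0 →
      ∃ y, matAct (m' σ - 1) y = u := by
    have hm' : m' σ - 1 = (m₁ σ - 1).map Ψ' :=
      (congrArg (m' σ - ·) (map_one Ψ'.mapMatrix).symm).trans (map_sub Ψ'.mapMatrix (m₁ σ) 1).symm
    rw [hm']
    refine exact_baseChange (fun x => ψ x) f₁ hψ Ψ' (fun x u => ?_) _ hex₁
    show RingHom.kerLift π (Ψ' x) u = _
    rw [hkl]
    rfl
  -- back to coordinates
  refine resBlock_exact_of_map (A₀ : T₀ →+* Matrix (Fin d) (Fin d) O) fP mk₀ (fun x u => hπ x u)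
    (M₀ σ - 1) _ rfl (matAct_exact_of_traces M₀ hM₀ hgram mk₀ hn m' (fun g L hL => ?_) σ hex')
    w hw
  obtain ⟨ℓ, hℓ, hℓN, hℓS, A, τ, j, hA, hτ, hLg, ht⟩ := htr₁ g L hL
  refine ⟨τ, j, ℓ, hLg, (hfrob₀ ℓ hℓ (fun h => hℓS h) A hA τ hτ).2, ?_⟩
  show trace (Ψ'.mapMatrix (m₁ g)) = _
  rw [show trace (Ψ'.mapMatrix (m₁ g)) = Ψ' (trace (m₁ g)) from
    (AddMonoidHom.map_trace Ψ'.toAddMonoidHom (m₁ g)).symm, ht, map_powTrace, map_natCast]
  congr 1
  refine RingHom.kerLift_injective π ?_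
  rw [hkl]
  exact (hπT ℓ hℓ hℓN hℓS A hA τ hτ).symm

end Fermat.Agent.LevelLowering.Scalar
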