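import Fermat.Agent.LevelLowering.FreyFacts
import Fermat.Agent.LevelLowering.Scalar.FreyLevel
import Fermat.Agent.LevelLowering.Scalar.PointsGlue
import Fermat.Agent.LevelLowering.Scalar.TWPrimes

/-!
# The local conditions above a minimal level of a Frey representation

Flatness at `p`, unipotence at the level and unramifiedness elsewhere at the eigensystems put the
tangent classes into the strict space.
-/

noncomputable section

namespace Fermat.Agent.LevelLowering.Scalar

open Module IsLocalRing Matrix Polynomial Fermat.Agent.Gal Fermat.Agent.PT Fermat.Agent.PT.Lv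
open Fermat.Agent.TW Fermat.Agent.LevelLowering.MazurPrinciple

local notation "Qbar" => AlgebraicClosure ℚ

variable (P : FreyPackage) [Fact P.p.Prime] [P.freyCurve.IsElliptic]

/-- `E[p]` is ramified at `2`. -/
theorem not_isUnramifiedAt_two_curveRes : ¬ (curveRes P.p P.freyCurve).IsUnramifiedAt 2 := by
  intro h
  refine not_galoisRepUnramifiedAt_two P fun A hA σ hσ x => ?_
  have h1 : rbar (curveBasis P.p P.freyCurve) σ = 1 := by
    show LinearMap.toMatrixAlgEquiv _ ((curveRes P.p P.freyCurve).ρ σ) = 1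
    rw [h A hA σ hσ, map_one]
  replace h1 := (rbar_curveBasis P.p P.freyCurve σ).symm.trans h1
  have h2 : matrixRep (curveBasis₀ P.p P.freyCurve) (EC.residualRep P.freyCurve P.p).ρ σ = 1 :=
    Matrix.map_injective (toPadicRes P.p).injective
      (h1.trans (Matrix.map_one _ (map_zero _) (map_one _)).symm)
  have h3 : (EC.residualRep P.freyCurve P.p).ρ σ = 1 :=
    (LinearMap.toMatrixAlgEquiv (curveBasis₀ P.p P.freyCurve)).injective
      (h2.trans (map_one _).symm)
  exact LinearMap.congr_fun h3 x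

variable {P} {M : ℕ} [NeZero M] (Lv : FreyLevel P M)

theorem FreyLevel.mem_natSet {l : ℕ} (hl : l.Prime) (hl2 : l ≠ 2) (hlM : l ∣ M) :
    l ∈ natSet Lv.SP.primes := by
  obtain ⟨i, hi⟩ := (Lv.r_mem l).mpr ⟨hl, hl2, hlM⟩
  exact Finset.mem_map.mpr ⟨(⟨Lv.SP.r i, Lv.SP.prime i⟩ : Nat.Primes),
    Finset.mem_image.mpr ⟨i, Finset.mem_univ _, rfl⟩, hi⟩

variable {T : Type} [CommRing T] [IsLocalRing T] [IsNoetherianRing T]
  [IsAdicComplete (maximalIdeal T) T] [Algebra ℤ_[P.p] T] [IsLocalHom (algebraMap ℤ_[P.p] T)]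
  {ρ : GaloisRepAdic T} {ι : Type} [Finite ι] {F : ι → Type} [∀ a, CommRing (F a)]
  [∀ a, IsLocalRing (F a)] [∀ a, IsNoetherianRing (F a)]
  {ψ : ∀ a, T →+* F a} {hψ : ∀ a, IsLocalHom (ψ a)}
  (hinj : ∀ x, (∀ a, ψ a x = 0) → x = 0) (ρpt : ∀ a, GaloisRepAdic (F a))
  (heq : ∀ a, (ρ.baseChangeAlong (ψ a) (hψ a)).IsEquiv (ρpt a))

include hinj heq in
/-- **The strict classes.** -/
theorem FreyLevel.tanCocycle_mem (hres : Function.Surjective (residue T ∘ algebraMap ℤ_[P.p] T))
    {D : ℕ} (qv : Fin D → ℕ)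
    (hflat : ∀ a, (ρpt a).IsFlatAt P.p)
    (hunr : ∀ a, ∀ l : ℕ, l.Prime → l ≠ P.p → ¬ l ∣ M → (∀ i, qv i ≠ l) →
      (ρpt a).IsUnramifiedAt l)
    (hunip : ∀ a, 2 ∣ M → (ρpt a).IsUnipotentOnInertiaAt 2)
    {b : Basis (Fin 2) T ρ.V} (hb : Adapted (curveBasis P.p P.freyCurve) hres ρ b)
    (hdet : ρ.DetIsCyclotomic P.p)
    (L : Submodule (ResidueField ℤ_[P.p]) ((decQ ((pP P.p : Nat.Primes) : ℕ) →
      sl2 (ResidueField ℤ_[P.p])) ⧸ B1 (resRep (adRep (rbar (curveBasis P.p P.freyCurve)))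
        (decQ ((pP P.p : Nat.Primes) : ℕ)))))
    (hloc : ∀ c ∈ Z1 lvQ (adRep (rbar (curveBasis P.p P.freyCurve))),
      (∃ (ρ' : GaloisRepAdic (DualNumber (ResidueField ℤ_[P.p])))
          (b' : Basis (Fin 2) (DualNumber (ResidueField ℤ_[P.p])) ρ'.V),
        ρ'.IsFlatAt P.p ∧ ∀ g, matrixRep b' ρ'.ρ g =
          (rbar (curveBasis P.p P.freyCurve) g).map TrivSqZeroExt.inl +
            ((c g : M2 (ResidueField ℤ_[P.p])) * rbar (curveBasis P.p P.freyCurve) g).map
              TrivSqZeroExt.inr) →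
      c ∈ condAt (adRep (rbar (curveBasis P.p P.freyCurve))) L)
    (δ : tangent hres)
    (hδ : ∀ i, ∀ h ∈ (Lv.SP.A i).decompositionSubgroup ℚ, tanCocycle hb hdet δ h = 0) :
    tanCocycle hb hdet δ ∈
      Lv.SP.strictSpace (condAt (adRep (rbar (curveBasis P.p P.freyCurve))) L) qv := by
  have := MazurPrinciple.finite_padicRes P.p
  have : Finite (ResidueField T) :=
    Finite.of_surjective (ResidueField.map (algebraMap ℤ_[P.p] T)) fun y => by
      obtain ⟨a, rfl⟩ := hres y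
      exact ⟨residue ℤ_[P.p] a, ResidueField.map_residue _ a⟩
  refine Lv.SP.tanCocycle_mem_strictSpace_of_flat (by have := P.hp5; omega) hb hdet
    (isFlatAt_of_points (hψ := hψ) hinj fun a => isFlatAt_congr (heq a) (hflat a)) L hloc qv
    (fun l hl hlU => ?_) δ hδ
  simp only [Finset.mem_insert, Finset.mem_union, Finset.mem_image, Finset.mem_univ, true_and,
    not_or, not_exists] at hlU
  by_cases hlM : l ∣ M
  · obtain rfl : l = 2 := by_contra fun hl2 => hlU.2.1 (Lv.mem_natSet hl hl2 hlM)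
    exact Or.inr ⟨isUnipotentOnInertiaAt_of_points (hψ := hψ) hinj fun a =>
      isUnipotentOnInertiaAt_congr (heq a) (hunip a hlM), not_isUnramifiedAt_two_curveRes P⟩
  · exact Or.inl (isUnramifiedAt_of_points (hψ := hψ) hinj fun a =>
      isUnramifiedAt_congr (heq a) (hunr a l hl hlU.1 hlM hlU.2.2))

end Fermat.Agent.LevelLowering.Scalar
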