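import Mathlib.NumberTheory.Padics.PadicVal.Basic
import Fermat.Agent.LevelLowering.FreeTW
import Fermat.Agent.LevelLowering.TWEigen

/-!
# The level and the residual systems of a choice of Taylor–Wiles primes

For distinct primes `q` prime to `M` with `p ^ (n + 1) ∣ q - 1`: the level `N = M ∏ q` with its
character onto `∏ ℤ/p^(lv i)` with exact exponents, and systems of roots at the `q` for any choice
of roots of the residual characteristic polynomials.
-/

noncomputable section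

namespace Fermat.Agent.LevelLowering.Scalar

open IsLocalRing Polynomial

variable {p : ℕ} [Fact p.Prime] {D : ℕ} {qv : Fin D → ℕ}

/-- **The level of a choice of Taylor–Wiles primes**: its set of primes, the exact exponents and
the character. -/
theorem exists_twLevel (hp2 : p ≠ 2) (M : ℕ) [NeZero M] (n : ℕ) (hinj : Function.Injective qv)
    (hprime : ∀ i, (qv i).Prime) (hM : ∀ i, ¬ qv i ∣ M) (hdvd : ∀ i, p ^ (n + 1) ∣ qv i - 1) :
    ∃ (Q : Finset Nat.Primes) (N : ℕ) (_ : NeZero N) (lv : Fin D → ℕ) (hN : ∀ i, qv i ∣ N)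
      (π : ∀ i, (ZMod (qv i))ˣ →* Multiplicative (ZMod (p ^ lv i)))
      (Ψ : (ZMod N)ˣ →* DiaGroup p lv),
      N = M * ∏ l ∈ Q, (l : ℕ) ∧ (∀ l : Nat.Primes, l ∈ Q ↔ ∃ i, qv i = l) ∧
      (∀ l : ℕ, l.Prime → l ∣ N → l ∣ M ∨ ∃ i, qv i = l) ∧
      (∀ i, n < lv i) ∧ (∀ i, p ^ lv i ∣ qv i - 1) ∧ (∀ i, ¬ p ^ (lv i + 1) ∣ qv i - 1) ∧
      Function.Surjective Ψ ∧ IsTWLevel hN π Ψ := by
  classical
  let f : Fin D → Nat.Primes := fun i => ⟨qv i, hprime i⟩
  let Q : Finset Nat.Primes := Finset.univ.image f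
  have hQ : ∀ l : Nat.Primes, l ∈ Q ↔ ∃ i, qv i = l := fun l => by
    simp only [Q, Finset.mem_image, Finset.mem_univ, true_and]
    exact exists_congr fun i => ⟨fun h => congrArg Subtype.val h, fun h => Subtype.ext h⟩
  let N : ℕ := M * ∏ l ∈ Q, (l : ℕ)
  have : NeZero N := ⟨mul_ne_zero (NeZero.ne M)
    (Finset.prod_ne_zero_iff.mpr fun l _ => l.2.ne_zero)⟩
  have hdvdN : ∀ i, qv i ∣ N := fun i =>
    dvd_mul_of_dvd_right (Finset.dvd_prod_of_mem (fun l : Nat.Primes => (l : ℕ))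
      ((hQ ⟨qv i, hprime i⟩).mpr ⟨i, rfl⟩)) M
  have hne0 : ∀ i, qv i - 1 ≠ 0 := fun i => by have := (hprime i).one_lt; omega
  have hv : ∀ i, p ^ padicValNat p (qv i - 1) ∣ qv i - 1 := fun i => pow_padicValNat_dvd
  obtain ⟨π, Ψ, hΨ, hπ, hcomp⟩ := exists_twPsi (lv := fun i => padicValNat p (qv i - 1)) qv hprime
    hinj hv hdvdN
  refine ⟨Q, N, ‹_›, _, hdvdN, π, Ψ, rfl, hQ, fun l hl hlN => ?_,
    fun i => (padicValNat_dvd_iff_le (p := p) (hne0 i)).mp (hdvd i), hv,
    fun i h => absurd ((padicValNat_dvd_iff_le (p := p) (hne0 i)).mp h) (Nat.not_succ_le_self _),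
    hΨ, hp2, hprime, hinj, hπ, hcomp, fun i hd => ?_⟩
  · rcases hl.dvd_mul.mp hlN with h | h
    · exact Or.inl h
    · obtain ⟨x, hx, hlx⟩ := (hl.prime.dvd_finsetProd_iff _).mp h
      obtain ⟨i, hi⟩ := (hQ x).mp hx
      exact Or.inr ⟨i, hi.trans ((Nat.prime_dvd_prime_iff_eq hl x.2).mp hlx).symm⟩
  have hN' : qv i * (M * ∏ l ∈ Q.erase (f i), (l : ℕ)) = N := by
    rw [show N = M * ((f i : ℕ) * ∏ l ∈ Q.erase (f i), (l : ℕ)) from
      congrArg (M * ·) (Finset.mul_prod_erase Q (fun l : Nat.Primes => (l : ℕ))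
        (Finset.mem_image_of_mem f (Finset.mem_univ i))).symm]
    ring
  rw [← hN'] at hd
  rcases (hprime i).dvd_mul.mp (Nat.dvd_of_mul_dvd_mul_left (hprime i).pos hd) with h | h
  · exact hM i h
  · obtain ⟨x, hx, hlx⟩ := ((hprime i).prime.dvd_finsetProd_iff _).mp h
    exact (Finset.mem_erase.mp hx).1
      (Subtype.ext ((Nat.prime_dvd_prime_iff_eq (hprime i) x.2).mp hlx)).symm

omit [Fact (Nat.Prime p)] in
/-- A Taylor–Wiles prime is `1` in a field of characteristic `p`. -/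
theorem natCast_eq_one_of_dvd_sub {k : Type} [Field k] [CharP k p] {q n : ℕ} (hq : q.Prime)
    (h : p ^ (n + 1) ∣ q - 1) : (q : k) = 1 := by
  have h2 := (CharP.cast_eq_zero_iff k p _).mpr ((dvd_pow_self p n.succ_ne_zero).trans h)
  rwa [Nat.cast_sub hq.one_lt.le, Nat.cast_one, sub_eq_zero] at h2

omit [Fact p.Prime] in
/-- The roots of a split `X² - a X + 1`. -/
theorem mul_eq_one_and_add_eq_of_split {k : Type} [Field k] {a c α β : k} (hc : c = 1)
    (h : X ^ 2 - C a * X + C c = (X - C α) * (X - C β)) : α * β = 1 ∧ α + β = a := by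
  have h0 := congrArg (fun F : Polynomial k => F.coeff 0) h
  have h1 := congrArg (fun F : Polynomial k => F.coeff 1) h
  simp [mul_sub, sub_mul, coeff_X, coeff_X_pow, coeff_C, coeff_mul_C] at h0 h1
  exact ⟨by rw [← hc]; linear_combination -h0, by linear_combination h1⟩

/-- **Systems of roots** at a choice of primes, from roots at each of them. -/
theorem exists_rootSystems {O : Type} [CommRing O] [IsLocalRing O] {Q : Finset Nat.Primes}
    (hinj : Function.Injective qv) (hprime : ∀ i, (qv i).Prime)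
    (hQ : ∀ l : Nat.Primes, l ∈ Q ↔ ∃ i, qv i = l) (sys : Nat.Primes → ResidueField O)
    (Pred : Fin D → ResidueField O → ResidueField O → Prop)
    (h : ∀ i, ∃ α β, α ≠ β ∧ α * β = 1 ∧ α + β = sys ⟨qv i, hprime i⟩ ∧ Pred i α β) :
    ∃ α β : Nat.Primes → ResidueField O, (∀ l ∈ Q, α l * β l = 1) ∧ (∀ l ∈ Q, α l ≠ β l) ∧
      sysBot O Q α β sys = sys ∧ ∀ i, Pred i (α ⟨qv i, hprime i⟩) (β ⟨qv i, hprime i⟩) := by
  classical
  let f : Fin D → Nat.Primes := fun i => ⟨qv i, hprime i⟩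
  have hf : Function.Injective f := fun a b h => hinj (congrArg Subtype.val h)
  choose a b hne hmul hadd hP using h
  have hext : ∀ (g : Fin D → ResidueField O) i,
      Function.extend f g 0 ⟨qv i, hprime i⟩ = g i := fun g i => hf.extend_apply _ _ i
  have hQ' : ∀ l ∈ Q, ∃ i, (⟨qv i, hprime i⟩ : Nat.Primes) = l := fun l hl => by
    obtain ⟨i, hi⟩ := (hQ l).mp hl
    exact ⟨i, Subtype.ext hi⟩
  refine ⟨Function.extend f a 0, Function.extend f b 0, fun l hl => ?_, fun l hl => ?_,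
    funext fun l => ?_, fun i => ?_⟩
  · obtain ⟨i, rfl⟩ := hQ' l hl
    rw [hext, hext, hmul]
  · obtain ⟨i, rfl⟩ := hQ' l hl
    rw [hext, hext]
    exact hne i
  · by_cases hl : l ∈ Q
    · obtain ⟨i, rfl⟩ := hQ' l hl
      simp only [sysBot, if_pos hl]
      rw [hext, hext]
      exact hadd i
    · simp only [sysBot, if_neg hl]
  · rw [hext, hext]
    exact hP i

end Fermat.Agent.LevelLowering.Scalar
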