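import Fermat.Agent.LevelLowering.Scalar.FreyLevel
import Fermat.Agent.LevelLowering.Scalar.TWChoice
import Fermat.Agent.LoweringAtP.HeckeCompat.Eisenstein

/-!
# Taylor–Wiles data of the Frey minimal level

Auxiliary primes with split Frobenius give, for each `n`, the level `N = M ∏ q`, its character onto
`∏ ℤ/p^(lv i)` (`lv i > n` exact), the roots of Frobenius at each `q` and the hypotheses of
freeness and of the existence of points.
-/

noncomputable section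

namespace Fermat.Agent.LevelLowering.Scalar

open Module IsLocalRing Matrix WeierstrassCurve WeierstrassCurve.Affine.Point
open CongruenceSubgroup Fermat.Agent.Gal Fermat.Agent.PT Fermat.Agent.PT.Lv Fermat.Agent.TW
  Fermat.Agent.Ihara Fermat.Agent.LoweringAtP.HeckeCompat Fermat.Agent.Grp
open scoped WeierstrassCurve.Affine MatrixGroups

local notation "Qbar" => AlgebraicClosure ℚ
local notation "GQ" => (AlgebraicClosure ℚ ≃ₐ[ℚ] AlgebraicClosure ℚ)

section Elliptic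

/-- An element of `Γ₀(N)` with small trace gives a twelfth root of unity at each prime of `N`. -/
theorem entry_pow_twelve {N q : ℕ} (hq : q.Prime) (hqN : q ∣ N) (g : Gamma0 N)
    (htr : |tr (g : SL(2, ℤ))| ≤ 2) : ((((g : SL(2, ℤ)).1 1 1 : ℤ)) : ZMod q) ^ 12 = 1 := by
  have : Fact q.Prime := ⟨hq⟩
  set a : ZMod q := (((g : SL(2, ℤ)).1 0 0 : ℤ) : ZMod q)
  set d : ZMod q := (((g : SL(2, ℤ)).1 1 1 : ℤ) : ZMod q)
  have hdet := (g : SL(2, ℤ)).2
  rw [Matrix.det_fin_two] at hdet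
  have hc : (((g : SL(2, ℤ)).1 1 0 : ℤ) : ZMod q) = 0 :=
    (ZMod.intCast_zmod_eq_zero_iff_dvd _ q).mpr ((Int.natCast_dvd_natCast.mpr hqN).trans
      ((ZMod.intCast_zmod_eq_zero_iff_dvd _ N).mp (Gamma0_mem.mp g.2)))
  have h1 : a * d = 1 := by
    have h := congrArg (Int.cast : ℤ → ZMod q) hdet
    push_cast at h
    rw [hc, mul_zero, sub_zero] at h
    exact h
  have h2 : a + d = ((tr (g : SL(2, ℤ)) : ℤ) : ZMod q) := by
    rw [show tr (g : SL(2, ℤ)) = (g : SL(2, ℤ)).1 0 0 + (g : SL(2, ℤ)).1 1 1 from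
      Matrix.trace_fin_two _, Int.cast_add]
  have hqd : d * d - ((tr (g : SL(2, ℤ)) : ℤ) : ZMod q) * d + 1 = 0 := by
    rw [← h2]; linear_combination -h1
  rcases abs_le.mp htr with ⟨hlo, hhi⟩
  generalize tr (g : SL(2, ℤ)) = t at hqd hlo hhi
  interval_cases t <;> push_cast at hqd
  · rw [eq_neg_of_add_eq_zero_left (sq_eq_zero_iff.mp
      (show (d + 1) ^ 2 = 0 by linear_combination hqd))]
    norm_num
  · rw [show 12 = 3 * 4 from rfl, pow_mul,
      show d ^ 3 = 1 by linear_combination (d - 1) * hqd, one_pow]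
  · rw [show 12 = 2 * 6 from rfl, pow_mul, show d ^ 2 = -1 by linear_combination hqd]; norm_num
  · rw [show 12 = 3 * 4 from rfl, pow_mul, show d ^ 3 = -1 by linear_combination (d + 1) * hqd]
    norm_num
  · rw [sub_eq_zero.mp (sq_eq_zero_iff.mp (show (d - 1) ^ 2 = 0 by linear_combination hqd))]
    norm_num

/-- A character onto a `p`-group component by component kills small traces, `p ≥ 5`. -/
theorem dChar_eq_one_of_tr {p r : ℕ} [Fact p.Prime] (h5 : 5 ≤ p) {lv : Fin r → ℕ} {q : Fin r → ℕ}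
    {N : ℕ} (hq : ∀ i, (q i).Prime) (hN : ∀ i, q i ∣ N)
    (π : ∀ i, (ZMod (q i))ˣ →* Multiplicative (ZMod (p ^ lv i)))
    (Ψ : (ZMod N)ˣ →* DiaGroup p lv)
    (hcomp : ∀ i u, diaProj i (Ψ u) = π i (ZMod.unitsMap (hN i) u)) (g : Gamma0 N)
    (htr : |tr (g : SL(2, ℤ))| ≤ 2) : dChar Ψ g = 1 := by
  have hp : p.Prime := Fact.out
  have h12 : dChar Ψ g ^ 12 = 1 := by
    rw [← prod_diaIncl_proj (dChar Ψ g ^ 12)]
    refine Finset.prod_eq_one fun i _ => ?_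
    have hu : ZMod.unitsMap (hN i) ((Gamma0Map N).toHomUnits g) ^ 12 = 1 := by
      refine Units.ext ?_
      rw [Units.val_pow_eq_pow_val, Units.val_one, ZMod.unitsMap_val]
      show (((((g : SL(2, ℤ)).1 1 1 : ℤ)) : ZMod N).cast : ZMod (q i)) ^ 12 = 1
      rw [ZMod.cast_intCast (hN i)]
      exact entry_pow_twelve (hq i) (hN i) g htr
    rw [map_pow, show diaProj i (dChar Ψ g) = π i (ZMod.unitsMap (hN i) _) from hcomp i _,
      ← map_pow (π i), hu, map_one, map_one]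
  obtain ⟨k, hk⟩ := isPGroup_diaGroup (p := p) (dChar Ψ g)
  have hcop : (p ^ k).Coprime 12 :=
    ((Nat.coprime_primes hp Nat.prime_two).mpr (by omega) |>.mul_right
    (((Nat.coprime_primes hp Nat.prime_two).mpr (by omega)).mul_right
      ((Nat.coprime_primes hp Nat.prime_three).mpr (by omega)))).pow_left k
  rw [← pow_one (dChar Ψ g), ← hcop.gcd_eq_one, pow_gcd_eq_one]
  exact ⟨hk, h12⟩

/-- For `p ≥ 5` the subgroup cut out by the diamond character contains `-1`. -/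
theorem neg_one_mem_GammaPsi {p r : ℕ} [Fact p.Prime] (h5 : 5 ≤ p) {lv : Fin r → ℕ} {q : Fin r → ℕ}
    {N : ℕ} (hq : ∀ i, (q i).Prime) (hN : ∀ i, q i ∣ N)
    (π : ∀ i, (ZMod (q i))ˣ →* Multiplicative (ZMod (p ^ lv i)))
    (Ψ : (ZMod N)ˣ →* DiaGroup p lv)
    (hcomp : ∀ i u, diaProj i (Ψ u) = π i (ZMod.unitsMap (hN i) u)) :
    (-1 : SL(2, ℤ)) ∈ GammaPsi Ψ := by
  refine (mem_GammaPsi Ψ ⟨-1, neg_one_mem_Gamma0 N⟩).mpr
    (dChar_eq_one_of_tr h5 hq hN π Ψ hcomp _ ?_)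
  show |Matrix.trace ((-1 : SL(2, ℤ)) : Matrix (Fin 2) (Fin 2) ℤ)| ≤ 2
  simp

end Elliptic

section Residual

variable (P : FreyPackage) [Fact P.p.Prime] [P.freyCurve.IsElliptic]

/-- Frobenius of the residual representation of the Frey curve at a good prime. -/
theorem charpoly_curveRes {W : WeierstrassCurve ℤ} (hW : W.IsIntegralModelOf P.freyCurve) {ℓ : ℕ}
    (hℓ : ℓ.Prime) (hℓp : ℓ ≠ P.p) (hgood : W.IsGoodPrimeFor ℓ) {A : ValuationSubring Qbar}
    (hA : A.LiesOverPrime ℓ) {σ : GQ} (hσ : A.IsFrobeniusAt σ ℓ) :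
    LinearMap.charpoly ((MazurPrinciple.curveRes P.p P.freyCurve).ρ σ) =
      Polynomial.X ^ 2 - Polynomial.C (intSys (p := P.p) W.apOfModel ⟨ℓ, hℓ⟩) * Polynomial.X +
        Polynomial.C (ℓ : ResidueField ℤ_[P.p]) := by
  let : Algebra (ZMod P.p) (ResidueField ℤ_[P.p]) := (MazurPrinciple.toPadicRes P.p).toAlgebra
  obtain ⟨ht, hd⟩ := frey_trace_det_frobenius P hW hℓ hℓp hgood hA hσ
  refine (LinearMap.charpoly_baseChange ((EC.residualRep P.freyCurve P.p).ρ σ)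
    (ResidueField ℤ_[P.p])).trans ?_
  rw [Gal.charpoly_fin_two' (EC.residualRep P.freyCurve P.p).finrank_eq]
  erw [ht, hd]
  simp only [Polynomial.map_add, Polynomial.map_sub, Polynomial.map_mul, Polynomial.map_pow,
    Polynomial.map_X, Polynomial.map_C]
  rw [map_natCast]
  rfl

end Residual

/-- The auxiliary data at one `n` for a minimal level. -/
structure FreyTWDatum {P : FreyPackage} [Fact P.p.Prime] [P.freyCurve.IsElliptic] {M : ℕ}
    [NeZero M] (FL : FreyLevel P M) {D : ℕ} (qv : Fin D → ℕ) (n : ℕ) where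
  inj : Function.Injective qv
  prime : ∀ i, (qv i).Prime
  not_bad : ∀ i, qv i ∉ badSet M P.p FL.W
  /-- The exact exponents of `p` in `qv i - 1`. -/
  lv : Fin D → ℕ
  lt_lv : ∀ i, n < lv i
  dvd_sub : ∀ i, P.p ^ lv i ∣ qv i - 1
  not_dvd_sub : ∀ i, ¬ P.p ^ (lv i + 1) ∣ qv i - 1
  /-- The auxiliary primes as a set of primes. -/
  Q : Finset Nat.Primes
  mem_Q : ∀ l : Nat.Primes, l ∈ Q ↔ ∃ i, qv i = l
  /-- The level `M` times the auxiliary primes. -/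
  N : ℕ
  [neN : NeZero N]
  hN : N = M * ∏ l ∈ Q, (l : ℕ)
  dvd_N : ∀ i, qv i ∣ N
  not_p_dvd : ¬ P.p ∣ N
  /-- The characters of `(ℤ/q)ˣ` to the cyclic groups of order `p ^ lv`. -/
  π : ∀ i, (ZMod (qv i))ˣ →* Multiplicative (ZMod (P.p ^ lv i))
  /-- The character of the level onto the group of diamonds. -/
  Ψ : (ZMod N)ˣ →* DiaGroup P.p lv
  hΨ : Function.Surjective Ψ
  hneg : (-1 : SL(2, ℤ)) ∈ GammaPsi Ψ
  hker : ∀ x : Gamma0 N, |tr (x : SL(2, ℤ))| ≤ 2 → dChar Ψ x = 1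
  isTW : IsTWLevel dvd_N π Ψ
  /-- A residual root of Frobenius at each auxiliary prime. -/
  α : Nat.Primes → ResidueField ℤ_[P.p]
  /-- The other residual root, inverse and different from `α`. -/
  β : Nat.Primes → ResidueField ℤ_[P.p]
  subset_good : ↑Q ⊆ goodPrimes (badSet M P.p FL.W)
  not_dvd : ∀ l ∈ Q, ¬ (l : ℕ) ∣ M
  q_one : ∀ l ∈ Q, ((l : ℕ) : ResidueField ℤ_[P.p]) = 1
  mul_eq : ∀ l ∈ Q, α l * β l = 1
  ne : ∀ l ∈ Q, α l ≠ β l
  sys_bot : sysBot ℤ_[P.p] Q α β (intSys FL.W.apOfModel) = intSys FL.W.apOfModel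
  charpoly_qv : ∀ i, ∀ A : ValuationSubring Qbar, A.LiesOverPrime (qv i) →
    ∀ φ : GQ, A.IsFrobeniusAt φ (qv i) →
      LinearMap.charpoly ((MazurPrinciple.curveRes P.p P.freyCurve).ρ φ) =
        (Polynomial.X - Polynomial.C (α ⟨qv i, prime i⟩)) *
          (Polynomial.X - Polynomial.C (β ⟨qv i, prime i⟩))
  /-- The bad primes of the level. -/
  S : Finset ℕ
  mem_S : ∀ l : ℕ, l ∈ S ↔ l ∈ badSet M P.p FL.W ∨ ∃ i, qv i = l
  hNS : ∀ l : ℕ, l.Prime → l ∣ N → l ∈ S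
  hbar : ∀ (ℓ : ℕ) (hℓ : ℓ.Prime), ℓ ∉ S → ∀ A : ValuationSubring Qbar, A.LiesOverPrime ℓ →
    ∀ σ : GQ, A.IsFrobeniusAt σ ℓ →
      LinearMap.charpoly ((MazurPrinciple.curveRes P.p P.freyCurve).ρ σ) =
        Polynomial.X ^ 2 - Polynomial.C (sysTop ℤ_[P.p] Q α (intSys FL.W.apOfModel) ⟨ℓ, hℓ⟩) *
          Polynomial.X + Polynomial.C (ℓ : ResidueField ℤ_[P.p])
  /-- A prime at which the residual system is not Eisenstein. -/
  ℓ₀ : Nat.Primes
  ℓ₀_mem : ℓ₀ ∈ goodPrimes (badSet M P.p FL.W)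
  ℓ₀_N : ¬ (ℓ₀ : ℕ) ∣ N
  ℓ₀_sys : intSys (p := P.p) FL.W.apOfModel ℓ₀ ≠ (ℓ₀ : ℕ) + 1

attribute [instance] FreyTWDatum.neN

/-- **The Taylor–Wiles datum of auxiliary primes with split Frobenius** above a minimal level. -/
theorem exists_freyTWDatum (P : FreyPackage) [Fact P.p.Prime] [P.freyCurve.IsElliptic]
    (hirr : GaloisRepIsIrreducible (K := Qbar) ℚ P.freyCurve P.p) {M : ℕ} [NeZero M]
    (hpM : ¬ P.p ∣ M) (FL : FreyLevel P M) (n : ℕ) {D : ℕ} (qv : Fin D → ℕ)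
    (hinj : Function.Injective qv)
    (hq : ∀ i, (qv i).Prime ∧ qv i ∉ badSet M P.p FL.W ∧ P.p ^ (n + 1) ∣ qv i - 1)
    (hsplit : ∀ i, ∀ A : ValuationSubring Qbar, A.LiesOverPrime (qv i) →
      ∀ φ : AG, A.IsFrobeniusAt φ (qv i) → ∃ α β : ResidueField ℤ_[P.p], α ≠ β ∧
        LinearMap.charpoly ((MazurPrinciple.curveRes P.p P.freyCurve).ρ φ) =
          (Polynomial.X - Polynomial.C α) * (Polynomial.X - Polynomial.C β)) :
    Nonempty (FreyTWDatum FL qv n) := by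
  classical
  have hp : P.p.Prime := Fact.out
  have hp2 : P.p ≠ 2 := by have := P.hp5; omega
  have hΔ : FL.W.Δ ≠ 0 := model_Δ_ne_zero (model_elliptic FL.model)
  set S₀ := badSet M P.p FL.W with hS₀
  have hbad : ∀ i, qv i ∉ S₀ := fun i => (hq i).2.1
  have hgood : ∀ i, FL.W.IsGoodPrimeFor (qv i) ∧ ¬ qv i ∣ M ∧ qv i ≠ P.p := fun i =>
    good_of_not_mem_badSet hΔ (hq i).1 (hbad i)
  obtain ⟨Q, N, _, lv, hdvdN, π, Ψ, hN, hQ, hprimeN, hlv, hv, hv', hΨ, hTW⟩ :=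
    exists_twLevel hp2 M n hinj (fun i => (hq i).1) (fun i => (hgood i).2.1) fun i => (hq i).2.2
  have hpN : ¬ P.p ∣ N := fun h => by
    rcases hprimeN P.p hp h with h | ⟨i, hi⟩
    · exact hpM h
    · exact (hgood i).2.2 hi
  have hone : ∀ i, ((qv i : ℕ) : ResidueField ℤ_[P.p]) = 1 := fun i =>
    natCast_eq_one_of_dvd_sub (hq i).1 (hq i).2.2
  have hchar : ∀ {ℓ : ℕ} (hℓ : ℓ.Prime), ℓ ∉ S₀ → ∀ {A : ValuationSubring Qbar},
      A.LiesOverPrime ℓ → ∀ {σ : GQ}, A.IsFrobeniusAt σ ℓ →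
      LinearMap.charpoly ((MazurPrinciple.curveRes P.p P.freyCurve).ρ σ) =
        Polynomial.X ^ 2 - Polynomial.C (intSys (p := P.p) FL.W.apOfModel ⟨ℓ, hℓ⟩) * Polynomial.X +
          Polynomial.C (ℓ : ResidueField ℤ_[P.p]) := fun hℓ hℓS _ hA _ hσ => by
    obtain ⟨h1, -, h3⟩ := good_of_not_mem_badSet hΔ hℓ hℓS
    exact charpoly_curveRes P FL.model hℓ h3 h1 hA hσ
  -- the roots
  obtain ⟨α, β, hmul, hne, hbot, hcharq⟩ := exists_rootSystems (O := ℤ_[P.p]) hinj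
    (fun i => (hq i).1) hQ (intSys (p := P.p) FL.W.apOfModel)
    (fun i a b => ∀ A : ValuationSubring Qbar, A.LiesOverPrime (qv i) →
      ∀ φ : GQ, A.IsFrobeniusAt φ (qv i) →
        LinearMap.charpoly ((MazurPrinciple.curveRes P.p P.freyCurve).ρ φ) =
          (Polynomial.X - Polynomial.C a) * (Polynomial.X - Polynomial.C b)) fun i => by
    obtain ⟨A, hA⟩ := Gal.exists_liesOverPrime (hq i).1
    obtain ⟨φ, hφ⟩ := Gal.exists_isFrobeniusAt (hq i).1 hA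
    obtain ⟨a, b, hab, he⟩ := hsplit i A hA φ hφ
    rw [hchar (hq i).1 (hbad i) hA hφ] at he
    obtain ⟨h0, h1⟩ := mul_eq_one_and_add_eq_of_split (hone i) he
    exact ⟨a, b, hab, h0, h1, fun A' hA' φ' hφ' => (hchar (hq i).1 (hbad i) hA' hφ').trans he⟩
  let S : Finset ℕ := S₀ ∪ Finset.univ.image qv
  have hS : ∀ l : ℕ, l ∈ S ↔ l ∈ S₀ ∨ ∃ i, qv i = l := fun l => by simp [S]
  obtain ⟨ℓ, hℓ, hℓS, -, hℓa⟩ :=
    exists_prime_not_eisenstein hp2 hΔ (by
      obtain ⟨C, hC⟩ := FL.model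
      show GaloisRepIsIrreducible (K := Qbar) ℚ (FL.W.map (Int.castRingHom ℚ)) P.p
      rw [← hC]; exact (EC.galoisRepIsIrreducible_variableChange C P.freyCurve P.p).mpr hirr) S
  exact ⟨{
    inj := hinj
    prime := fun i => (hq i).1
    not_bad := hbad
    lv := lv
    lt_lv := hlv
    dvd_sub := hv
    not_dvd_sub := hv'
    Q := Q
    mem_Q := hQ
    N := N
    hN := hN
    dvd_N := hdvdN
    not_p_dvd := hpN
    π := π
    Ψ := Ψ
    hΨ := hΨ
    hneg := neg_one_mem_GammaPsi P.hp5 (fun i => (hq i).1) hdvdN π Ψ hTW.comp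
    hker := dChar_eq_one_of_tr P.hp5 (fun i => (hq i).1) hdvdN π Ψ hTW.comp
    isTW := hTW
    α := α
    β := β
    subset_good := fun l hl => by
      obtain ⟨i, hi⟩ := (hQ l).mp (Finset.mem_coe.mp hl)
      exact fun h => hbad i (hi ▸ h)
    not_dvd := fun l hl => by
      obtain ⟨i, hi⟩ := (hQ l).mp hl
      exact hi ▸ (hgood i).2.1
    q_one := fun l hl => by
      obtain ⟨i, hi⟩ := (hQ l).mp hl
      exact hi ▸ hone i
    mul_eq := hmul
    ne := hne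
    sys_bot := hbot
    charpoly_qv := hcharq
    S := S
    mem_S := hS
    hNS := fun l hl hlN => (hS l).mpr ((hprimeN l hl hlN).imp (mem_badSet_of_dvd hl) id)
    hbar := fun l hl hlS A hA σ hσ => by
      have hlQ : (⟨l, hl⟩ : Nat.Primes) ∉ Q := fun hm => hlS ((hS l).mpr (Or.inr ((hQ _).mp hm)))
      rw [show ∀ α : Nat.Primes → ResidueField ℤ_[P.p],
          sysTop ℤ_[P.p] Q α (intSys (p := P.p) FL.W.apOfModel) ⟨l, hl⟩ =
            intSys (p := P.p) FL.W.apOfModel ⟨l, hl⟩ from fun _ => if_neg hlQ]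
      exact hchar hl (fun hb => hlS ((hS l).mpr (Or.inl hb))) hA hσ
    ℓ₀ := ⟨ℓ, hℓ⟩
    ℓ₀_mem := fun h => hℓS ((hS ℓ).mpr (Or.inl h))
    ℓ₀_N := fun h => hℓS ((hS ℓ).mpr ((hprimeN ℓ hℓ h).imp (mem_badSet_of_dvd hℓ) id))
    ℓ₀_sys := fun h => hℓa (by
      rw [← ZMod.intCast_zmod_eq_zero_iff_dvd]
      refine (MazurPrinciple.toPadicRes P.p).injective ?_
      rw [_root_.map_zero, map_intCast]
      have h' : ((FL.W.apOfModel ℓ : ℤ) : ResidueField ℤ_[P.p]) = (ℓ : ResidueField ℤ_[P.p]) + 1 :=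
        (map_intCast (MazurPrinciple.toPadicRes P.p) _).symm.trans h
      push_cast
      rw [h', sub_self])
}⟩

end Fermat.Agent.LevelLowering.Scalar
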