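import Fermat.Agent.LevelLowering.Scalar.TWPrimes

/-!
# Taylor–Wiles primes with Frobenius split over the residue field

An eigenvector over the residue field is inherited by conjugates and powers, so it suffices that
every cyclotomic fixing group contains an element with distinct eigenvalues and such a vector.
-/

noncomputable section

namespace Fermat.Agent.LevelLowering.Scalar

open Module IsLocalRing Matrix Fermat.Agent.Gal Fermat.Agent.PT Fermat.Agent.PT.Lv Fermat.Agent.TW

/-- An eigenvector with its eigenvalue in the coefficient field. -/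
def HasEigvec {k : Type} [Field k] (M : M2 k) : Prop :=
  ∃ (a : k) (v : Fin 2 → k), v ≠ 0 ∧ M.mulVec v = a • v

theorem HasEigvec.pow {k : Type} [Field k] {M : M2 k} (h : HasEigvec M) (n : ℕ) :
    HasEigvec (M ^ n) := by
  obtain ⟨a, v, hv, h⟩ := h
  refine ⟨a ^ n, v, hv, ?_⟩
  induction n with
  | zero => rw [pow_zero, pow_zero, Matrix.one_mulVec, one_smul]
  | succ n ih =>
    rw [pow_succ', ← Matrix.mulVec_mulVec, ih, Matrix.mulVec_smul, h, smul_smul, pow_succ]

theorem HasEigvec.conj {k : Type} [Field k] (rb : AG →* M2 k) (τ : AG) {M : M2 k}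
    (h : HasEigvec M) : HasEigvec (rb τ * M * rb τ⁻¹) := by
  obtain ⟨a, v, hv, h⟩ := h
  have hinv : rb τ⁻¹ * rb τ = 1 := by rw [← map_mul, inv_mul_cancel, map_one]
  refine ⟨a, (rb τ).mulVec v, fun h0 => hv ?_, ?_⟩
  · rw [← Matrix.one_mulVec v, ← hinv, ← Matrix.mulVec_mulVec, h0, Matrix.mulVec_zero]
  · rw [Matrix.mulVec_mulVec, mul_assoc, hinv, mul_one, ← Matrix.mulVec_mulVec, h,
      Matrix.mulVec_smul]

/-- Having an eigenvector over the residue field is a selecting property. -/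
theorem selects_hasEigvec {k : Type} [Field k] {p : ℕ} {rb : AG →* M2 k}
    (hsel : ∀ (ζ : AlgebraicClosure ℚ) (m : ℕ) [NeZero m], IsPrimitiveRoot ζ m → p ∣ m →
      ∃ g ∈ cycFix ζ, trace (rb g) ^ 2 ≠ 4 ∧ HasEigvec (rb g)) :
    Selects p rb HasEigvec :=
  ⟨fun _ n h => h.pow n, fun τ _ h => h.conj rb τ, hsel⟩

/-- The characteristic polynomial splits, with distinct roots. -/
theorem HasEigvec.exists_ne_roots {k : Type} [Field k] {M : M2 k} (h : HasEigvec M)
    (ht : trace M ^ 2 ≠ 4) (hd : det M = 1) :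
    ∃ α β : k, α ≠ β ∧
      M.charpoly = (Polynomial.X - Polynomial.C α) * (Polynomial.X - Polynomial.C β) := by
  obtain ⟨a, v, hv, h⟩ := h
  have h0 : (M - a • 1).det = 0 :=
    Matrix.exists_mulVec_eq_zero_iff.1 ⟨v, hv, by
      rw [Matrix.sub_mulVec, Matrix.smul_mulVec, Matrix.one_mulVec, h, sub_self]⟩
  have h1 : a * (trace M - a) = det M := by
    rw [Matrix.det_fin_two, trace_fin_two] at *
    simp at h0
    linear_combination -h0
  refine ⟨a, trace M - a, fun e => ht ?_, ?_⟩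
  · have e2 : trace M = 2 * a := by linear_combination -e
    rw [e2]
    rw [hd, e2] at h1
    linear_combination 4 * h1
  · rw [Matrix.charpoly_fin_two, ← h1, map_sub, map_mul, map_sub]
    ring

variable {O : Type} [CommRing O] [IsLocalRing O] {p : ℕ} [Fact p.Prime]
  [CharP (ResidueField O) p] {ρbar : ResidualGaloisRep (ResidueField O)}
  {bbar : Basis (Fin 2) (ResidueField O) ρbar.V} {m : ℕ}
  [Finite (ResidueField O)] [Algebra (ZMod p) (ResidueField O)]

/-- **Taylor–Wiles primes with split Frobenius**, with strict conditions at the scalar primes. -/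
theorem exists_twPrimes_split (hEuler : EulerFormula p) (hp2 : p ≠ 2)
    (habs : ρbar.IsAbsolutelyIrreducible) (hdet : DetCyc p (rbar bbar))
    (hsel : ∀ (ζ : AlgebraicClosure ℚ) (N : ℕ) [NeZero N], IsPrimitiveRoot ζ N → p ∣ N →
      ∃ g ∈ cycFix ζ, trace (rbar bbar g) ^ 2 ≠ 4 ∧ HasEigvec (rbar bbar g))
    (hTW : ∀ (K : Type) [Field K] [Algebra (ResidueField O) K] (G : Subgroup AG), G.index = 2 →
      ∀ V : Submodule K (ρbar.baseChange K).V,
        (∀ σ ∈ G, ∀ x ∈ V, (ρbar.baseChange K).ρ σ x ∈ V) → V = ⊥ ∨ V = ⊤)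
    (P : ScalarPrimes p ρbar bbar m) (hinjr : Function.Injective P.r)
    (L : Submodule (ResidueField O) ((decQ ((pP p : Nat.Primes) : ℕ) → sl2 (ResidueField O)) ⧸
      B1 (resRep (adRep (rbar bbar)) (decQ ((pP p : Nat.Primes) : ℕ)))))
    (hLfin : FiniteDimensional (ResidueField O) L)
    (hL : finrank (ResidueField O) L ≤ finrank (ResidueField O) (Representation.invariants
      (resRep (adRep (rbar bbar)) (decQ ((pP p : Nat.Primes) : ℕ)))) + 1)
    (S : Finset ℕ) :
    ∃ g D : ℕ, m * 3 + g ≤ D ∧ ∀ n : ℕ, ∃ qv : Fin D → ℕ, Function.Injective qv ∧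
      (∀ i, (qv i).Prime ∧ qv i ∉ S ∧ p ^ (n + 1) ∣ qv i - 1) ∧
      (∀ i, ∀ A : ValuationSubring (AlgebraicClosure ℚ), A.LiesOverPrime (qv i) →
        ∀ φ : AG, A.IsFrobeniusAt φ (qv i) →
          ∃ α β : ResidueField O, α ≠ β ∧ LinearMap.charpoly (ρbar.ρ φ) =
            (Polynomial.X - Polynomial.C α) * (Polynomial.X - Polynomial.C β)) ∧
      FiniteDimensional (ResidueField O)
        (classes (adRep (rbar bbar)) (P.strictSpace (condAt (adRep (rbar bbar)) L) qv)) ∧
      finrank (ResidueField O)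
        (classes (adRep (rbar bbar)) (P.strictSpace (condAt (adRep (rbar bbar)) L) qv)) ≤ g := by
  obtain ⟨g, D, hD, h⟩ := exists_twPrimes_of (selects_hasEigvec hsel) hEuler hp2 habs hdet hTW P
    hinjr L hLfin hL S
  refine ⟨g, D, hD, fun n => ?_⟩
  obtain ⟨qv, h1, h2, h3, h4⟩ := h n
  refine ⟨qv, h1, h2, fun i A hA φ hφ => ?_, h4⟩
  obtain ⟨ht, hd, he⟩ := h3 i A hA φ hφ
  obtain ⟨α, β, hne, e⟩ := he.exists_ne_roots ht hd
  exact ⟨α, β, hne, (LinearMap.charpoly_toMatrix (ρbar.ρ φ) bbar).symm.trans e⟩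

end Fermat.Agent.LevelLowering.Scalar
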