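import Fermat.Agent.EC.DetCyclotomic
import Fermat.Agent.LevelLowering.FreyFacts
import Fermat.Agent.LevelLowering.MazurPrinciple.Primes
import Fermat.Agent.LevelLowering.Scalar.SplitPrimes
import Fermat.Agent.TW.Euler.Main

/-!
# Taylor–Wiles primes for the Frey curve

The image of every cyclotomic fixing group contains `SL₂(𝔽_p)`, so auxiliary primes can be chosen
with Frobenius split over `𝔽_p`.
-/

noncomputable section

namespace Fermat.Agent.LevelLowering.Scalar

open Module IsLocalRing Matrix WeierstrassCurve Fermat.Agent.Gal Fermat.Agent.PT Fermat.Agent.PT.Lv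
  Fermat.Agent.TW Fermat.Agent.LevelLowering.MazurPrinciple
open WeierstrassCurve.Affine.Point
open scoped WeierstrassCurve.Affine

local notation "Qbar" => AlgebraicClosure ℚ

variable (P : FreyPackage) [Fact P.p.Prime] [P.freyCurve.IsElliptic]

/-- The determinant is cyclotomic. -/
theorem detCyc_curveBasis (p : ℕ) [Fact p.Prime] (E : WeierstrassCurve ℚ) [E.IsElliptic] :
    DetCyc p (rbar (curveBasis p E)) := by
  classical
  have : NeZero p := ⟨(Fact.out : p.Prime).ne_zero⟩
  intro g a ha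
  have hn : Nat.card (rootsOfUnity p Qbar) = p :=
    HasEnoughRootsOfUnity.natCard_rootsOfUnity Qbar p
  have h1 : Matrix.det (matrixRep (curveBasis₀ p E) (EC.residualRep E p).ρ g) = (a : ZMod p) := by
    refine (det_matrixRep (curveBasis₀ p E) g).trans ?_
    have h := congrArg Units.val (EC.galoisRepDetEqCyclotomic E p hn g)
    rw [Affine.Point.galoisRepDet_apply, LinearEquiv.coe_det] at h
    refine h.trans (modularCyclotomicCharacter.unique Qbar hn _ fun t ht => ?_).symm
    have ht' : ((t : Qbarˣ) : Qbar) ^ p = 1 := by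
      rw [← Units.val_pow_eq_pow_val, (mem_rootsOfUnity p t).1 ht, Units.val_one]
    show g ((t : Qbarˣ) : Qbar) = _
    rw [ha _ ht', ZMod.val_natCast]
    exact pow_eq_pow_mod a ht'
  rw [rbar_curveBasis, ← RingHom.mapMatrix_apply, ← RingHom.map_det, h1, map_natCast]

section Image

variable {p : ℕ} [Fact p.Prime] (φ : AG →* M2 (ZMod p)) (H : Subgroup AG)

/-- A subgroup containing commutators contains `diag(2, 1/2)` in its image if the image of the
whole group contains `SL₂(𝔽_p)`, `p ≥ 5`. -/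
theorem exists_diag_of_sl2 (h5 : 5 ≤ p) (hsl : ∀ M : M2 (ZMod p), M.det = 1 → ∃ g, φ g = M)
    (hH : ∀ a b : AG, a * b * a⁻¹ * b⁻¹ ∈ H) :
    ∃ g ∈ H, φ g = !![2, 0; 0, 2⁻¹] := by
  have hne : ∀ n : ℕ, 0 < n → n < p → (n : ZMod p) ≠ 0 := fun n hn hnp h =>
    absurd (Nat.le_of_dvd hn ((ZMod.natCast_eq_zero_iff n p).1 h)) (by omega)
  have h2 : (2 : ZMod p) ≠ 0 := by exact_mod_cast hne 2 two_pos (by omega)
  have h3 : (3 : ZMod p) ≠ 0 := by exact_mod_cast hne 3 (by omega) (by omega)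
  have hinv : ∀ {a : AG} {M N : M2 (ZMod p)}, φ a = M → M * N = 1 → φ a⁻¹ = N := fun {a M N} h e =>
    left_inv_eq_right_inv (by rw [← map_mul, inv_mul_cancel, map_one]) (h.symm ▸ e)
  have hU : ∀ z, ∃ g ∈ H, φ g = upperU z := fun z => by
    obtain ⟨a, ha⟩ := hsl !![2, 0; 0, 2⁻¹] (by simp [det_fin_two, h2])
    obtain ⟨b, hb⟩ := hsl (upperU (z / 3)) (by simp [det_fin_two, upperU])
    refine ⟨_, hH a b, ?_⟩
    rw [map_mul, map_mul, map_mul, ha, hb, hinv ha (N := !![2⁻¹, 0; 0, 2])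
      (by ext i j; fin_cases i <;> fin_cases j <;> simp [h2]),
      hinv hb (N := upperU (-(z / 3))) (by rw [← upperU_add, add_neg_cancel, upperU_zero])]
    ext i j
    fin_cases i <;> fin_cases j <;> simp [upperU, Matrix.mul_apply, Fin.sum_univ_two, h2]
    field_simp
    ring
  have hL : ∀ z, ∃ g ∈ H, φ g = lowerU z := fun z => by
    obtain ⟨a, ha⟩ := hsl !![2⁻¹, 0; 0, 2] (by simp [det_fin_two, h2])
    obtain ⟨b, hb⟩ := hsl (lowerU (z / 3)) (by simp [det_fin_two, lowerU])
    refine ⟨_, hH a b, ?_⟩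
    rw [map_mul, map_mul, map_mul, ha, hb, hinv ha (N := !![2, 0; 0, 2⁻¹])
      (by ext i j; fin_cases i <;> fin_cases j <;> simp [h2]),
      hinv hb (N := lowerU (-(z / 3))) (by rw [← lowerU_add, add_neg_cancel, lowerU_zero])]
    ext i j
    fin_cases i <;> fin_cases j <;> simp [lowerU, Matrix.mul_apply, Fin.sum_univ_two, h2]
    field_simp
    ring
  obtain ⟨g₁, m₁, e₁⟩ := hU 2
  obtain ⟨g₂, m₂, e₂⟩ := hL (-2⁻¹)
  obtain ⟨g₃, m₃, e₃⟩ := hU (-1)
  obtain ⟨g₄, m₄, e₄⟩ := hL 1
  refine ⟨g₁ * g₂ * g₁ * (g₃ * g₄ * g₃), H.mul_mem (H.mul_mem (H.mul_mem m₁ m₂) m₁)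
    (H.mul_mem (H.mul_mem m₃ m₄) m₃), ?_⟩
  simp only [map_mul, e₁, e₂, e₃, e₄]
  ext i j
  fin_cases i <;> fin_cases j <;>
    simp [upperU, lowerU, Matrix.mul_apply, Fin.sum_univ_two, h2]

end Image

/-- Every cyclotomic fixing group contains an element with distinct eigenvalues in `𝔽_p`. -/
theorem frey_exists_split_cycFix (hirr : GaloisRepIsIrreducible (K := Qbar) ℚ P.freyCurve P.p)
    (ζ : Qbar) (N : ℕ) [NeZero N] (hζ : IsPrimitiveRoot ζ N) (_hpN : P.p ∣ N) :
    ∃ g ∈ cycFix ζ, trace (rbar (curveBasis P.p P.freyCurve) g) ^ 2 ≠ 4 ∧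
      HasEigvec (rbar (curveBasis P.p P.freyCurve) g) := by
  have hp : P.p.Prime := Fact.out
  obtain ⟨g, hg, e⟩ := exists_diag_of_sl2
    (matrixRep (curveBasis₀ P.p P.freyCurve) (EC.residualRep P.freyCurve P.p).ρ) (cycFix ζ) P.hp5
    (fun M hM => by
      let b₀ : Basis (Fin 2) (ZMod P.p)
          (Submodule.torsionBy ℤ ((P.freyCurve)⁄Qbar).Point (P.p : ℤ)) :=
        curveBasis₀ P.p P.freyCurve
      obtain ⟨g, hg⟩ := frey_sl2_le_range P hirr ((LinearMap.toMatrixAlgEquiv b₀).symm M) (by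
        refine (LinearMap.det_toMatrix b₀ _).symm.trans ?_
        show ((LinearMap.toMatrixAlgEquiv b₀) ((LinearMap.toMatrixAlgEquiv b₀).symm M)).det = 1
        rw [AlgEquiv.apply_symm_apply, hM])
      refine ⟨g, ?_⟩
      show LinearMap.toMatrixAlgEquiv b₀
        (galoisRepModuleEnd (S := ℚ) (K := Qbar) P.freyCurve P.p g) = M
      rw [hg]
      exact AlgEquiv.apply_symm_apply _ M)
    (commutator_mem_cycFix hζ)
  refine ⟨g, hg, ?_, toPadicRes P.p 2, ![1, 0], fun h => one_ne_zero (congrFun h 0), ?_⟩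
  · rw [rbar_curveBasis, e, trace_fin_two]
    simp only [map_apply, of_apply, cons_val', cons_val_zero, cons_val_one, cons_val_fin_one]
    rw [← map_add, ← map_pow, ← map_ofNat (toPadicRes P.p) 4]
    intro h
    have h' := (toPadicRes P.p).injective h
    have hne : ∀ n : ℕ, 0 < n → n < P.p → (n : ZMod P.p) ≠ 0 := fun n hn hnp h =>
      absurd (Nat.le_of_dvd hn ((ZMod.natCast_eq_zero_iff n P.p).1 h)) (by omega)
    have h2 : (2 : ZMod P.p) ≠ 0 := by exact_mod_cast hne 2 two_pos (by have := P.hp5; omega)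
    have h3 : (3 : ZMod P.p) ≠ 0 := by
      exact_mod_cast hne 3 (by omega) (by have := P.hp5; omega)
    field_simp at h'
    refine pow_ne_zero 2 h3 ?_
    linear_combination h'
  · rw [rbar_curveBasis, e]
    funext i
    fin_cases i <;> simp

/-- The residual hypotheses of patching for the Frey curve. -/
theorem frey_curveRes_facts (hirr : GaloisRepIsIrreducible (K := Qbar) ℚ P.freyCurve P.p) :
    (curveRes P.p P.freyCurve).IsAbsolutelyIrreducible ∧
      ∀ (K : Type) [Field K] [Algebra (ResidueField ℤ_[P.p]) K] (G : Subgroup AG), G.index = 2 →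
        ∀ V : Submodule K ((curveRes P.p P.freyCurve).baseChange K).V,
          (∀ σ ∈ G, ∀ x ∈ V, ((curveRes P.p P.freyCurve).baseChange K).ρ σ x ∈ V) →
            V = ⊥ ∨ V = ⊤ := by
  let : Algebra (ZMod P.p) (ResidueField ℤ_[P.p]) := (toPadicRes P.p).toAlgebra
  obtain ⟨-, h2, h3⟩ := frey_baseChange_facts P hirr (k := ResidueField ℤ_[P.p])
  exact ⟨h2, h3⟩

/-- **Taylor–Wiles primes for the Frey curve**, with strict conditions at scalar primes and a flat
condition at `p`. -/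
theorem frey_exists_twPrimes (hirr : GaloisRepIsIrreducible (K := Qbar) ℚ P.freyCurve P.p)
    (hflat : FlatLocalBound P.p (curveBasis P.p P.freyCurve)) {m : ℕ}
    (R : ScalarPrimes P.p (curveRes P.p P.freyCurve) (curveBasis P.p P.freyCurve) m)
    (hinjr : Function.Injective R.r) (S : Finset ℕ) :
    ∃ L : Submodule (ResidueField ℤ_[P.p])
        ((decQ ((pP P.p : Nat.Primes) : ℕ) → sl2 (ResidueField ℤ_[P.p])) ⧸
          B1 (resRep (adRep (rbar (curveBasis P.p P.freyCurve)))
            (decQ ((pP P.p : Nat.Primes) : ℕ)))),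
      (∀ c ∈ Z1 lvQ (adRep (rbar (curveBasis P.p P.freyCurve))),
        (∃ (ρ' : GaloisRepAdic (DualNumber (ResidueField ℤ_[P.p])))
            (b' : Basis (Fin 2) (DualNumber (ResidueField ℤ_[P.p])) ρ'.V),
          ρ'.IsFlatAt P.p ∧ ∀ g, matrixRep b' ρ'.ρ g =
            (rbar (curveBasis P.p P.freyCurve) g).map TrivSqZeroExt.inl +
              ((c g : M2 (ResidueField ℤ_[P.p])) * rbar (curveBasis P.p P.freyCurve) g).map
                TrivSqZeroExt.inr) →
        c ∈ condAt (adRep (rbar (curveBasis P.p P.freyCurve))) L) ∧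
      ∃ g D : ℕ, m * 3 + g ≤ D ∧ ∀ n : ℕ, ∃ qv : Fin D → ℕ, Function.Injective qv ∧
        (∀ i, (qv i).Prime ∧ qv i ∉ S ∧ P.p ^ (n + 1) ∣ qv i - 1) ∧
        (∀ i, ∀ A : ValuationSubring Qbar, A.LiesOverPrime (qv i) →
          ∀ φ : AG, A.IsFrobeniusAt φ (qv i) →
            ∃ α β : ResidueField ℤ_[P.p], α ≠ β ∧
              LinearMap.charpoly ((curveRes P.p P.freyCurve).ρ φ) =
                (Polynomial.X - Polynomial.C α) * (Polynomial.X - Polynomial.C β)) ∧
        FiniteDimensional (ResidueField ℤ_[P.p])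
          (classes (adRep (rbar (curveBasis P.p P.freyCurve)))
            (R.strictSpace (condAt (adRep (rbar (curveBasis P.p P.freyCurve))) L) qv)) ∧
        finrank (ResidueField ℤ_[P.p])
          (classes (adRep (rbar (curveBasis P.p P.freyCurve)))
            (R.strictSpace (condAt (adRep (rbar (curveBasis P.p P.freyCurve))) L) qv)) ≤ g := by
  obtain ⟨L, hLfin, hL, hloc⟩ := hflat
  have hp2 : P.p ≠ 2 := by have := P.hp5; omega
  have := finite_padicRes P.p
  let : Algebra (ZMod P.p) (ResidueField ℤ_[P.p]) := (toPadicRes P.p).toAlgebra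
  obtain ⟨h1, h2⟩ := frey_curveRes_facts P hirr
  exact ⟨L, hloc, exists_twPrimes_split (Euler.eulerFormula hp2) hp2 h1
    (detCyc_curveBasis P.p P.freyCurve) (frey_exists_split_cycFix P hirr) h2 R hinjr L hLfin hL S⟩

end Fermat.Agent.LevelLowering.Scalar
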