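import Fermat.Agent.LevelLowering.MinimalRT
import Fermat.Agent.LevelLowering.Scalar.FreyLevel
import Fermat.Agent.LevelLowering.Scalar.FreyPrimes
import Fermat.Agent.TW.Flat.LocalBound
import Fermat.Agent.TW.Flat.Main

/-!
# Lowering at odd primes from the Taylor–Wiles levels

Given the levels above every minimal level (`LevelSupply`), no odd prime divides a minimal level
prime to `p`, so an odd prime of a conductor level can be removed.
-/

noncomputable section

namespace Fermat.Agent.LevelLowering.Scalar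

open Module IsLocalRing Matrix Fermat.Agent.Gal Fermat.Agent.PT Fermat.Agent.PT.Lv Fermat.Agent.TW
open Fermat.Agent.LevelLowering.MazurPrinciple Fermat.Agent.LoweringAtP.HeckeCompat
open WeierstrassCurve.Affine.Point

local notation "Qbar" => AlgebraicClosure ℚ

/-- `2` is a unit of `ℤ_p` for the prime of a Frey package. -/
theorem isUnit_two_padicInt (P : FreyPackage) [Fact P.p.Prime] : IsUnit (2 : ℤ_[P.p]) := by
  rw [PadicInt.isUnit_iff]
  refine le_antisymm (PadicInt.norm_le_one _) (not_lt.mp fun h => ?_)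
  rw [show (2 : ℤ_[P.p]) = ((2 : ℕ) : ℤ_[P.p]) by norm_num, PadicInt.norm_natCast_lt_one_iff] at h
  have := Nat.le_of_dvd two_pos h
  have := P.hp5
  omega

variable (P : FreyPackage) [Fact P.p.Prime] [P.freyCurve.IsElliptic]

local notation "𝕜" => ResidueField ℤ_[P.p]
local notation "rb" => rbar (curveBasis P.p P.freyCurve)

/-- The bound at `p` for flat deformations of `E[p]`. -/
theorem frey_flatLocalBound : FlatLocalBound P.p (curveBasis P.p P.freyCurve) := by
  have hp2 : P.p ≠ 2 := by have := P.hp5; omega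
  obtain ⟨L, hL, hL1⟩ := finiteLevel_matrixRep (curveBasis P.p P.freyCurve)
  exact Flat.flatLocalBound_of_local (Flat.exists_flatLocal padicPlace_liesOverPrime hp2
    (detCyc_curveBasis P.p P.freyCurve) ⟨L.fixingSubgroup, fixingSubgroup_mem_krull L,
      fun s hs => hL1 s ((IntermediateField.mem_fixingSubgroup_iff _ _).1 hs)⟩)

/-- The levels to be supplied above a minimal level. -/
def LevelSupply : Prop :=
  ∀ (M : ℕ) [NeZero M], P.IsConductorLevel M → ¬ P.p ∣ M →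
    GaloisRepIsIrreducible (K := Qbar) ℚ P.freyCurve P.p → ∀ (Lv : FreyLevel P M),
    ∀ L : Submodule 𝕜 ((decQ ((pP P.p : Nat.Primes) : ℕ) → sl2 𝕜) ⧸
      B1 (resRep (adRep rb) (decQ ((pP P.p : Nat.Primes) : ℕ)))),
    (∀ c ∈ Z1 lvQ (adRep rb),
      (∃ (ρ' : GaloisRepAdic (DualNumber 𝕜)) (b' : Basis (Fin 2) (DualNumber 𝕜) ρ'.V),
        ρ'.IsFlatAt P.p ∧ ∀ g, matrixRep b' ρ'.ρ g = (rb g).map TrivSqZeroExt.inl +
          ((c g : M2 𝕜) * rb g).map TrivSqZeroExt.inr) → c ∈ condAt (adRep rb) L) →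
    (∃ D₀, Nonempty (LevelCore P.p (curveRes P.p P.freyCurve) D₀ Lv.d Lv.Tm
      (badSet M P.p Lv.W))) ∧
    ∀ (g D n : ℕ) (qv : Fin D → ℕ), Function.Injective qv →
      (∀ i, (qv i).Prime ∧ qv i ∉ badSet M P.p Lv.W ∧ P.p ^ (n + 1) ∣ qv i - 1) →
      (∀ i, ∀ A : ValuationSubring Qbar, A.LiesOverPrime (qv i) →
        ∀ φ : AG, A.IsFrobeniusAt φ (qv i) → ∃ α β : 𝕜, α ≠ β ∧
          LinearMap.charpoly ((curveRes P.p P.freyCurve).ρ φ) =
            (Polynomial.X - Polynomial.C α) * (Polynomial.X - Polynomial.C β)) →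
      FiniteDimensional 𝕜 (classes (adRep rb) (Lv.SP.strictSpace (condAt (adRep rb) L) qv)) →
      finrank 𝕜 (classes (adRep rb) (Lv.SP.strictSpace (condAt (adRep rb) L) qv)) ≤ g →
      ∃ (lv : Fin D → ℕ) (T : LevelData Lv.SP g D Lv.d Lv.Tm
          (badSet M P.p Lv.W ∪ Finset.univ.image qv)),
        (∀ i, n ≤ lv i) ∧ T.core.J ≤ diamondIdeal (𝒪 := ℤ_[P.p]) P.p lv

/-- **No odd prime divides a minimal level prime to `p`.** -/
theorem false_of_levelSupply (hS : LevelSupply P) {M : ℕ} [NeZero M]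
    (hcond : P.IsConductorLevel M) (hpM : ¬ P.p ∣ M)
    (hirr : GaloisRepIsIrreducible (K := Qbar) ℚ P.freyCurve P.p) (hmin : IsMinimalLevel P M)
    {r : ℕ} (hr : r.Prime) (hr2 : r ≠ 2) (hrM : r ∣ M) : False := by
  have hp : P.p.Prime := Fact.out
  have : Finite 𝕜 := finite_padicRes P.p
  obtain ⟨Lv⟩ := exists_freyLevel P hirr hcond hpM hmin
  obtain ⟨i₀, -⟩ := (Lv.r_mem r).mpr ⟨hr, hr2, hrM⟩
  obtain ⟨L, hloc, g, D, hD, hqv⟩ := frey_exists_twPrimes P hirr (frey_flatLocalBound P) Lv.SP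
    Lv.r_inj (badSet M P.p Lv.W)
  choose qv hinj hq hfrob hfin hle using hqv
  obtain ⟨⟨D₀, ⟨L₀⟩⟩, hlev⟩ := hS M hcond hpM hirr Lv L hloc
  choose lv T hlv hJ using fun n =>
    hlev g D n (qv n) (hinj n) (hq n) (hfrob n) (hfin n) (hle n)
  have h2 := isUnit_two_padicInt P
  have hpO : (P.p : ℤ_[P.p]) ∈ maximalIdeal ℤ_[P.p] := by
    rw [PadicInt.maximalIdeal_eq_span_p]; exact Ideal.mem_span_singleton_self _
  refine false_of_levelData h2 (frey_curveRes_facts P hirr).1 Lv.SP hD Lv.d_pos Lv.Tm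
    (mem_badSet_self M P.p Lv.W) L₀ _ (fun n => Finset.subset_union_left) T (fun k => ?_) i₀
    (Lv.exact i₀)
  filter_upwards [diamondIdeal_trunc (𝒪 := ℤ_[P.p]) hp hpO D k] with n hn
  exact (hJ n).trans (hn (lv n) (hlv n))

/-- **Lowering at odd primes** for a Frey package. -/
theorem lowering_of_levelSupply (hS : LevelSupply P)
    (hAt : ∀ M, P.IsConductorLevel M → P.p ∣ M → P.ModularRepOfLevel M →
      ∃ M', M' ∣ M ∧ ¬ P.p ∣ M' ∧ P.ModularRepOfLevel M')
    (hirr : GaloisRepIsIrreducible (K := Qbar) ℚ P.freyCurve P.p) {N q : ℕ}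
    (hcond : P.IsConductorLevel N) (hq : q.Prime) (hq2 : q ≠ 2) (hmod : P.ModularRepOfLevel N) :
    ∃ M, M ∣ N ∧ ¬ q ∣ M ∧ P.ModularRepOfLevel M :=
  level_lowering_of P hAt (fun M hc hpM hmin _ hr hr2 hrM =>
    haveI : NeZero M := ⟨hc.pos.ne'⟩
    false_of_levelSupply P hS hc hpM hirr hmin hr hr2 hrM) hcond hq hq2 hmod

end Fermat.Agent.LevelLowering.Scalar
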