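import Fermat.Agent.Ihara.IrrCurve
import Fermat.Agent.LevelLowering.Scalar.FreyLocal
import Fermat.Agent.LevelLowering.Scalar.FreyTWData
import Fermat.Agent.LevelLowering.Scalar.Glue
import Fermat.Agent.LevelLowering.TWAssemble
import Fermat.Agent.LevelLowering.TWTame

/-!
# The level supply of a Frey minimal level from the coordinates of its auxiliary levels

`FreyTWAct` is the action in coordinates of the Hecke algebra of an auxiliary level with the family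
of eigensystems factoring through it; from it come the `LevelCore` at the minimal level (no
auxiliary primes) and the `LevelData` above it.
-/

noncomputable section

namespace Fermat.Agent.LevelLowering.Scalar

open Module IsLocalRing Matrix Polynomial WeierstrassCurve.Affine.Point
open CongruenceSubgroup Fermat.Agent.Gal Fermat.Agent.PT Fermat.Agent.PT.Lv Fermat.Agent.TW
  Fermat.Agent.Ihara Fermat.Agent.LoweringAtP.HeckeCompat Fermat.Agent.Grp
  Fermat.Agent.LevelLowering.MazurPrinciple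
open scoped WeierstrassCurve.Affine MatrixGroups

local notation "Qbar" => AlgebraicClosure ℚ
local notation "GQ" => (AlgebraicClosure ℚ ≃ₐ[ℚ] AlgebraicClosure ℚ)

variable {P : FreyPackage} [Fact P.p.Prime] [P.freyCurve.IsElliptic] {M : ℕ} [NeZero M]
  {FL : FreyLevel P M} {D : ℕ} {qv : Fin D → ℕ} {n : ℕ}

/-- The residual system of the auxiliary level. -/
abbrev FreyTWDatum.sys (_T : FreyTWDatum FL qv n) : Nat.Primes → ResidueField ℤ_[P.p] :=
  intSys FL.W.apOfModel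

/-- Frobenius of the residual representation outside the bad primes of the auxiliary level. -/
theorem FreyTWDatum.hbar_sys (T : FreyTWDatum FL qv n) (ℓ : ℕ) (hℓ : ℓ.Prime) (hℓS : ℓ ∉ T.S)
    (B : ValuationSubring Qbar) (hB : B.LiesOverPrime ℓ) (σ : GQ) (hσ : B.IsFrobeniusAt σ ℓ) :
    LinearMap.charpoly ((curveRes P.p P.freyCurve).ρ σ) =
      Polynomial.X ^ 2 - Polynomial.C (T.sys ⟨ℓ, hℓ⟩) * Polynomial.X +
        Polynomial.C (ℓ : ResidueField ℤ_[P.p]) := by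
  have h := T.hbar ℓ hℓ hℓS B hB σ hσ
  have hlQ : (⟨ℓ, hℓ⟩ : Nat.Primes) ∉ T.Q := fun hm =>
    hℓS ((T.mem_S ℓ).mpr (Or.inr ((T.mem_Q _).mp hm)))
  rwa [show sysTop ℤ_[P.p] T.Q T.α (intSys (p := P.p) FL.W.apOfModel) ⟨ℓ, hℓ⟩ = T.sys ⟨ℓ, hℓ⟩
    from if_neg hlQ] at h

/-- The coordinates of the Hecke algebra at an auxiliary level, with their eigensystems. -/
structure FreyTWAct (T : FreyTWDatum FL qv n) : Type 1 where
  /-- The index type of the eigensystems, which is finite. -/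
  κ : Type
  [instFintype : Fintype κ]
  /-- The eigensystems, as points of the Taylor–Wiles level. -/
  pt : κ → TWPoint qv T.Ψ T.hΨ T.hneg T.S T.hNS T.sys
  /-- The action of the Hecke algebra in coordinates over the diamond ring. -/
  act : levelAlg ℤ_[P.p] T.Ψ T.hΨ T.hneg (goodSet T.S) →ₐ[ℤ_[P.p]]
    Matrix (Fin FL.d) (Fin FL.d)
      (MvPowerSeries (Fin D) ℤ_[P.p] ⧸ diamondIdeal (𝒪 := ℤ_[P.p]) P.p T.lv)
  act_idem : act (levelIdem ℤ_[P.p] T.Ψ T.hΨ T.hneg (goodSet T.S) T.sys) = 1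
  act_dia : ∀ δ, act (levelElt ℤ_[P.p] T.Ψ T.hΨ T.hneg (goodSet T.S) (.inr δ)) =
    Matrix.scalar (Fin FL.d) (diaClass (O := ℤ_[P.p]) δ)
  act_ker : ∀ y, (∀ j, (pt j).ev y = 0) ↔ act y = 0
  act_Tm : ∀ (ℓ : ℕ) (hℓ : ℓ.Prime) (hℓS : ℓ ∉ T.S),
    (act (twGood T.Ψ T.hΨ T.hneg T.S T.hNS ⟨ℓ, hℓ⟩ hℓS)).map
        (Ideal.Quotient.lift _ MvPowerSeries.constantCoeff (diamondIdeal_aug P.p T.lv)) = FL.Tm ℓ

attribute [instance] FreyTWAct.instFintype

/-- Complex conjugation has determinant `-1`. -/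
theorem curveRes_odd (p : ℕ) [Fact p.Prime] (E : WeierstrassCurve ℚ) [E.IsElliptic] :
    ∃ c : GQ, c * c = 1 ∧ LinearMap.det ((curveRes p E).ρ c) = -1 := by
  have : NeZero p := ⟨(Fact.out : p.Prime).ne_zero⟩
  refine ⟨complexConjugation, complexConjugation_mul_self, ?_⟩
  let : Algebra (ZMod p) (ResidueField ℤ_[p]) := (toPadicRes p).toAlgebra
  have hn := Ihara.card_rootsOfUnity_Qbar p
  have h : LinearMap.det ((EC.residualRep E p).ρ complexConjugation) = -1 := by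
    refine (Ihara.det_galoisRepModuleEnd E hn complexConjugation).trans ?_
    exact Ihara.cyclotomicCharacter_complexConjugation hn
  refine (LinearMap.det_baseChange ((EC.residualRep E p).ρ complexConjugation)).trans ?_
  rw [h, map_neg, map_one]

/-- Frey's representation is unramified at auxiliary primes. -/
theorem curveRes_isUnramifiedAt {q : ℕ} (hq : q.Prime) (hq2 : q ≠ 2) (hqp : q ≠ P.p) :
    (curveRes P.p P.freyCurve).IsUnramifiedAt q := fun A hA σ hσ => by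
  let : Algebra (ZMod P.p) (ResidueField ℤ_[P.p]) := (toPadicRes P.p).toAlgebra
  have h : (EC.residualRep P.freyCurve P.p).ρ σ = 1 :=
    LinearMap.ext fun x => Tate.frey_galoisRepUnramifiedAt P hq hq2 hqp A hA σ hσ x
  show ((EC.residualRep P.freyCurve P.p).ρ σ).baseChange (ResidueField ℤ_[P.p]) = 1
  rw [h]
  exact LinearMap.baseChange_id

variable (hirr : GaloisRepIsIrreducible (K := Qbar) ℚ P.freyCurve P.p)
  {T : FreyTWDatum FL qv n} (A : FreyTWAct T)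

/-- The operators as a function of a natural number. -/
def FreyTWDatum.opGood (T : FreyTWDatum FL qv n) (ℓ : ℕ) :
    levelAlg ℤ_[P.p] T.Ψ T.hΨ T.hneg (goodSet T.S) :=
  if h : ℓ.Prime ∧ ℓ ∉ T.S then twGood T.Ψ T.hΨ T.hneg T.S T.hNS ⟨ℓ, h.1⟩ h.2 else 0

theorem FreyTWDatum.opGood_eq (T : FreyTWDatum FL qv n) {ℓ : ℕ} (hℓ : ℓ.Prime) (hℓS : ℓ ∉ T.S) :
    T.opGood ℓ = twGood T.Ψ T.hΨ T.hneg T.S T.hNS ⟨ℓ, hℓ⟩ hℓS :=
  dif_pos ⟨hℓ, hℓS⟩

theorem FreyTWDatum.p_mem (T : FreyTWDatum FL qv n) : P.p ∈ T.S :=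
  (T.mem_S P.p).mpr (Or.inl (mem_badSet_self M P.p FL.W))

omit [P.freyCurve.IsElliptic] in
theorem natCast_p_mem : (P.p : ℤ_[P.p]) ∈ maximalIdeal ℤ_[P.p] := by
  rw [PadicInt.maximalIdeal_eq_span_p]; exact Ideal.mem_span_singleton_self _

/-- Modulo the diamonds the good operators act as at the minimal level. -/
theorem FreyTWAct.act_opGood_aug (A : FreyTWAct T) :
    ∀ ℓ : ℕ, ℓ.Prime → ℓ ∉ T.S → (A.act (T.opGood ℓ)).map
      (Ideal.Quotient.lift _ MvPowerSeries.constantCoeff (diamondIdeal_aug P.p T.lv)) = FL.Tm ℓ :=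
  fun ℓ hℓ hℓS => by rw [T.opGood_eq hℓ hℓS]; exact A.act_Tm ℓ hℓ hℓS

include hirr in
/-- The core of an auxiliary level. -/
theorem FreyTWAct.nonempty_pointCore :
    Nonempty (PointCore P.p (curveRes P.p P.freyCurve) (diamondIdeal (𝒪 := ℤ_[P.p]) P.p T.lv) T.S
      A.act T.opGood (fun j => (A.pt j).R) (fun j => (A.pt j).ev) fun j => (A.pt j).H.ρ) := by
  classical
  have hp : P.p.Prime := Fact.out
  have hp2 : P.p ≠ 2 := by have := P.hp5; omega
  have := finite_padicRes P.p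
  have : NeZero FL.d := ⟨FL.d_pos.ne'⟩
  have := finite_levelAlg ℤ_[P.p] T.Ψ T.hΨ T.hneg (goodSet T.S)
  have h2 := isUnit_two_padicInt P
  have hI := isIdemAt_levelIdem ℤ_[P.p] T.Ψ T.hΨ T.hneg (goodSet T.S) T.sys
  have : Nontrivial (MvPowerSeries (Fin D) ℤ_[P.p] ⧸ diamondIdeal (𝒪 := ℤ_[P.p]) P.p T.lv) :=
    (Ideal.Quotient.lift (diamondIdeal (𝒪 := ℤ_[P.p]) P.p T.lv) MvPowerSeries.constantCoeff
      (diamondIdeal_aug P.p T.lv)).domain_nontrivial
  let c : ℕ → ℤ_[P.p] := fun ℓ => if h : ℓ.Prime then liftSys ℤ_[P.p] T.sys ⟨ℓ, h⟩ else 0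
  have hc : ∀ ℓ : ℕ, ℓ.Prime → ℓ ∉ T.S → T.opGood ℓ - algebraMap ℤ_[P.p] _ (c ℓ) ∈
      sysIdeal ℤ_[P.p] T.Ψ T.hΨ T.hneg (goodSet T.S) T.sys := fun ℓ hℓ hℓS => by
    refine Set.mem_of_eq_of_mem (congrArg₂ (fun x y => x - algebraMap ℤ_[P.p] _ y)
      (T.opGood_eq hℓ hℓS) (dif_pos hℓ)) ?_
    exact twElt_sub_mem T.Ψ T.hΨ T.hneg (goodSet T.S) T.sys ⟨⟨ℓ, hℓ⟩, hℓS⟩
      fun h => hℓS (T.hNS ℓ hℓ h)
  have hbar : ∀ ℓ : ℕ, ℓ.Prime → ℓ ∉ T.S → ∀ B : ValuationSubring Qbar, B.LiesOverPrime ℓ →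
      ∀ σ : GQ, B.IsFrobeniusAt σ ℓ →
        LinearMap.charpoly ((curveRes P.p P.freyCurve).ρ σ) =
          Polynomial.X ^ 2 - Polynomial.C (residue ℤ_[P.p] (c ℓ)) * Polynomial.X +
            Polynomial.C (ℓ : ResidueField ℤ_[P.p]) := fun ℓ hℓ hℓS B hB σ hσ => by
    have e : residue ℤ_[P.p] (c ℓ) = T.sys ⟨ℓ, hℓ⟩ := (congrArg _ (dif_pos hℓ)).trans
      (residue_liftSys ℤ_[P.p] T.sys ⟨ℓ, hℓ⟩)
    rw [e]
    exact T.hbar_sys ℓ hℓ hℓS B hB σ hσ
  have hfrob : ∀ j, ∀ ℓ : ℕ, ℓ.Prime → ℓ ∉ T.S → ∀ B : ValuationSubring Qbar, B.LiesOverPrime ℓ →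
      ∀ σ : GQ, B.IsFrobeniusAt σ ℓ →
        LinearMap.charpoly ((A.pt j).H.ρ.ρ σ) =
          Polynomial.X ^ 2 - Polynomial.C ((A.pt j).ev (T.opGood ℓ)) * Polynomial.X +
            Polynomial.C (ℓ : (A.pt j).R) := fun j ℓ hℓ hℓS B hB σ hσ => by
    rw [T.opGood_eq hℓ hℓS]
    exact (A.pt j).charpoly_frob ℓ hℓ hℓS B hB σ hσ
  exact exists_pointCore (O := ℤ_[P.p]) (p := P.p) (ρbar := curveRes P.p P.freyCurve)
    (D := D) (d := FL.d) (S := T.S) h2 natCast_p_mem (frey_curveRes_facts P hirr).1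
    (curveRes_odd P.p P.freyCurve) (diamondIdeal (𝒪 := ℤ_[P.p]) P.p T.lv)
    (A := levelAlg ℤ_[P.p] T.Ψ T.hΨ T.hneg (goodSet T.S)) A.act
    (𝔫 := sysIdeal ℤ_[P.p] T.Ψ T.hΨ T.hneg (goodSet T.S) T.sys)
    (e := levelIdem ℤ_[P.p] T.Ψ T.hΨ T.hneg (goodSet T.S) T.sys) hI
    A.act_idem T.opGood c hc hbar (fun j => (A.pt j).R)
    (fun j => (A.pt j).ev) (fun j z hz => (A.act_ker z).mpr hz j) (fun z hz => (A.act_ker z).mp hz)
    (fun j => (A.pt j).H.ρ) hfrob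

theorem FreyTWDatum.not_sq_dvd (T : FreyTWDatum FL qv n) (hsq : ∀ q : ℕ, q.Prime → ¬ q ^ 2 ∣ M)
    {l : ℕ} (hl : l.Prime) (hlM : l ∣ M) : ¬ l ^ 2 ∣ T.N := fun h => by
  have hcop : (l ^ 2).Coprime (∏ x ∈ T.Q, (x : ℕ)) := by
    refine (Nat.Coprime.prod_right fun x hx => ?_).pow_left 2
    exact (Nat.coprime_primes hl x.2).mpr fun e => T.not_dvd x hx (e ▸ hlM)
  rw [T.hN] at h
  exact hsq l hl (hcop.dvd_of_dvd_mul_right h)

include hirr A in
/-- **The level above the minimal level.** -/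
theorem FreyTWAct.exists_levelData (hcond : P.IsConductorLevel M) (hpM : ¬ P.p ∣ M) {g : ℕ}
    (L : Submodule (ResidueField ℤ_[P.p]) ((decQ ((pP P.p : Nat.Primes) : ℕ) →
      sl2 (ResidueField ℤ_[P.p])) ⧸ B1 (resRep (adRep (rbar (curveBasis P.p P.freyCurve)))
        (decQ ((pP P.p : Nat.Primes) : ℕ)))))
    (hloc : ∀ c ∈ Z1 lvQ (adRep (rbar (curveBasis P.p P.freyCurve))),
      (∃ (ρ' : GaloisRepAdic (DualNumber (ResidueField ℤ_[P.p])))
          (b' : Basis (Fin 2) (DualNumber (ResidueField ℤ_[P.p])) ρ'.V),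
        ρ'.IsFlatAt P.p ∧ ∀ g, matrixRep b' ρ'.ρ g =
          (rbar (curveBasis P.p P.freyCurve) g).map TrivSqZeroExt.inl +
            ((c g : M2 (ResidueField ℤ_[P.p])) * rbar (curveBasis P.p P.freyCurve) g).map
              TrivSqZeroExt.inr) →
      c ∈ condAt (adRep (rbar (curveBasis P.p P.freyCurve))) L)
    (hfin : FiniteDimensional (ResidueField ℤ_[P.p])
      (classes (adRep (rbar (curveBasis P.p P.freyCurve)))
        (FL.SP.strictSpace (condAt (adRep (rbar (curveBasis P.p P.freyCurve))) L) qv)))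
    (hle : finrank (ResidueField ℤ_[P.p])
      (classes (adRep (rbar (curveBasis P.p P.freyCurve)))
        (FL.SP.strictSpace (condAt (adRep (rbar (curveBasis P.p P.freyCurve))) L) qv)) ≤ g) :
    ∃ Lv : LevelData FL.SP g D FL.d FL.Tm T.S,
      Lv.core.J = diamondIdeal (𝒪 := ℤ_[P.p]) P.p T.lv := by
  classical
  have hp : P.p.Prime := Fact.out
  have := finite_padicRes P.p
  obtain ⟨C⟩ := A.nonempty_pointCore hirr
  have hpq : ∀ i, P.p ≠ qv i := fun i h => T.not_p_dvd (h ▸ T.dvd_N i)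
  have hq2 : ∀ i, qv i ≠ 2 := fun i h => by
    have h1 := Nat.le_of_dvd (by omega)
      ((dvd_pow_self P.p (Nat.ne_zero_of_lt (T.lt_lv i))).trans (T.dvd_sub i))
    have := P.hp5
    omega
  obtain ⟨δ, act', -, hC, -, -, haug, hsq⟩ := exists_twTame_act A.pt A.act C A.act_dia A.act_ker
    natCast_p_mem T.p_mem T.inj T.prime hpq T.dvd_N
    (fun i h => T.isTW.once i (by rwa [← pow_two])) (fun i => Nat.one_le_of_lt (T.lt_lv i))
    T.dvd_sub T.not_dvd_sub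
    (fun i => curveRes_isUnramifiedAt (T.prime i) (hq2 i) fun h => hpq i h.symm)
    (fun i => by
      obtain ⟨B, hB⟩ := Gal.exists_liesOverPrime (T.prime i)
      obtain ⟨φ, hφ⟩ := Gal.exists_isFrobeniusAt (T.prime i) hB
      exact ⟨B, φ, _, _, hB, hφ,
        T.ne _ ((T.mem_Q ⟨qv i, T.prime i⟩).mpr ⟨i, rfl⟩), T.charpoly_qv i B hB φ hφ⟩)
  have hnotQ : ∀ l, l ∣ M → ∀ i, qv i ≠ l := fun l hlM i h =>
    T.not_dvd _ ((T.mem_Q ⟨qv i, T.prime i⟩).mpr ⟨i, rfl⟩) (by rw [← h] at hlM; exact hlM)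
  have hdvd : M ∣ T.N := by rw [T.hN]; exact dvd_mul_right _ _
  have hunip : ∀ j (l : ℕ), l.Prime → l ∣ M → (A.pt j).H.ρ.IsUnipotentOnInertiaAt l :=
    fun j l hl hlM => (A.pt j).unipotent T.p_mem natCast_p_mem hl (fun e => hpM (e ▸ hlM))
      (hlM.trans hdvd) (T.not_sq_dvd (fun q hq => hcond.sq_not_dvd hq) hl hlM)
      fun i hi => absurd hi (hnotQ l hlM i)
  refine exists_levelData_of_core C _ A.act_opGood_aug FL.SP g act' hC haug hsq
    (fun j i => ?_) _ hfin hle (fun b hb δ hδ => ?_)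
  · obtain ⟨hl, -, hlM⟩ := (FL.r_mem (FL.SP.r i)).mp ⟨i, rfl⟩
    exact hunip j _ hl hlM
  · refine FL.tanCocycle_mem (ψ := fun j => (C.pt j).toRingHom) (hψ := C.pt_local) C.pt_injective
      (fun j => (A.pt j).H.ρ) C.pt_equiv C.residue_surjective qv
      (fun j => (A.pt j).flat T.p_mem natCast_p_mem T.not_p_dvd) (fun j l hl hlp hlM hlq => ?_)
      (fun j h2 => hunip j 2 Nat.prime_two h2) hb C.det L hloc δ hδ
    refine (A.pt j).unramified l hl (fun h => ?_) hlp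
    rw [T.hN] at h
    rcases hl.dvd_mul.mp h with h | h
    · exact hlM h
    · obtain ⟨x, hx, hlx⟩ := (hl.prime.dvd_finsetProd_iff _).mp h
      obtain ⟨i, hi⟩ := (T.mem_Q x).mp hx
      exact hlq i (hi.trans ((Nat.prime_dvd_prime_iff_eq hl x.2).mp hlx).symm)

include hirr A in
/-- The minimal level itself. -/
theorem FreyTWAct.nonempty_levelCore : Nonempty (LevelCore P.p (curveRes P.p P.freyCurve) D FL.d
    FL.Tm T.S) :=
  (A.nonempty_pointCore hirr).map fun C => C.levelCore _ A.act_opGood_aug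

/-- **The level supply from the coordinates of the auxiliary levels.** -/
theorem levelSupply_of_act (P : FreyPackage) [Fact P.p.Prime] [P.freyCurve.IsElliptic]
    (hact : GaloisRepIsIrreducible (K := Qbar) ℚ P.freyCurve P.p →
      ∀ (M : ℕ) [NeZero M], P.IsConductorLevel M → ¬ P.p ∣ M → ∀ (FL : FreyLevel P M) (D n : ℕ)
        (qv : Fin D → ℕ) (T : FreyTWDatum FL qv n), Nonempty (FreyTWAct T)) :
    LevelSupply P := by
  intro M _ hcond hpM hirr Lv L hloc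
  classical
  refine ⟨⟨0, ?_⟩, fun g D n qv hinj hq hsplit hfin hle => ?_⟩
  · obtain ⟨T⟩ := exists_freyTWDatum P hirr hpM Lv 0 (D := 0) (fun i => i.elim0)
      (fun i => i.elim0) (fun i => i.elim0) fun i => i.elim0
    have hS : T.S = badSet M P.p Lv.W := Finset.ext fun l => (T.mem_S l).trans
      (or_iff_left fun ⟨i, _⟩ => i.elim0)
    obtain ⟨A⟩ := hact hirr M hcond hpM Lv 0 0 _ T
    exact hS ▸ A.nonempty_levelCore hirr
  · obtain ⟨T⟩ := exists_freyTWDatum P hirr hpM Lv n qv hinj hq hsplit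
    obtain ⟨A⟩ := hact hirr M hcond hpM Lv D n qv T
    have hS : T.S = badSet M P.p Lv.W ∪ Finset.univ.image qv := Finset.ext fun l =>
      (T.mem_S l).trans (by simp)
    have key := A.exists_levelData hirr hcond hpM L hloc hfin hle
    rw [hS] at key
    obtain ⟨Lv', hJ⟩ := key
    exact ⟨T.lv, Lv', fun i => (T.lt_lv i).le, hJ.le⟩

end Fermat.Agent.LevelLowering.Scalar
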