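import Fermat.Agent.LevelLowering.Scalar.Main
import Fermat.Agent.LevelLowering.Scalar.Supply
import Fermat.Agent.LevelLowering.TWLevelAct

/-!
# The level supply of a Frey package

The coordinates of every auxiliary level exist, so every minimal level has the Taylor–Wiles levels
above it (`levelSupply`).
-/

noncomputable section

namespace Fermat.Agent.LevelLowering.Scalar

open IsLocalRing WeierstrassCurve.Affine.Point
open Fermat.Agent.Ihara Fermat.Agent.LoweringAtP.HeckeCompat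
  Fermat.Agent.LevelLowering.MazurPrinciple

local notation "Qbar" => AlgebraicClosure ℚ

variable {P : FreyPackage} [Fact P.p.Prime] [P.freyCurve.IsElliptic] {M : ℕ} [NeZero M]
  {FL : FreyLevel P M} {D : ℕ} {qv : Fin D → ℕ} {n : ℕ}

/-- The coordinates of every auxiliary level exist. -/
theorem nonempty_freyTWAct (hirr : GaloisRepIsIrreducible (K := Qbar) ℚ P.freyCurve P.p)
    (T : FreyTWDatum FL qv n) : Nonempty (FreyTWAct T) := by
  classical
  have := finite_padicRes P.p
  have hmem : ∀ i, (⟨qv i, T.prime i⟩ : Nat.Primes) ∈ T.Q := fun i => (T.mem_Q _).mpr ⟨i, rfl⟩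
  let f : Fin D → Nat.Primes := fun i => ⟨qv i, T.prime i⟩
  have hf : Function.Injective f := fun i j h => T.inj (congrArg Subtype.val h)
  have hQ : T.Q = Finset.univ.image f := Finset.ext fun l => (T.mem_Q l).trans
    ⟨fun ⟨i, hi⟩ => Finset.mem_image.mpr ⟨i, Finset.mem_univ i, Subtype.ext hi⟩, fun h => by
      obtain ⟨i, -, rfl⟩ := Finset.mem_image.mp h
      exact ⟨i, rfl⟩⟩
  have hNM : T.N = M * ∏ i, qv i :=
    T.hN.trans (congrArg (M * ·) (by
      rw [hQ]; exact Finset.prod_image (f := fun l : Nat.Primes => (l : ℕ)) hf.injOn))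
  have hgood : goodPrimes (badSet M P.p FL.W) = goodSet (badSet M P.p FL.W) := rfl
  obtain ⟨κ, hκ, pt, act, h1, h2, h3, h4⟩ := exists_twLevelAct T.Ψ T.isTW T.hΨ T.hneg hNM
    (fun i => T.not_dvd _ (hmem i)) (fun i => Nat.one_le_of_lt (T.lt_lv i)) T.dvd_sub T.hker
    (badSet M P.p FL.W) T.S T.mem_S (mem_badSet_self M P.p FL.W) T.not_bad T.hNS T.sys
    natCast_p_mem (frey_curveRes_facts P hirr).1 T.hbar_sys
    (fun i => T.α ⟨qv i, T.prime i⟩) (fun i => T.β ⟨qv i, T.prime i⟩)
    (fun i => T.mul_eq _ (hmem i)) (fun i => T.ne _ (hmem i))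
    (fun i => by
      have h := congrFun T.sys_bot ⟨qv i, T.prime i⟩
      exact h.symm.trans (if_pos (hmem i)))
    ⟨T.ℓ₀, T.ℓ₀_mem, T.ℓ₀_N, T.ℓ₀_sys⟩ FL.v (hgood ▸ FL.fix) (hgood ▸ FL.basis) FL.Tm
    (hgood ▸ FL.Tm_spec)
  exact ⟨@FreyTWAct.mk P _ _ M _ FL D qv n T κ hκ pt act h1 h2 h3 h4⟩

/-- **The Taylor–Wiles levels above every minimal level.** -/
theorem levelSupply (P : FreyPackage) [Fact P.p.Prime] [P.freyCurve.IsElliptic] : LevelSupply P :=
  levelSupply_of_act P fun hirr _ _ _ _ _ _ _ _ T => nonempty_freyTWAct hirr T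

end Fermat.Agent.LevelLowering.Scalar
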