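import Fermat.Agent.LevelLowering.Scalar.Glue
import Fermat.Agent.S44

/-!
# Level lowering at an odd prime of a conductor level

An odd prime can be removed from a conductor level at which `E[p]` is modular, given the supply
of Taylor–Wiles levels.
-/

noncomputable section

namespace Fermat.Agent.LevelLowering.Scalar

open WeierstrassCurve.Affine.Point

/-- **Level lowering at `q ≠ 2`**, given the Taylor–Wiles levels. -/
theorem level_lowering_odd_of_levelSupply
    (hS : ∀ (P : FreyPackage) [Fact P.p.Prime] [P.freyCurve.IsElliptic], LevelSupply P)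
    (P : FreyPackage) {N q : ℕ} (hcond : P.IsConductorLevel N) (hq : q.Prime) (hq2 : q ≠ 2)
    (hirr : GaloisRepIsIrreducible (K := AlgebraicClosure ℚ) ℚ P.freyCurve P.p)
    (hmod : P.ModularRepOfLevel N) :
    ∃ M, M ∣ N ∧ ¬ q ∣ M ∧ P.ModularRepOfLevel M := by
  have : Fact P.p.Prime := ⟨P.pp⟩
  have := Frey.isElliptic_freyCurve P
  exact lowering_of_levelSupply P (hS P)
    (fun _ hc hpM hm => Fermat.Agent.S44.result P hc hpM hirr hm) hirr hcond hq hq2 hmod

end Fermat.Agent.LevelLowering.Scalar
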